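import Fermat.Agent.TEll.BRLift

/-!
# T-Ell, piece BR (helper22): lifting of finite-level inertia elements, Galois-group form

`h22_lift_inertia`: for a finite Galois `M/ℚ` inside `ℚ̄` and `τ ∈ Gal(M/ℚ)` with
`τ x - x ∈ 𝔪_A` for all integral `x ∈ M`, some `σ ∈ I_A` restricts to `τ` on `M`.
-/

set_option autoImplicit false
set_option linter.style.haveILetI false

namespace Fermat.Agent.H22BR

local notation "Qb" => AlgebraicClosure ℚ
local notation "Γ" => (AlgebraicClosure ℚ ≃ₐ[ℚ] AlgebraicClosure ℚ)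

/-- **Lifting of inertia, Galois-group form** (normal `M`, no finiteness needed). -/
theorem h22_lift_inertia_of_normal (M : IntermediateField ℚ Qb) [Normal ℚ M]
    (A : ValuationSubring Qb) {q : ℕ} (hq : q.Prime) (hA : A.LiesOverPrime q)
    (τ : M ≃ₐ[ℚ] M)
    (hτ : ∀ x : M, IsIntegral ℤ x → ((τ x : M) : Qb) - ((x : M) : Qb) ∈ A.nonunits) :
    ∃ σ : Γ, σ ∈ A.inertiaSubgroupIn ℚ ∧ ∀ x : M, σ (x : Qb) = ((τ x : M) : Qb) := by
  haveI halg : Algebra.IsAlgebraic ℚ Qb := AlgebraicClosure.isAlgebraic ℚ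
  haveI hnorm : Normal ℚ Qb := normal_iff.2 fun x =>
    ⟨(halg.isAlgebraic x).isIntegral, IsAlgClosed.splits _⟩
  have hcomm : ∀ x : M, (τ.liftNormal Qb) (x : Qb) = ((τ x : M) : Qb) := fun x =>
    τ.liftNormal_commutes Qb x
  obtain ⟨σ, hσ, hσM⟩ := h22_lift M A hq hA (τ.liftNormal Qb) (by
    intro b hb hbM
    have hint : IsIntegral ℤ (⟨b, hbM⟩ : M) := by
      have hinj : Function.Injective (algebraMap M Qb) := (algebraMap M Qb).injective
      exact (isIntegral_algebraMap_iff hinj).1 hb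
    have h := hτ ⟨b, hbM⟩ hint
    have h2 := hcomm ⟨b, hbM⟩
    simp only at h2
    rw [h2]
    exact h)
  exact ⟨σ, hσ, fun x => (hσM x x.2).trans (hcomm x)⟩

/-- **Lifting of inertia, Galois-group form.** -/
theorem h22_lift_inertia (M : IntermediateField ℚ Qb) [FiniteDimensional ℚ M] [IsGalois ℚ M]
    (A : ValuationSubring Qb) {q : ℕ} (hq : q.Prime) (hA : A.LiesOverPrime q)
    (τ : M ≃ₐ[ℚ] M)
    (hτ : ∀ x : M, IsIntegral ℤ x → ((τ x : M) : Qb) - ((x : M) : Qb) ∈ A.nonunits) :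
    ∃ σ : Γ, σ ∈ A.inertiaSubgroupIn ℚ ∧ ∀ x : M, σ (x : Qb) = ((τ x : M) : Qb) :=
  h22_lift_inertia_of_normal M A hq hA τ hτ

end Fermat.Agent.H22BR
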