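import Mathlib
import Fermat.Prelude.Def_FLTPrelim_Ramification
import Fermat.Agent.S05.Inertia
import Fermat.Agent.S54.Frobenius

/-!
# T-Ell, piece BR (helper22): inertia groups of valuation subrings of `ℚ̄` via integers,
and lifting of finite-level inertia elements

* `h22_mem_inertia_iff`: `σ ∈ I_A ↔ ∀ b integral over ℤ, σ b - b ∈ 𝔪_A`.
* `h22_lift`: if `M/ℚ` is normal and `σ₁ ∈ Gal(ℚ̄/ℚ)` satisfies `σ₁ b - b ∈ 𝔪_A` for all
  integral `b ∈ M`, then some `σ ∈ I_A` agrees with `σ₁` on `M`.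
-/

set_option autoImplicit false
set_option linter.style.haveILetI false

namespace Fermat.Agent.H22BR

open scoped Pointwise
open Fermat.Agent.H9

local notation "Qb" => AlgebraicClosure ℚ
local notation "Γ" => (AlgebraicClosure ℚ ≃ₐ[ℚ] AlgebraicClosure ℚ)
local notation "𝔹" => integralClosure ℤ (AlgebraicClosure ℚ)

/-- A unit of `A` plus an element of the maximal ideal is not in the maximal ideal. -/
theorem h22_not_mem_nonunits_of_sub {L : Type*} [Field L] (A : ValuationSubring L) {c d : L}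
    (hc : c ∉ A.nonunits) (hd : d - c ∈ A.nonunits) : d ∉ A.nonunits := by
  intro h
  apply hc
  have : c = d - (d - c) := by ring
  rw [this]
  exact A.nonunits.sub_mem h hd

/-- An element of `A` which is not in the maximal ideal has its inverse in `A`. -/
theorem h22_inv_mem {L : Type*} [Field L] (A : ValuationSubring L) {c : L} (hcA : c ∈ A)
    (hc : c ∉ A.nonunits) : c⁻¹ ∈ A := by
  rw [A.mem_nonunits_iff] at hc
  have h1 : A.valuation c = 1 :=
    le_antisymm ((A.valuation_le_one_iff c).2 hcA) (not_lt.1 hc)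
  rw [← A.valuation_le_one_iff, map_inv₀, h1, inv_one]

/-- **Inertia via integers.** -/
theorem h22_mem_inertia_iff (A : ValuationSubring Qb) {q : ℕ} (hq : q.Prime)
    (hA : A.LiesOverPrime q) (σ : Γ) :
    σ ∈ A.inertiaSubgroupIn ℚ ↔ ∀ b : Qb, IsIntegral ℤ b → σ b - b ∈ A.nonunits := by
  constructor
  · intro hσ b hb
    exact h9_inertia_apply_sub_mem_nonunits A hσ (h9_mem_of_isIntegral A hb)
  · intro h
    -- the same property for `σ⁻¹`
    have hinv : ∀ b : Qb, IsIntegral ℤ b → σ⁻¹ b - b ∈ A.nonunits := by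
      intro b hb
      have hb' : IsIntegral ℤ (σ⁻¹ b) := hb.map (σ⁻¹ : Γ).toAlgHom.toIntAlgHom
      have h1 := h (σ⁻¹ b) hb'
      have h2 : σ (σ⁻¹ b) = b := by
        show (σ * σ⁻¹) b = b
        simp
      rw [h2] at h1
      have : σ⁻¹ b - b = -(b - σ⁻¹ b) := by ring
      rw [this]
      exact A.nonunits.neg_mem h1
    -- key: for `x ∈ A`, `τ x ∈ A` and `τ x - x ∈ 𝔪_A` whenever `τ` has the property
    have key : ∀ τ : Γ, (∀ b : Qb, IsIntegral ℤ b → τ b - b ∈ A.nonunits) →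
        ∀ x ∈ A, τ x ∈ A ∧ τ x - x ∈ A.nonunits := by
      intro τ hτ x hx
      obtain ⟨c, hc, hcx⟩ := h9_exists_unit_mul_mem A hq hA x hx (h9_isAlgebraic_int x)
      have hcA : (c : Qb) ∈ A := h9_mem_of_isIntegral A c.2
      have hτc : τ (c : Qb) ∉ A.nonunits := h22_not_mem_nonunits_of_sub A hc (hτ _ c.2)
      have hτcint : IsIntegral ℤ (τ (c : Qb)) := c.2.map τ.toAlgHom.toIntAlgHom
      have hτcA : τ (c : Qb) ∈ A := h9_mem_of_isIntegral A hτcint
      have hc0 : (c : Qb) ≠ 0 := fun h0 => hc (by rw [h0]; exact A.nonunits.zero_mem)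
      have hτc0 : τ (c : Qb) ≠ 0 := fun h0 => hτc (by rw [h0]; exact A.nonunits.zero_mem)
      have hcinv : (c : Qb)⁻¹ ∈ A := h22_inv_mem A hcA hc
      have hτcinv : (τ (c : Qb))⁻¹ ∈ A := h22_inv_mem A hτcA hτc
      set b : Qb := (c : Qb) * x with hb
      have hbint : IsIntegral ℤ b := hcx
      have hτbint : IsIntegral ℤ (τ b) := hbint.map τ.toAlgHom.toIntAlgHom
      have hx_eq : x = b * (c : Qb)⁻¹ := by
        rw [hb]
        field_simp
      have hτx_eq : τ x = τ b * (τ (c : Qb))⁻¹ := by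
        rw [hx_eq, map_mul, map_inv₀]
      refine ⟨?_, ?_⟩
      · rw [hτx_eq]
        exact A.mul_mem _ _ (h9_mem_of_isIntegral A hτbint) hτcinv
      · have e : τ x - x = ((τ b - b) * (c : Qb) - b * (τ (c : Qb) - c)) *
            ((c : Qb)⁻¹ * (τ (c : Qb))⁻¹) := by
          rw [hτx_eq]
          conv_lhs => rw [hx_eq]
          field_simp
          ring
        rw [e]
        refine h9_mul_mem_nonunits A ?_ (A.mul_mem _ _ hcinv hτcinv)
        refine A.nonunits.sub_mem ?_ ?_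
        · exact h9_mul_mem_nonunits A (hτ _ hbint) hcA
        · rw [mul_comm]
          exact h9_mul_mem_nonunits A (hτ _ c.2) (h9_mem_of_isIntegral A hbint)
    -- `σ` is in the decomposition group
    have hdec : σ ∈ A.decompositionSubgroup ℚ := by
      rw [ValuationSubring.decompositionSubgroup, MulAction.mem_stabilizer_iff]
      ext x
      rw [ValuationSubring.mem_pointwise_smul_iff_inv_smul_mem]  -- may need adjusting
      constructor
      · intro hx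
        have := (key σ h _ hx).1
        simpa using this
      · intro hx
        exact (key σ⁻¹ hinv x hx).1
    refine ⟨⟨σ, hdec⟩, ?_, rfl⟩
    show MulSemiringAction.toRingAut (A.decompositionSubgroup ℚ) (IsLocalRing.ResidueField A)
      ⟨σ, hdec⟩ = 1
    ext r
    obtain ⟨a, rfl⟩ := IsLocalRing.residue_surjective r
    show (⟨σ, hdec⟩ : A.decompositionSubgroup ℚ) • (IsLocalRing.residue A a) =
      IsLocalRing.residue A a
    rw [← IsLocalRing.ResidueField.residue_smul, ← sub_eq_zero, ← map_sub,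
      IsLocalRing.residue_eq_zero_iff, ← ValuationSubring.coe_mem_nonunits_iff]
    exact (key σ h a a.2).2

/-! ### The prime of `𝔹` cut out by `A` -/

/-- The ring hom `𝔹 → A`. -/
noncomputable def h22_toA (A : ValuationSubring Qb) : 𝔹 →+* A where
  toFun b := ⟨(b : Qb), h9_mem_of_isIntegral A b.2⟩
  map_one' := rfl
  map_mul' _ _ := rfl
  map_zero' := rfl
  map_add' _ _ := rfl

/-- The prime ideal `𝔪_A ∩ 𝔹` of `𝔹`. -/
noncomputable def h22_prime (A : ValuationSubring Qb) : Ideal 𝔹 :=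
  (IsLocalRing.maximalIdeal A).comap (h22_toA A)

theorem h22_mem_prime (A : ValuationSubring Qb) (b : 𝔹) :
    b ∈ h22_prime A ↔ (b : Qb) ∈ A.nonunits := by
  show h22_toA A b ∈ IsLocalRing.maximalIdeal A ↔ _
  rw [← ValuationSubring.coe_mem_nonunits_iff]
  exact Iff.rfl

instance h22_prime_isPrime (A : ValuationSubring Qb) : (h22_prime A).IsPrime :=
  Ideal.comap_isPrime (h22_toA A) _

local instance h22_isAlgebraicQbar : Algebra.IsAlgebraic ℚ (AlgebraicClosure ℚ) :=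
  AlgebraicClosure.isAlgebraic ℚ

section Lift

variable (M : IntermediateField ℚ Qb)

local instance h22_isAlgebraicM : Algebra.IsAlgebraic M Qb :=
  Algebra.IsAlgebraic.tower_top (K := ℚ) M

local instance h22_isAlgClosureM : IsAlgClosure M Qb := ⟨inferInstance, inferInstance⟩

/-- The integers fixed by `Gal(ℚ̄/M)`. -/
noncomputable abbrev h22_R : Subalgebra ℤ 𝔹 := FixedPoints.subalgebra ℤ 𝔹 (Qb ≃ₐ[M] Qb)

local instance h22_smulComm : SMulCommClass (Qb ≃ₐ[M] Qb) (h22_R M) 𝔹 :=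
  ⟨fun g r b => by
    show g • ((r : 𝔹) * b) = (r : 𝔹) * (g • b)
    rw [smul_mul', r.2 g]⟩

local instance h22_isInvariant : Algebra.IsInvariant (h22_R M) 𝔹 (Qb ≃ₐ[M] Qb) :=
  ⟨fun b hb => ⟨⟨b, hb⟩, rfl⟩⟩

/-- Elements of `𝔹` fixed by `Gal(ℚ̄/M)` lie in `M`. -/
theorem h22_coe_mem_of_mem_R (r : h22_R M) : ((r : 𝔹) : Qb) ∈ M := by
  have h : ((r : 𝔹) : Qb) ∈ Set.range (algebraMap M Qb) := by
    rw [InfiniteGalois.mem_range_algebraMap_iff_fixed]
    intro g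
    have := congrArg (fun y : 𝔹 => (y : Qb)) (r.2 g)
    simpa using this
  obtain ⟨m, hm⟩ := h
  rw [← hm]
  exact m.2

/-- Elements of `𝔹` lying in `M` are fixed by `Gal(ℚ̄/M)`. -/
theorem h22_mem_R_of_coe_mem (b : 𝔹) (hb : (b : Qb) ∈ M) : b ∈ h22_R M := by
  intro g
  apply Subtype.ext
  show g (b : Qb) = (b : Qb)
  exact g.commutes ⟨(b : Qb), hb⟩

/-- Normality: `σ` maps `M` into `M`. -/
theorem h22_apply_mem_of_normal [Normal ℚ M] (σ : Γ) {x : Qb} (hx : x ∈ M) : σ x ∈ M := by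
  have h := AlgEquiv.restrictNormal_commutes σ M ⟨x, hx⟩
  have h2 : σ x = algebraMap M Qb (σ.restrictNormal M ⟨x, hx⟩) := h.symm
  rw [h2]
  exact (σ.restrictNormal M ⟨x, hx⟩).2

/-- The element of `Γ` underlying an element of `Gal(ℚ̄/M)`. -/
noncomputable def h22_res (g : Qb ≃ₐ[M] Qb) : Γ := g.restrictScalars ℚ

theorem h22_res_apply (g : Qb ≃ₐ[M] Qb) (x : Qb) : h22_res M g x = g x := rfl

theorem h22_res_apply_of_mem (g : Qb ≃ₐ[M] Qb) {x : Qb} (hx : x ∈ M) : h22_res M g x = x :=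
  g.commutes ⟨x, hx⟩

theorem h22_res_inv_apply_of_mem (g : Qb ≃ₐ[M] Qb) {x : Qb} (hx : x ∈ M) :
    (h22_res M g)⁻¹ x = x := by
  have h := h22_res_apply_of_mem M g hx
  have h2 : (h22_res M g)⁻¹ (h22_res M g x) = x := by
    show ((h22_res M g)⁻¹ * h22_res M g) x = x
    simp
  rw [h] at h2
  exact h2

/-- **Lifting lemma.** If `M/ℚ` is normal and `σ₁` acts trivially modulo `𝔪_A` on the integers
of `M`, then some `σ` acting trivially modulo `𝔪_A` on all integers agrees with `σ₁` on `M`. -/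
theorem h22_lift_aux (A : ValuationSubring Qb) [Normal ℚ M] (σ₁ : Γ)
    (h₁ : ∀ b : Qb, IsIntegral ℤ b → b ∈ M → σ₁ b - b ∈ A.nonunits) :
    ∃ σ : Γ, (∀ b : Qb, IsIntegral ℤ b → σ b - b ∈ A.nonunits) ∧ ∀ x ∈ M, σ x = σ₁ x := by
  classical
  letI : TopologicalSpace 𝔹 := ⊥
  haveI : DiscreteTopology 𝔹 := ⟨rfl⟩
  haveI : ContinuousSMul (Qb ≃ₐ[M] Qb) 𝔹 := by
    rw [continuousSMul_iff_stabilizer_isOpen]
    intro x
    have h := stabilizer_isOpen_of_isIntegral (K := M) (L := Qb) (x : Qb)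
    convert h using 1
    ext g
    simp only [SetLike.mem_coe, MulAction.mem_stabilizer_iff]
    constructor
    · intro hg
      have := congrArg (fun y : 𝔹 => (y : Qb)) hg
      simpa using this
    · intro hg
      apply Subtype.ext
      simpa using hg
  set Q : Ideal 𝔹 := h22_prime A with hQ
  -- Step 1: `σ₁ • Q` and `Q` have the same contraction to `R`
  have hunder : Q.under (h22_R M) = (σ₁ • Q).under (h22_R M) := by
    ext r
    rw [Ideal.under_def, Ideal.under_def, Ideal.mem_comap, Ideal.mem_comap,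
      Ideal.mem_pointwise_smul_iff_inv_smul_mem]
    have hrM : ((r : 𝔹) : Qb) ∈ M := h22_coe_mem_of_mem_R M r
    have hr' : (((σ₁⁻¹ : Γ) • (r : 𝔹) : 𝔹) : Qb) ∈ M := h22_apply_mem_of_normal M σ₁⁻¹ hrM
    have h2 := h₁ _ ((σ₁⁻¹ : Γ) • (r : 𝔹) : 𝔹).2 hr'
    have h3 : σ₁ (((σ₁⁻¹ : Γ) • (r : 𝔹) : 𝔹) : Qb) = ((r : 𝔹) : Qb) := by
      show σ₁ (σ₁⁻¹ ((r : 𝔹) : Qb)) = _
      show (σ₁ * σ₁⁻¹) ((r : 𝔹) : Qb) = _
      simp
    rw [h3] at h2
    have h4 : (r : 𝔹) - (σ₁⁻¹ : Γ) • (r : 𝔹) ∈ Q := by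
      rw [hQ, h22_mem_prime]
      exact h2
    show (r : 𝔹) ∈ Q ↔ (σ₁⁻¹ : Γ) • (r : 𝔹) ∈ Q
    constructor
    · intro h
      have := Q.sub_mem h h4
      simpa using this
    · intro h
      have := Q.add_mem h4 h
      simpa using this
  -- Step 2: transitivity
  haveI : (σ₁ • Q).IsPrime := inferInstance
  obtain ⟨g, hg⟩ := Algebra.IsInvariant.exists_smul_of_under_eq_of_profinite
    (A := h22_R M) (B := 𝔹) (G := (Qb ≃ₐ[M] Qb)) Q (σ₁ • Q) hunder
  -- `hg : σ₁ • Q = g • Q`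
  set σ₂ : Γ := (h22_res M g)⁻¹ * σ₁ with hσ₂
  have hgQ : g • Q = (h22_res M g) • Q := by
    ext b
    rw [Ideal.mem_pointwise_smul_iff_inv_smul_mem, Ideal.mem_pointwise_smul_iff_inv_smul_mem]
    rfl
  have hσ₂Q : σ₂ • Q = Q := by
    rw [hσ₂, mul_smul, hg, hgQ, inv_smul_smul]
  have hσ₂M : ∀ x ∈ M, σ₂ x = σ₁ x := by
    intro x hx
    show (h22_res M g)⁻¹ (σ₁ x) = σ₁ x
    exact h22_res_inv_apply_of_mem M g (h22_apply_mem_of_normal M σ₁ hx)
  -- Step 3: the residue action of `σ₂` is trivial on `R / P`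
  have hσ₂stab : σ₂ ∈ MulAction.stabilizer Γ Q := hσ₂Q
  have hσ₂R : ∀ r : h22_R M, σ₂ • (r : 𝔹) - (r : 𝔹) ∈ Q := by
    intro r
    rw [hQ, h22_mem_prime]
    have hrM : ((r : 𝔹) : Qb) ∈ M := h22_coe_mem_of_mem_R M r
    show σ₂ ((r : 𝔹) : Qb) - ((r : 𝔹) : Qb) ∈ A.nonunits
    rw [hσ₂M _ hrM]
    exact h₁ _ (r : 𝔹).2 hrM
  let φ : (𝔹 ⧸ Q) ≃ₐ[ℤ ⧸ Q.under ℤ] (𝔹 ⧸ Q) :=
    Ideal.Quotient.stabilizerHom Q (Q.under ℤ) Γ ⟨σ₂, hσ₂stab⟩
  have hφ : ∀ b : 𝔹, φ (Ideal.Quotient.mk Q b) = Ideal.Quotient.mk Q (σ₂ • b) := fun b => rfl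
  let φ' : (𝔹 ⧸ Q) ≃ₐ[(h22_R M) ⧸ Q.under (h22_R M)] (𝔹 ⧸ Q) :=
    AlgEquiv.ofRingEquiv (f := φ.toRingEquiv) (by
      intro x
      obtain ⟨r, rfl⟩ := Ideal.Quotient.mk_surjective x
      show φ (Ideal.Quotient.mk Q (r : 𝔹)) = Ideal.Quotient.mk Q (r : 𝔹)
      rw [hφ]
      exact Ideal.Quotient.eq.mpr (hσ₂R r))
  obtain ⟨⟨g', hg'Q⟩, hg'⟩ := Ideal.Quotient.stabilizerHom_surjective_of_profinite
    (G := (Qb ≃ₐ[M] Qb)) (Q.under (h22_R M)) Q φ'
  have hg'eq : ∀ c : 𝔹, g' • c - σ₂ • c ∈ Q := by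
    intro c
    have h1 := congrArg (fun ψ : (𝔹 ⧸ Q) ≃ₐ[(h22_R M) ⧸ Q.under (h22_R M)] (𝔹 ⧸ Q) =>
      ψ (Ideal.Quotient.mk Q c)) hg'
    have h2 : Ideal.Quotient.mk Q (g' • c) = Ideal.Quotient.mk Q (σ₂ • c) := h1
    exact Ideal.Quotient.eq.mp h2
  refine ⟨(h22_res M g')⁻¹ * σ₂, ?_, ?_⟩
  · intro b hb
    -- `g' • x ∈ Q ↔ x ∈ Q`
    have hstab : ∀ x : 𝔹, g' • x ∈ Q ↔ x ∈ Q := by
      intro x
      have h1 : g' • x ∈ g' • Q ↔ x ∈ Q := Ideal.smul_mem_pointwise_smul_iff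
      rw [MulAction.mem_stabilizer_iff] at hg'Q
      rwa [hg'Q] at h1
    set b' : 𝔹 := ⟨b, hb⟩ with hb'
    set x : 𝔹 := ((h22_res M g')⁻¹ * σ₂) • b' - b' with hx
    have hx1 : g' • x = σ₂ • b' - g' • b' := by
      rw [hx, smul_sub]
      congr 1
      apply Subtype.ext
      show g' ((h22_res M g')⁻¹ (σ₂ b)) = σ₂ b
      have : (h22_res M g') ((h22_res M g')⁻¹ (σ₂ b)) = σ₂ b := by
        show ((h22_res M g') * (h22_res M g')⁻¹) (σ₂ b) = σ₂ b
        simp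
      exact this
    have hx2 : g' • x ∈ Q := by
      rw [hx1]
      have := Q.neg_mem (hg'eq b')
      simpa using this
    have hx3 : x ∈ Q := (hstab x).1 hx2
    rw [hQ, h22_mem_prime] at hx3
    exact hx3
  · intro x hx
    show (h22_res M g')⁻¹ (σ₂ x) = σ₁ x
    rw [hσ₂M x hx]
    exact h22_res_inv_apply_of_mem M g' (h22_apply_mem_of_normal M σ₁ hx)

/-- **Lifting lemma**, inertia form. -/
theorem h22_lift (A : ValuationSubring Qb) {q : ℕ} (hq : q.Prime) (hA : A.LiesOverPrime q)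
    [Normal ℚ M] (σ₁ : Γ)
    (h₁ : ∀ b : Qb, IsIntegral ℤ b → b ∈ M → σ₁ b - b ∈ A.nonunits) :
    ∃ σ ∈ A.inertiaSubgroupIn ℚ, ∀ x ∈ M, σ x = σ₁ x := by
  obtain ⟨σ, h1, h2⟩ := h22_lift_aux M A σ₁ h₁
  exact ⟨σ, (h22_mem_inertia_iff A hq hA σ).2 h1, h2⟩

end Lift

end Fermat.Agent.H22BR
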