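import Mathlib
import Fermat.Prelude.Def_FLTPrelim_FreyPackage
import Fermat.Prelude.Def_FLTPrelim_GaloisRep
import Fermat.Prelude.Def_FLTPrelim_Ramification
import Fermat.Prelude.Def_FLTPrelim_CofixedLine

/-!
# T-Ell (S13): interface (helper26)

`S13`: if the mod-`p` representation of the Frey curve is reducible, it has a Galois-stable
cofixed line.  This file fixes the EXACT statements of the pieces; `TEll/Fin.lean` proves the
statement of `S13` from them (`h26_s13_of_pieces`, `h26_s13_of_pieces'`).

Notation: `Qb = AlgebraicClosure ℚ`, `GQ = Qb ≃ₐ[ℚ] Qb`, `Tors P = E(Qb)[p]` for the Frey curve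
`E = P.freyCurve`, `p = P.p`, `I_A = A.inertiaSubgroupIn ℚ`.

Pieces (each a `Prop`; the owner of a piece proves `theorem … (P : FreyPackage) : Piece P`):

* `DP P`    : `Tors P` is nontrivial (a nonzero `p`-torsion point exists).
* `Card P`  : `Tors P` is finite with fewer than `p ^ 3` elements (so `dim ≤ 2`).
* `L2u P`   : every `σ ∈ I_A`, `A` over `2`, is unipotent on `Tors P`: `(σ - 1)² = 0`.
* `L2r P`   : no nonzero point of `Tors P` is fixed by all of `GQ` (no rational point of order `p`).
* `LQ P`    : (= S05, done) inertia at odd `q ≠ p` acts trivially on `Tors P`.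
* `LP P`    : for a Galois-stable line `N` and a place `A` over `p`, `I_A` acts trivially on `N`
              or on `V/N`.  (`LPunif P`: the same alternative for all `A` over `p` at once.)
* `BRex`    : a normal open subgroup of `GQ` containing, for every prime `q`, the inertia group
              of SOME place over `q`, is everything.  (`BRall`: … of EVERY place over `q`.)

`Fin.lean` needs: `DP`, `Card`, `L2u`, `L2r`, `LQ` and EITHER (`LP` and `BRex`) OR
(`LPunif` and `BRall`).
-/

set_option autoImplicit false

open WeierstrassCurve WeierstrassCurve.Affine WeierstrassCurve.Affine.Point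

namespace Fermat.Agent.TEll

/-- The algebraic closure of `ℚ` used in the frozen statements. -/
abbrev Qb : Type := AlgebraicClosure ℚ

/-- The absolute Galois group of `ℚ`. -/
abbrev GQ : Type := Qb ≃ₐ[ℚ] Qb

/-- The `p`-torsion of the Frey curve over `Qb`. -/
abbrev Tors (P : FreyPackage) : Type :=
  Submodule.torsionBy ℤ (P.freyCurve⁄Qb).Point P.p

/-- `ZMod p`-subspaces of the `p`-torsion. -/
abbrev Sub (P : FreyPackage) : Type :=
  Submodule (ZMod P.p) (Tors P)

/-- The inertia group of `A` acts trivially on `N`. -/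
def InertiaTrivialOn (P : FreyPackage) (N : Sub P) (A : ValuationSubring Qb) : Prop :=
  ∀ σ ∈ A.inertiaSubgroupIn ℚ, ∀ x ∈ N, σ • x = x

/-- The inertia group of `A` acts trivially on `V/N`. -/
def InertiaTrivialMod (P : FreyPackage) (N : Sub P) (A : ValuationSubring Qb) : Prop :=
  ∀ σ ∈ A.inertiaSubgroupIn ℚ, ∀ x : Tors P, σ • x - x ∈ N

/-- Piece DP: there is a nonzero `p`-torsion point. -/
def DP (P : FreyPackage) : Prop := Nontrivial (Tors P)

/-- Piece Card: the `p`-torsion is finite, with fewer than `p ^ 3` elements. -/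
def Card (P : FreyPackage) : Prop := Finite (Tors P) ∧ Nat.card (Tors P) < P.p ^ 3

/-- Piece L2u: inertia at `2` is unipotent on the `p`-torsion. -/
def L2u (P : FreyPackage) : Prop :=
  ∀ A : ValuationSubring Qb, A.LiesOverPrime 2 → ∀ σ ∈ A.inertiaSubgroupIn ℚ,
    ∀ x : Tors P, σ • (σ • x - x) = σ • x - x

/-- Piece L2r: no nonzero `p`-torsion point is fixed by the whole Galois group. -/
def L2r (P : FreyPackage) : Prop :=
  ∀ x : Tors P, (∀ σ : GQ, σ • x = x) → x = 0

/-- Piece LQ (= S05, done): inertia at odd `q ≠ p` acts trivially. -/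
def LQ (P : FreyPackage) : Prop :=
  ∀ q : ℕ, q.Prime → q ≠ 2 → q ≠ P.p → P.GaloisRepUnramifiedAt q

/-- Piece LP: local structure at `p` (alternative for each place over `p`). -/
def LP (P : FreyPackage) : Prop :=
  ∀ N : Sub P, IsGaloisStable ℚ N → N ≠ ⊥ → N ≠ ⊤ →
    ∀ A : ValuationSubring Qb, A.LiesOverPrime P.p →
      InertiaTrivialOn P N A ∨ InertiaTrivialMod P N A

/-- Piece LP, uniform form: the same alternative for all places over `p`. -/
def LPunif (P : FreyPackage) : Prop :=
  ∀ N : Sub P, IsGaloisStable ℚ N → N ≠ ⊥ → N ≠ ⊤ →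
    (∀ A : ValuationSubring Qb, A.LiesOverPrime P.p → InertiaTrivialOn P N A) ∨
    (∀ A : ValuationSubring Qb, A.LiesOverPrime P.p → InertiaTrivialMod P N A)

/-- A subgroup of `GQ` is open: it contains the fixing subgroup of a finite extension. -/
def IsOpenSub (H : Subgroup GQ) : Prop :=
  ∃ L : IntermediateField ℚ Qb, FiniteDimensional ℚ L ∧ L.fixingSubgroup ≤ H

/-- Piece BR, `∃`-form: a normal open subgroup of `GQ` which contains an inertia group at
every prime is the whole group. -/
def BRex : Prop :=
  ∀ H : Subgroup GQ, H.Normal → IsOpenSub H →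
    (∀ q : ℕ, q.Prime → ∃ A : ValuationSubring Qb, A.LiesOverPrime q ∧
      A.inertiaSubgroupIn ℚ ≤ H) →
    H = ⊤

/-- Piece BR, `∀`-form: a normal open subgroup of `GQ` which contains all inertia groups
is the whole group. -/
def BRall : Prop :=
  ∀ H : Subgroup GQ, H.Normal → IsOpenSub H →
    (∀ q : ℕ, q.Prime → ∀ A : ValuationSubring Qb, A.LiesOverPrime q →
      A.inertiaSubgroupIn ℚ ≤ H) →
    H = ⊤

end Fermat.Agent.TEll
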