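import Mathlib
import Fermat.Prelude.Def_FLTPrelim_Ramification
import Fermat.Agent.S54.Frobenius
import Fermat.Agent.TEll.BRLiftInertia
import Fermat.Agent.TEll.Defs

/-!
# T-Ell, piece BR2 (helper15): the Minkowski bridge

A normal open subgroup of `Gal(ℚ̄/ℚ)` which contains, for every prime `q`, the inertia group of
some valuation subring of `ℚ̄` over `q`, is the whole group.  Equivalently: a finite Galois
extension of `ℚ` inside `ℚ̄` which is unramified everywhere is `ℚ`.

Main statements: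

* `Fermat.Agent.H15BR.h15_BRex : Fermat.Agent.TEll.BRex`
* `Fermat.Agent.H15BR.h15_BRall : Fermat.Agent.TEll.BRall`
* `Fermat.Agent.H22BR.h22_eq_top_of_inertia_le` (topological form, `IsOpen H`)
* `Fermat.Agent.H22BR.h22_character_trivial` (character form)

Route: Minkowski (`NumberField.exists_not_isUnramifiedAt_int_of_isGalois`) gives a prime `q` such
that every prime of `𝓞 M` over `q` is ramified; `Ideal.card_inertia_eq_ramificationIdxIn` then
gives a nontrivial element of the finite-level inertia group, which lifts to the inertia group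
of the valuation subring (helper22's `h22_lift_inertia`).
-/

set_option autoImplicit false
set_option linter.style.haveILetI false

namespace Fermat.Agent.H15BR

open scoped NumberField

local notation "Qb" => AlgebraicClosure ℚ
local notation "Γ" => (AlgebraicClosure ℚ ≃ₐ[ℚ] AlgebraicClosure ℚ)

local instance h15_isAlgebraicQbar : Algebra.IsAlgebraic ℚ (AlgebraicClosure ℚ) :=
  AlgebraicClosure.isAlgebraic ℚ
local instance h15_isAlgClosureQbar : IsAlgClosure ℚ (AlgebraicClosure ℚ) :=
  ⟨inferInstance, inferInstance⟩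

/-- Key finite-level statement: a finite Galois `M/ℚ` inside `ℚ̄` with `M ≠ ⊥` has a prime `q`
such that for every valuation subring `A` over `q` there is a nontrivial automorphism of `M`
which is trivial modulo `A.nonunits` on the integers of `M`. -/
theorem h15_exists_inertia_ne_one (M : IntermediateField ℚ Qb) [FiniteDimensional ℚ M]
    [IsGalois ℚ M] (hM : M ≠ ⊥) :
    ∃ q : ℕ, q.Prime ∧ ∀ A : ValuationSubring Qb, A.LiesOverPrime q →
      ∃ τ : M ≃ₐ[ℚ] M, τ ≠ 1 ∧
        ∀ x : M, IsIntegral ℤ x → ((τ x : M) : Qb) - ((x : M) : Qb) ∈ A.nonunits := by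
  haveI : NumberField M := { to_charZero := inferInstance, to_finiteDimensional := inferInstance }
  have hrank : 1 < Module.finrank ℚ M := by
    by_contra h
    apply hM
    have h1 : Module.finrank ℚ M = 1 := by
      have : 0 < Module.finrank ℚ M := Module.finrank_pos
      omega
    exact IntermediateField.finrank_eq_one_iff.mp h1
  obtain ⟨q, hq, hram⟩ := NumberField.exists_not_isUnramifiedAt_int_of_isGalois (K := M)
    (𝒪 := 𝓞 M) hrank
  refine ⟨q, hq, fun A hA => ?_⟩
  have hA' : (q : Qb) ∈ A.nonunits := hA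
  -- the prime of `𝓞 M` cut out by `A`
  have hOA : ∀ x : 𝓞 M, (((x : M) : Qb)) ∈ A := fun x =>
    Fermat.Agent.H9.h9_mem_of_isIntegral A
      ((x.isIntegral_coe).map (IsScalarTower.toAlgHom ℤ M Qb))
  let f : 𝓞 M →+* A :=
    { toFun := fun x => ⟨((x : M) : Qb), hOA x⟩
      map_one' := rfl
      map_mul' := fun _ _ => rfl
      map_zero' := rfl
      map_add' := fun _ _ => rfl }
  let P : Ideal (𝓞 M) := (IsLocalRing.maximalIdeal A).comap f
  have hPmem : ∀ x : 𝓞 M, x ∈ P ↔ ((x : M) : Qb) ∈ A.nonunits := fun x => by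
    show f x ∈ IsLocalRing.maximalIdeal A ↔ _
    rw [← ValuationSubring.coe_mem_nonunits_iff]
    exact Iff.rfl
  haveI hPprime : P.IsPrime := Ideal.comap_isPrime f _
  have hqP : ((q : ℤ) : 𝓞 M) ∈ P := by
    rw [hPmem]
    simpa using hA'
  have hnot := hram P hPprime (by simpa using hqP)
  -- the Galois action on `𝓞 M`
  let _ : MulSemiringAction Gal(M/ℚ) (𝓞 M) := IsIntegralClosure.MulSemiringAction ℤ ℚ M (𝓞 M)
  have hGG := IsGaloisGroup.of_isFractionRing Gal(M/ℚ) ℤ (𝓞 M) ℚ M
  let p : Ideal ℤ := Ideal.span {(q : ℤ)}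
  have hq0 : (q : ℤ) ≠ 0 := by exact_mod_cast hq.ne_zero
  have hqprime : Prime (q : ℤ) := Nat.prime_iff_prime_int.mp hq
  have hpprime : p.IsPrime := (Ideal.span_singleton_prime hq0).mpr hqprime
  have hpmax : p.IsMaximal := PrincipalIdealRing.isMaximal_of_irreducible hqprime.irreducible
  have hLO : P.LiesOver p := by
    refine ⟨?_⟩
    have hle : p ≤ P.under ℤ := by
      rw [Ideal.span_singleton_le_iff_mem, Ideal.under_def, Ideal.mem_comap]
      simpa using hqP
    have hne : P.under ℤ ≠ ⊤ := by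
      intro htop
      have h1 : (1 : ℤ) ∈ P.under ℤ := by rw [htop]; trivial
      rw [Ideal.under_def, Ideal.mem_comap, hPmem] at h1
      exact Fermat.Agent.H9.h9_one_not_mem_nonunits A (by simpa using h1)
    exact hpmax.eq_of_le hne hle
  have hcard := Ideal.card_inertia_eq_ramificationIdxIn (G := Gal(M/ℚ)) p P
  rw [Ideal.ramificationIdxIn_eq_ramificationIdx p P Gal(M/ℚ)] at hcard
  have hne : P.ramificationIdx ℤ ≠ 1 := fun h => hnot (Ideal.ramificationIdx_eq_one_iff.mp h)
  have hcard1 : Nat.card (P.inertia Gal(M/ℚ)) ≠ 1 := by rw [hcard]; exact hne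
  obtain ⟨τ, hτmem, hτne⟩ : ∃ τ ∈ P.inertia Gal(M/ℚ), τ ≠ 1 := by
    by_contra hcon
    push Not at hcon
    apply hcard1
    have hbot : P.inertia Gal(M/ℚ) = ⊥ := by
      rw [Subgroup.eq_bot_iff_forall]
      exact hcon
    rw [hbot]
    simp
  refine ⟨τ, hτne, fun x hx => ?_⟩
  have hx' : x ∈ integralClosure ℤ M := hx
  obtain ⟨b, hb⟩ : ∃ b : 𝓞 M, (b : M) = x := ⟨⟨x, hx'⟩, rfl⟩
  have h0 := hτmem b
  have h1 : τ • b - b ∈ P := h0
  have h1' := (hPmem _).mp h1
  have h2 : (((τ • b : 𝓞 M) : M)) = τ (b : M) :=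
    algebraMap_galRestrict_apply ℤ τ b
  have h3 : (((τ • b - b : 𝓞 M) : M) : Qb)
      = ((τ x : M) : Qb) - ((x : M) : Qb) := by
    have h4 : ((τ • b - b : 𝓞 M) : M) = ((τ • b : 𝓞 M) : M) - (b : M) := map_sub _ _ _
    rw [h4, h2, hb]
    rfl
  rw [h3] at h1'
  exact h1'

/-- BR2, `∃`-form with the explicit "open" hypothesis of `TEll/Defs.lean`. -/
theorem h15_eq_top_of_exists_inertia_le (H : Subgroup Γ) (hN : H.Normal)
    (hopen : ∃ L : IntermediateField ℚ Qb, FiniteDimensional ℚ L ∧ L.fixingSubgroup ≤ H)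
    (hI : ∀ q : ℕ, q.Prime →
      ∃ A : ValuationSubring Qb, A.LiesOverPrime q ∧ A.inertiaSubgroupIn ℚ ≤ H) :
    H = ⊤ := by
  obtain ⟨L, hLfin, hLH⟩ := hopen
  have hLopen : IsOpen (L.fixingSubgroup : Set Γ) := IntermediateField.fixingSubgroup_isOpen L
  have hHopen : IsOpen (H : Set Γ) := Subgroup.isOpen_mono hLH hLopen
  have hHclosed : IsClosed (H : Set Γ) := Subgroup.isClosed_of_isOpen H hHopen
  let Hc : ClosedSubgroup Γ := ⟨H, hHclosed⟩
  set M : IntermediateField ℚ Qb := IntermediateField.fixedField H with hMdef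
  have hfix : M.fixingSubgroup = H := InfiniteGalois.fixingSubgroup_fixedField Hc
  haveI hMfin : FiniteDimensional ℚ M := by
    rw [← InfiniteGalois.isOpen_iff_finite]
    show IsOpen (M.fixingSubgroup : Set Γ)
    rw [hfix]
    exact hHopen
  haveI hMgal : IsGalois ℚ M := by
    have h0 := (InfiniteGalois.normal_iff_isGalois M).mp (by rw [hfix]; exact hN)
    have hsub : (IntermediateField.algebra' M : Algebra ℚ M) = DivisionRing.toRatAlgebra :=
      Subsingleton.elim _ _
    rw [hsub] at h0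
    exact h0
  by_contra hne
  have hM : M ≠ ⊥ := by
    intro hbot
    apply hne
    rw [← hfix, hbot]
    ext σ
    simp only [Subgroup.mem_top, iff_true]
    rw [IntermediateField.mem_fixingSubgroup_iff]
    intro x hx
    rw [IntermediateField.mem_bot] at hx
    obtain ⟨r, rfl⟩ := hx
    exact σ.commutes r
  obtain ⟨q, hq, h⟩ := h15_exists_inertia_ne_one M hM
  obtain ⟨A, hA, hIA⟩ := hI q hq
  obtain ⟨τ, hτne, hτ⟩ := h A hA
  obtain ⟨σ, hσI, hσ⟩ := Fermat.Agent.H22BR.h22_lift_inertia M A hq hA τ hτ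
  have hσH : σ ∈ M.fixingSubgroup := by rw [hfix]; exact hIA hσI
  rw [IntermediateField.mem_fixingSubgroup_iff] at hσH
  apply hτne
  ext x
  have h1 := hσ x
  have h2 := hσH (x : Qb) x.2
  rw [h2] at h1
  exact h1.symm

/-- Piece `BRex` of `TEll/Defs.lean`. -/
theorem h15_BRex : Fermat.Agent.TEll.BRex :=
  fun H hN hopen hI => h15_eq_top_of_exists_inertia_le H hN hopen hI

/-- Piece `BRall` of `TEll/Defs.lean`. -/
theorem h15_BRall : Fermat.Agent.TEll.BRall := by
  intro H hN hopen hI
  refine h15_eq_top_of_exists_inertia_le H hN hopen (fun q hq => ?_)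
  obtain ⟨A, hA⟩ := Fermat.Agent.H9.h9_exists_valuationSubring_liesOver hq
  exact ⟨A, hA, hI q hq A hA⟩

/-- An open subgroup of `Gal(ℚ̄/ℚ)` contains the fixing subgroup of a finite extension. -/
theorem h15_isOpenSub_of_isOpen (H : Subgroup Γ) (hopen : IsOpen (H : Set Γ)) :
    ∃ L : IntermediateField ℚ Qb, FiniteDimensional ℚ L ∧ L.fixingSubgroup ≤ H := by
  have hHclosed : IsClosed (H : Set Γ) := Subgroup.isClosed_of_isOpen H hopen
  let Hc : ClosedSubgroup Γ := ⟨H, hHclosed⟩
  set M : IntermediateField ℚ Qb := IntermediateField.fixedField H with hMdef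
  have hfix : M.fixingSubgroup = H := InfiniteGalois.fixingSubgroup_fixedField Hc
  refine ⟨M, ?_, hfix.le⟩
  rw [← InfiniteGalois.isOpen_iff_finite]
  show IsOpen (M.fixingSubgroup : Set Γ)
  rw [hfix]
  exact hopen

end Fermat.Agent.H15BR

namespace Fermat.Agent.H22BR

local notation "Qb" => AlgebraicClosure ℚ
local notation "Γ" => (AlgebraicClosure ℚ ≃ₐ[ℚ] AlgebraicClosure ℚ)

/-- BR2 (Minkowski): an open normal subgroup containing every inertia group is everything. -/
theorem h22_eq_top_of_inertia_le (H : Subgroup Γ) [H.Normal] (hopen : IsOpen (H : Set Γ))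
    (hI : ∀ q : ℕ, q.Prime → ∀ A : ValuationSubring Qb, A.LiesOverPrime q →
      A.inertiaSubgroupIn ℚ ≤ H) : H = ⊤ :=
  Fermat.Agent.H15BR.h15_BRall H inferInstance
    (Fermat.Agent.H15BR.h15_isOpenSub_of_isOpen H hopen) hI

/-- BR2 for characters: a character with open kernel, trivial on all inertia groups, is
trivial. -/
theorem h22_character_trivial {X : Type*} [Group X] (χ : Γ →* X)
    (hopen : IsOpen (χ.ker : Set Γ))
    (hI : ∀ q : ℕ, q.Prime → ∀ A : ValuationSubring Qb, A.LiesOverPrime q →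
      ∀ σ ∈ A.inertiaSubgroupIn ℚ, χ σ = 1) : ∀ σ, χ σ = 1 := by
  have htop : χ.ker = ⊤ :=
    h22_eq_top_of_inertia_le χ.ker hopen (fun q hq A hA σ hσ => hI q hq A hA σ hσ)
  intro σ
  have : σ ∈ χ.ker := by rw [htop]; trivial
  exact this

end Fermat.Agent.H22BR
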