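/-
T-Ell piece DP (helper3), part 1: the "ladder polynomials" `(U_n, V_n)` of a Weierstrass curve.

`x(nP) = U_n(x) / V_n(x)` where the pairs are defined by the Montgomery-ladder recursion
(duplication for `2m`, the sum formula for `2m+1`), so that no elliptic-divisibility-sequence
theory is needed.  This file: definitions, recursion equations, degrees and leading coefficients.
-/
import Mathlib

set_option autoImplicit false
set_option linter.unusedSectionVars false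

namespace Fermat.Agent.H3Lad

open Polynomial

/-! ### A small calculus of "degree bound + top coefficient" -/

section top

variable {K : Type*} [Field K]

/-- `p` has degree at most `d` and coefficient `c` in degree `d`. -/
def HasTop (p : K[X]) (d : ℕ) (c : K) : Prop := p.natDegree ≤ d ∧ p.coeff d = c

theorem HasTop.mul {p q : K[X]} {d e : ℕ} {c c' : K} (hp : HasTop p d c) (hq : HasTop q e c') :
    HasTop (p * q) (d + e) (c * c') :=
  ⟨natDegree_mul_le_of_le hp.1 hq.1, by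
    rw [coeff_mul_add_eq_of_natDegree_le hp.1 hq.1, hp.2, hq.2]⟩

theorem HasTop.pow {p : K[X]} {d : ℕ} {c : K} (hp : HasTop p d c) (k : ℕ) :
    HasTop (p ^ k) (k * d) (c ^ k) :=
  ⟨natDegree_pow_le_of_le k hp.1, by
    rw [coeff_pow_of_natDegree_le hp.1, hp.2]⟩

theorem HasTop.add {p q : K[X]} {d : ℕ} {c c' : K} (hp : HasTop p d c) (hq : HasTop q d c') :
    HasTop (p + q) d (c + c') :=
  ⟨natDegree_add_le_of_degree_le hp.1 hq.1, by rw [coeff_add, hp.2, hq.2]⟩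

theorem HasTop.sub {p q : K[X]} {d : ℕ} {c c' : K} (hp : HasTop p d c) (hq : HasTop q d c') :
    HasTop (p - q) d (c - c') :=
  ⟨(natDegree_sub_le_of_le hp.1 hq.1).trans (by simp), by rw [coeff_sub, hp.2, hq.2]⟩

theorem HasTop.weaken {p : K[X]} {d d' : ℕ} {c : K} (hp : HasTop p d c) (h : d < d') :
    HasTop p d' 0 :=
  ⟨hp.1.trans h.le, coeff_eq_zero_of_natDegree_lt (lt_of_le_of_lt hp.1 h)⟩

theorem HasTop.cast {p : K[X]} {d d' : ℕ} {c c' : K} (hp : HasTop p d c) (hd : d = d')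
    (hc : c = c') : HasTop p d' c' := by
  subst hd; subst hc; exact hp

theorem hasTop_C (a : K) : HasTop (C a) 0 a := ⟨by simp, by simp⟩

theorem hasTop_X : HasTop (X : K[X]) 1 1 := ⟨natDegree_X_le, by simp⟩

theorem HasTop.C_mul {p : K[X]} {d : ℕ} {c : K} (a : K) (hp : HasTop p d c) :
    HasTop (C a * p) d (a * c) := by
  have := (hasTop_C a).mul hp
  rwa [zero_add] at this

theorem HasTop.natDegree_eq {p : K[X]} {d : ℕ} {c : K} (hp : HasTop p d c) (hc : c ≠ 0) :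
    p.natDegree = d :=
  le_antisymm hp.1 (le_natDegree_of_ne_zero (by rw [hp.2]; exact hc))

theorem HasTop.ne_zero {p : K[X]} {d : ℕ} {c : K} (hp : HasTop p d c) (hc : c ≠ 0) : p ≠ 0 := by
  rintro rfl
  exact hc (by rw [← hp.2, coeff_zero])

end top

/-! ### The ladder operations, over an arbitrary commutative ring -/

section ops

variable {R : Type*} [CommRing R]

/-- numerator of the duplication formula, homogenised -/
def dupU (b₄ b₆ b₈ U V : R) : R := U ^ 4 - b₄ * (U ^ 2 * V ^ 2) - 2 * b₆ * (U * V ^ 3) - b₈ * V ^ 4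

/-- the 2-division polynomial, homogenised -/
def dupM (b₂ b₄ b₆ U V : R) : R := 4 * U ^ 3 + b₂ * (U ^ 2 * V) + 2 * b₄ * (U * V ^ 2) + b₆ * V ^ 3

/-- denominator of the duplication formula, homogenised -/
def dupV (b₂ b₄ b₆ U V : R) : R := V * dupM b₂ b₄ b₆ U V

/-- the cross difference -/
def addD (U V U' V' : R) : R := U * V' - U' * V

/-- numerator of the sum formula, homogenised -/
def addS (b₂ b₄ b₆ U V U' V' : R) : R :=
  2 * (U * U') * (U * V' + U' * V) + b₂ * (U * U' * (V * V')) + b₄ * ((U * V' + U' * V) * (V * V'))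
    + b₆ * (V ^ 2 * V' ^ 2)

/-- numerator of `x((2m+1)P)` -/
def addU (b₂ b₄ b₆ x U V U' V' : R) : R := addS b₂ b₄ b₆ U V U' V' - x * addD U V U' V' ^ 2

/-- denominator of `x((2m+1)P)` -/
def addV (U V U' V' : R) : R := addD U V U' V' ^ 2

/-- The ladder sequence `n ↦ (U_n, V_n)`. -/
def lad (b₂ b₄ b₆ b₈ x : R) : ℕ → R × R
  | 0 => (1, 0)
  | 1 => (x, 1)
  | (n + 2) =>
    if h : (n + 2) % 2 = 0 then
      (dupU b₄ b₆ b₈ (lad b₂ b₄ b₆ b₈ x ((n + 2) / 2)).1 (lad b₂ b₄ b₆ b₈ x ((n + 2) / 2)).2,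
        dupV b₂ b₄ b₆ (lad b₂ b₄ b₆ b₈ x ((n + 2) / 2)).1 (lad b₂ b₄ b₆ b₈ x ((n + 2) / 2)).2)
    else
      (addU b₂ b₄ b₆ x (lad b₂ b₄ b₆ b₈ x ((n + 2) / 2)).1 (lad b₂ b₄ b₆ b₈ x ((n + 2) / 2)).2
          (lad b₂ b₄ b₆ b₈ x ((n + 2) / 2 + 1)).1 (lad b₂ b₄ b₆ b₈ x ((n + 2) / 2 + 1)).2,
        addV (lad b₂ b₄ b₆ b₈ x ((n + 2) / 2)).1 (lad b₂ b₄ b₆ b₈ x ((n + 2) / 2)).2
          (lad b₂ b₄ b₆ b₈ x ((n + 2) / 2 + 1)).1 (lad b₂ b₄ b₆ b₈ x ((n + 2) / 2 + 1)).2)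
  decreasing_by all_goals omega

variable (b₂ b₄ b₆ b₈ x : R)

theorem lad_one : lad b₂ b₄ b₆ b₈ x 1 = (x, 1) := by
  rw [lad]

theorem lad_two_mul {m : ℕ} (hm : 1 ≤ m) :
    lad b₂ b₄ b₆ b₈ x (2 * m) =
      (dupU b₄ b₆ b₈ (lad b₂ b₄ b₆ b₈ x m).1 (lad b₂ b₄ b₆ b₈ x m).2,
        dupV b₂ b₄ b₆ (lad b₂ b₄ b₆ b₈ x m).1 (lad b₂ b₄ b₆ b₈ x m).2) := by
  obtain ⟨k, rfl⟩ : ∃ k, m = k + 1 := ⟨m - 1, by omega⟩
  have e : 2 * (k + 1) = 2 * k + 2 := by ring
  rw [e, lad]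
  have h1 : (2 * k + 2) % 2 = 0 := by omega
  have h2 : (2 * k + 2) / 2 = k + 1 := by omega
  rw [dif_pos h1, h2]

theorem lad_two_mul_add_one {m : ℕ} (hm : 1 ≤ m) :
    lad b₂ b₄ b₆ b₈ x (2 * m + 1) =
      (addU b₂ b₄ b₆ x (lad b₂ b₄ b₆ b₈ x m).1 (lad b₂ b₄ b₆ b₈ x m).2
          (lad b₂ b₄ b₆ b₈ x (m + 1)).1 (lad b₂ b₄ b₆ b₈ x (m + 1)).2,
        addV (lad b₂ b₄ b₆ b₈ x m).1 (lad b₂ b₄ b₆ b₈ x m).2
          (lad b₂ b₄ b₆ b₈ x (m + 1)).1 (lad b₂ b₄ b₆ b₈ x (m + 1)).2) := by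
  obtain ⟨k, rfl⟩ : ∃ k, m = k + 1 := ⟨m - 1, by omega⟩
  have e : 2 * (k + 1) + 1 = (2 * k + 1) + 2 := by ring
  rw [e, lad]
  have h1 : ¬ (2 * k + 1 + 2) % 2 = 0 := by omega
  have h2 : (2 * k + 1 + 2) / 2 = k + 1 := by omega
  rw [dif_neg h1, h2]

/-- naturality of the ladder under ring homomorphisms -/
theorem map_lad {S : Type*} [CommRing S] (f : R →+* S) (n : ℕ) :
    ((f (lad b₂ b₄ b₆ b₈ x n).1, f (lad b₂ b₄ b₆ b₈ x n).2) : S × S) =
      lad (f b₂) (f b₄) (f b₆) (f b₈) (f x) n := by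
  induction n using Nat.strong_induction_on with
  | _ n ih =>
    rcases Nat.lt_or_ge n 2 with hn | hn
    · interval_cases n
      · rw [lad, lad]; simp
      · rw [lad, lad]; simp
    · rcases Nat.even_or_odd' n with ⟨m, rfl | rfl⟩
      · have hm : 1 ≤ m := by omega
        have := ih m (by omega)
        rw [lad_two_mul _ _ _ _ _ hm, lad_two_mul _ _ _ _ _ hm, ← this]
        simp [dupU, dupV, dupM, map_ofNat]
      · have hm : 1 ≤ m := by omega
        have h1 := ih m (by omega)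
        have h2 := ih (m + 1) (by omega)
        rw [lad_two_mul_add_one _ _ _ _ _ hm, lad_two_mul_add_one _ _ _ _ _ hm, ← h1, ← h2]
        simp [addU, addV, addS, addD, map_ofNat]

end ops

/-! ### The ladder polynomials of a Weierstrass curve -/

section curve

variable {R : Type*} [CommRing R] (W : WeierstrassCurve R)

/-- numerator `U_n ∈ R[X]` of `x(nP)` -/
noncomputable def h3lad_U (n : ℕ) : R[X] :=
  (lad (C W.b₂) (C W.b₄) (C W.b₆) (C W.b₈) (X : R[X]) n).1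

/-- denominator `V_n ∈ R[X]` of `x(nP)` -/
noncomputable def h3lad_V (n : ℕ) : R[X] :=
  (lad (C W.b₂) (C W.b₄) (C W.b₆) (C W.b₈) (X : R[X]) n).2

/-- `D_m = U_m V_{m+1} - U_{m+1} V_m`, so that `V_{2m+1} = D_m ^ 2`. -/
noncomputable def h3lad_D (m : ℕ) : R[X] :=
  addD (h3lad_U W m) (h3lad_V W m) (h3lad_U W (m + 1)) (h3lad_V W (m + 1))

theorem h3lad_U_zero : h3lad_U W 0 = 1 := by rw [h3lad_U, lad]
theorem h3lad_V_zero : h3lad_V W 0 = 0 := by rw [h3lad_V, lad]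
theorem h3lad_U_one : h3lad_U W 1 = X := by rw [h3lad_U, lad]
theorem h3lad_V_one : h3lad_V W 1 = 1 := by rw [h3lad_V, lad]

theorem h3lad_U_two_mul {m : ℕ} (hm : 1 ≤ m) :
    h3lad_U W (2 * m) = dupU (C W.b₄) (C W.b₆) (C W.b₈) (h3lad_U W m) (h3lad_V W m) := by
  rw [h3lad_U, lad_two_mul _ _ _ _ _ hm]; rfl

theorem h3lad_V_two_mul {m : ℕ} (hm : 1 ≤ m) :
    h3lad_V W (2 * m) = dupV (C W.b₂) (C W.b₄) (C W.b₆) (h3lad_U W m) (h3lad_V W m) := by
  rw [h3lad_V, lad_two_mul _ _ _ _ _ hm]; rfl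

theorem h3lad_U_two_mul_add_one {m : ℕ} (hm : 1 ≤ m) :
    h3lad_U W (2 * m + 1) =
      addU (C W.b₂) (C W.b₄) (C W.b₆) X (h3lad_U W m) (h3lad_V W m) (h3lad_U W (m + 1))
        (h3lad_V W (m + 1)) := by
  rw [h3lad_U, lad_two_mul_add_one _ _ _ _ _ hm]; rfl

theorem h3lad_V_two_mul_add_one {m : ℕ} (hm : 1 ≤ m) :
    h3lad_V W (2 * m + 1) = h3lad_D W m ^ 2 := by
  rw [h3lad_V, lad_two_mul_add_one _ _ _ _ _ hm]; rfl

/-- evaluation of the ladder polynomials is the ladder of values -/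
theorem h3lad_eval (x₀ : R) (n : ℕ) :
    ((h3lad_U W n).eval x₀, (h3lad_V W n).eval x₀) = lad W.b₂ W.b₄ W.b₆ W.b₈ x₀ n := by
  have := map_lad (C W.b₂) (C W.b₄) (C W.b₆) (C W.b₈) (X : R[X]) (evalRingHom x₀) n
  simpa [h3lad_U, h3lad_V] using this

/-- base change of the ladder polynomials -/
theorem h3lad_map {S : Type*} [CommRing S] (f : R →+* S) (n : ℕ) :
    ((h3lad_U W n).map f, (h3lad_V W n).map f) = (h3lad_U (W.map f) n, h3lad_V (W.map f) n) := by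
  have := map_lad (C W.b₂) (C W.b₄) (C W.b₆) (C W.b₈) (X : R[X]) (mapRingHom f) n
  simpa [h3lad_U, h3lad_V, WeierstrassCurve.map_b₂, WeierstrassCurve.map_b₄,
    WeierstrassCurve.map_b₆, WeierstrassCurve.map_b₈] using this

theorem h3lad_U_map {S : Type*} [CommRing S] (f : R →+* S) (n : ℕ) :
    (h3lad_U W n).map f = h3lad_U (W.map f) n :=
  (Prod.ext_iff.mp (h3lad_map W f n)).1

theorem h3lad_V_map {S : Type*} [CommRing S] (f : R →+* S) (n : ℕ) :
    (h3lad_V W n).map f = h3lad_V (W.map f) n :=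
  (Prod.ext_iff.mp (h3lad_map W f n)).2

end curve

end Fermat.Agent.H3Lad
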