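/-
T-Ell piece DP (helper21), part 2: degrees and top coefficients of helper3's ladder polynomials
`h3lad_U W n`, `h3lad_V W n`, `h3lad_D W m` over an ARBITRARY commutative ring:

* `U_n` has degree `≤ n²` and coefficient `1` in degree `n²` (monic of degree `n²`);
* `V_n` has degree `≤ n² - 1` and coefficient `n²` in degree `n² - 1`;
* `D_m = U_m V_{m+1} - U_{m+1} V_m` has degree `≤ 2m² + 2m` and coefficient `2m + 1` there.
-/
import Fermat.Agent.TEll.LadderPoly

set_option autoImplicit false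
set_option linter.unusedSectionVars false
set_option linter.unusedVariables false

namespace Fermat.Agent.H21Lad

open Polynomial Fermat.Agent.H3Lad

variable {R : Type*} [CommRing R]

/-- `p` has degree at most `d` and coefficient `c` in degree `d` (commutative ring version). -/
def Top (p : R[X]) (d : ℕ) (c : R) : Prop := p.natDegree ≤ d ∧ p.coeff d = c

theorem Top.mul {p q : R[X]} {d e : ℕ} {c c' : R} (hp : Top p d c) (hq : Top q e c') :
    Top (p * q) (d + e) (c * c') :=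
  ⟨natDegree_mul_le_of_le hp.1 hq.1, by
    rw [coeff_mul_add_eq_of_natDegree_le hp.1 hq.1, hp.2, hq.2]⟩

theorem Top.pow {p : R[X]} {d : ℕ} {c : R} (hp : Top p d c) (k : ℕ) :
    Top (p ^ k) (k * d) (c ^ k) :=
  ⟨natDegree_pow_le_of_le k hp.1, by
    rw [coeff_pow_of_natDegree_le hp.1, hp.2]⟩

theorem Top.add {p q : R[X]} {d : ℕ} {c c' : R} (hp : Top p d c) (hq : Top q d c') :
    Top (p + q) d (c + c') :=
  ⟨natDegree_add_le_of_degree_le hp.1 hq.1, by rw [coeff_add, hp.2, hq.2]⟩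

theorem Top.sub {p q : R[X]} {d : ℕ} {c c' : R} (hp : Top p d c) (hq : Top q d c') :
    Top (p - q) d (c - c') :=
  ⟨(natDegree_sub_le_of_le hp.1 hq.1).trans (by simp), by rw [coeff_sub, hp.2, hq.2]⟩

theorem Top.of_lt {p : R[X]} {e d : ℕ} (hp : p.natDegree ≤ e) (h : e < d) : Top p d 0 :=
  ⟨hp.trans h.le, coeff_eq_zero_of_natDegree_lt (lt_of_le_of_lt hp h)⟩

theorem Top.cast {p : R[X]} {d d' : ℕ} {c c' : R} (hp : Top p d c) (hd : d = d')
    (hc : c = c') : Top p d' c' := by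
  subst hd; subst hc; exact hp

theorem top_one : Top (1 : R[X]) 0 1 := ⟨by simp, by simp⟩

theorem top_zero (d : ℕ) : Top (0 : R[X]) d 0 := ⟨by simp, by simp⟩

theorem top_X : Top (X : R[X]) 1 1 := ⟨natDegree_X_le, by simp⟩

theorem Top.monic {p : R[X]} {d : ℕ} (hp : Top p d 1) : p.Monic :=
  monic_of_natDegree_le_of_coeff_eq_one d hp.1 hp.2

theorem Top.natDegree_eq [Nontrivial R] {p : R[X]} {d : ℕ} (hp : Top p d 1) :
    p.natDegree = d :=
  le_antisymm hp.1 (le_natDegree_of_ne_zero (by rw [hp.2]; exact one_ne_zero))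

theorem Top.natDegree_eq_of_ne {p : R[X]} {d : ℕ} {c : R} (hp : Top p d c) (hc : c ≠ 0) :
    p.natDegree = d :=
  le_antisymm hp.1 (le_natDegree_of_ne_zero (by rw [hp.2]; exact hc))

/-! ### The ladder steps -/

theorem top_dupU (b₄ b₆ b₈ : R) {U V : R[X]} {d : ℕ} {c : R}
    (hU : Top U (d + 1) 1) (hV : Top V d c) :
    Top (dupU (C b₄) (C b₆) (C b₈) U V) (4 * (d + 1)) 1 := by
  have h1 : Top (U ^ 4) (4 * (d + 1)) 1 := (hU.pow 4).cast rfl (one_pow 4)
  have hUd := hU.1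
  have hVd := hV.1
  have h2 : Top (C b₄ * (U ^ 2 * V ^ 2)) (4 * (d + 1)) 0 := by
    refine Top.of_lt (e := 4 * d + 2) ?_ (by omega)
    compute_degree
    omega
  have h3 : Top (2 * C b₆ * (U * V ^ 3)) (4 * (d + 1)) 0 := by
    refine Top.of_lt (e := 4 * d + 1) ?_ (by omega)
    compute_degree
    omega
  have h4 : Top (C b₈ * V ^ 4) (4 * (d + 1)) 0 := by
    refine Top.of_lt (e := 4 * d) ?_ (by omega)
    compute_degree
    omega
  exact (((h1.sub h2).sub h3).sub h4).cast rfl (by ring)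

theorem top_dupV (b₂ b₄ b₆ : R) {U V : R[X]} {d : ℕ} {c : R}
    (hU : Top U (d + 1) 1) (hV : Top V d c) :
    Top (dupV (C b₂) (C b₄) (C b₆) U V) (4 * d + 3) (4 * c) := by
  have hUd := hU.1
  have hVd := hV.1
  have h1 : Top (4 * U ^ 3) (3 * (d + 1)) 4 := by
    have h4 : Top (4 : R[X]) 0 4 := ⟨by compute_degree, by simp⟩
    exact (h4.mul (hU.pow 3)).cast (by omega) (by ring)
  have h2 : Top (C b₂ * (U ^ 2 * V)) (3 * (d + 1)) 0 := by
    refine Top.of_lt (e := 3 * d + 2) ?_ (by omega)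
    compute_degree
    omega
  have h3 : Top (2 * C b₄ * (U * V ^ 2)) (3 * (d + 1)) 0 := by
    refine Top.of_lt (e := 3 * d + 1) ?_ (by omega)
    compute_degree
    omega
  have h4 : Top (C b₆ * V ^ 3) (3 * (d + 1)) 0 := by
    refine Top.of_lt (e := 3 * d) ?_ (by omega)
    compute_degree
    omega
  have hM : Top (dupM (C b₂) (C b₄) (C b₆) U V) (3 * (d + 1)) 4 :=
    (((h1.add h2).add h3).add h4).cast rfl (by ring)
  exact (hV.mul hM).cast (by omega) (by ring)

theorem top_addD {U V U' V' : R[X]} {d d' : ℕ} {c c' : R}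
    (hU : Top U (d + 1) 1) (hV : Top V d c) (hU' : Top U' (d' + 1) 1) (hV' : Top V' d' c') :
    Top (addD U V U' V') (d + d' + 1) (c' - c) := by
  have h1 : Top (U * V') (d + d' + 1) c' := (hU.mul hV').cast (by omega) (by ring)
  have h2 : Top (U' * V) (d + d' + 1) c := (hU'.mul hV).cast (by omega) (by ring)
  exact h1.sub h2

theorem top_addV {U V U' V' : R[X]} {d d' : ℕ} {c c' : R}
    (hU : Top U (d + 1) 1) (hV : Top V d c) (hU' : Top U' (d' + 1) 1) (hV' : Top V' d' c') :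
    Top (addV U V U' V') (2 * (d + d' + 1)) ((c' - c) ^ 2) :=
  (top_addD hU hV hU' hV').pow 2

theorem top_addU (b₂ b₄ b₆ : R) {U V U' V' : R[X]} {d d' : ℕ} {c c' : R}
    (hU : Top U (d + 1) 1) (hV : Top V d c) (hU' : Top U' (d' + 1) 1) (hV' : Top V' d' c') :
    Top (addU (C b₂) (C b₄) (C b₆) X U V U' V') (2 * (d + d' + 1) + 1)
      (2 * (c + c') - (c' - c) ^ 2) := by
  have hUd := hU.1
  have hVd := hV.1
  have hUd' := hU'.1
  have hVd' := hV'.1
  have hs : Top (U * V' + U' * V) (d + d' + 1) (c' + c) :=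
    ((hU.mul hV').cast (by omega) (by ring)).add ((hU'.mul hV).cast (by omega) (by ring))
  have h2c : Top (2 : R[X]) 0 2 := ⟨by compute_degree, by simp⟩
  have h1 : Top (2 * (U * U') * (U * V' + U' * V)) (2 * (d + d' + 1) + 1) (2 * (c + c')) :=
    ((h2c.mul (hU.mul hU')).mul hs).cast (by omega) (by ring)
  have h2 : Top (C b₂ * (U * U' * (V * V'))) (2 * (d + d' + 1) + 1) 0 := by
    refine Top.of_lt (e := 2 * (d + d' + 1)) ?_ (by omega)
    compute_degree
    omega
  have h3 : Top (C b₄ * ((U * V' + U' * V) * (V * V'))) (2 * (d + d' + 1) + 1) 0 := by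
    refine Top.of_lt (e := 2 * (d + d' + 1)) ?_ (by omega)
    compute_degree
    omega
  have h4 : Top (C b₆ * (V ^ 2 * V' ^ 2)) (2 * (d + d' + 1) + 1) 0 := by
    refine Top.of_lt (e := 2 * (d + d' + 1)) ?_ (by omega)
    compute_degree
    omega
  have hS : Top (addS (C b₂) (C b₄) (C b₆) U V U' V') (2 * (d + d' + 1) + 1) (2 * (c + c')) :=
    (((h1.add h2).add h3).add h4).cast rfl (by ring)
  have hXD : Top (X * addD U V U' V' ^ 2) (2 * (d + d' + 1) + 1) ((c' - c) ^ 2) :=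
    (top_X.mul ((top_addD hU hV hU' hV').pow 2)).cast (by omega) (by ring)
  exact hS.sub hXD

/-! ### Degrees and top coefficients of the ladder polynomials -/

variable (W : WeierstrassCurve R)

/-- `U_n` has top coefficient `1` in degree `n²`, `V_n` has top coefficient `n²` in degree
`n² - 1`. -/
theorem h21_top_UV (n : ℕ) :
    Top (h3lad_U W n) (n ^ 2) 1 ∧ Top (h3lad_V W n) (n ^ 2 - 1) ((n : R) ^ 2) := by
  induction n using Nat.strong_induction_on with
  | _ n ih =>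
    rcases Nat.lt_or_ge n 2 with hn | hn
    · interval_cases n
      · rw [h3lad_U_zero, h3lad_V_zero]
        exact ⟨top_one, (top_zero 0).cast rfl (by simp)⟩
      · rw [h3lad_U_one, h3lad_V_one]
        exact ⟨top_X, top_one.cast rfl (by simp)⟩
    · rcases Nat.even_or_odd' n with ⟨m, rfl | rfl⟩
      · have hm : 1 ≤ m := by omega
        obtain ⟨hU, hV⟩ := ih m (by omega)
        obtain ⟨d, hd⟩ : ∃ d, m ^ 2 = d + 1 := ⟨m ^ 2 - 1, by
          have : 1 ≤ m ^ 2 := Nat.one_le_pow _ _ hm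
          omega⟩
        rw [hd] at hU hV
        rw [Nat.add_sub_cancel] at hV
        rw [h3lad_U_two_mul W hm, h3lad_V_two_mul W hm]
        have e1 : (2 * m) ^ 2 = 4 * (d + 1) := by rw [← hd]; ring
        refine ⟨(top_dupU _ _ _ hU hV).cast e1.symm rfl,
          (top_dupV _ _ _ hU hV).cast (by omega) (by push_cast; ring)⟩
      · have hm : 1 ≤ m := by omega
        obtain ⟨hU, hV⟩ := ih m (by omega)
        obtain ⟨hU', hV'⟩ := ih (m + 1) (by omega)
        obtain ⟨d, hd⟩ : ∃ d, m ^ 2 = d + 1 := ⟨m ^ 2 - 1, by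
          have : 1 ≤ m ^ 2 := Nat.one_le_pow _ _ hm
          omega⟩
        obtain ⟨d', hd'⟩ : ∃ d', (m + 1) ^ 2 = d' + 1 := ⟨(m + 1) ^ 2 - 1, by
          have : 1 ≤ (m + 1) ^ 2 := Nat.one_le_pow _ _ (by omega)
          omega⟩
        rw [hd] at hU hV
        rw [hd'] at hU' hV'
        rw [Nat.add_sub_cancel] at hV hV'
        have hdd : d' = d + 2 * m + 1 := by
          have : (m + 1) ^ 2 = m ^ 2 + 2 * m + 1 := by ring
          omega
        have e1 : (2 * m + 1) ^ 2 = 2 * (d + d' + 1) + 1 := by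
          have : (2 * m + 1) ^ 2 = 4 * m ^ 2 + 4 * m + 1 := by ring
          omega
        rw [h3lad_U_two_mul_add_one W hm, h3lad_V_two_mul_add_one W hm]
        refine ⟨(top_addU _ _ _ hU hV hU' hV').cast e1.symm (by push_cast; ring),
          ((top_addD hU hV hU' hV').pow 2).cast (by omega) (by push_cast; ring)⟩

theorem h21_U_top (n : ℕ) : Top (h3lad_U W n) (n ^ 2) 1 := (h21_top_UV W n).1

theorem h21_V_top (n : ℕ) : Top (h3lad_V W n) (n ^ 2 - 1) ((n : R) ^ 2) := (h21_top_UV W n).2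

/-- `U_n` is monic. -/
theorem h21_U_monic (n : ℕ) : (h3lad_U W n).Monic := (h21_U_top W n).monic

theorem h21_U_natDegree_le (n : ℕ) : (h3lad_U W n).natDegree ≤ n ^ 2 := (h21_U_top W n).1

theorem h21_U_coeff (n : ℕ) : (h3lad_U W n).coeff (n ^ 2) = 1 := (h21_U_top W n).2

/-- `U_n` has degree `n²`. -/
theorem h21_U_natDegree [Nontrivial R] (n : ℕ) : (h3lad_U W n).natDegree = n ^ 2 :=
  (h21_U_top W n).natDegree_eq

theorem h21_V_natDegree_le (n : ℕ) : (h3lad_V W n).natDegree ≤ n ^ 2 - 1 := (h21_V_top W n).1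

theorem h21_V_coeff (n : ℕ) : (h3lad_V W n).coeff (n ^ 2 - 1) = (n : R) ^ 2 := (h21_V_top W n).2

/-- `V_n` has degree `n² - 1` as soon as `n² ≠ 0` in `R`. -/
theorem h21_V_natDegree {n : ℕ} (hn : (n : R) ^ 2 ≠ 0) : (h3lad_V W n).natDegree = n ^ 2 - 1 :=
  (h21_V_top W n).natDegree_eq_of_ne hn

theorem h21_V_ne_zero {n : ℕ} (hn : (n : R) ^ 2 ≠ 0) : h3lad_V W n ≠ 0 := by
  intro h
  have := h21_V_coeff W n
  rw [h, coeff_zero] at this
  exact hn this.symm

/-- `D_m = U_m V_{m+1} - U_{m+1} V_m` has top coefficient `2m+1` in degree `2m² + 2m`. -/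
theorem h21_D_top {m : ℕ} (hm : 1 ≤ m) :
    Top (h3lad_D W m) (2 * m ^ 2 + 2 * m) (2 * (m : R) + 1) := by
  obtain ⟨hU, hV⟩ := h21_top_UV W m
  obtain ⟨hU', hV'⟩ := h21_top_UV W (m + 1)
  obtain ⟨d, hd⟩ : ∃ d, m ^ 2 = d + 1 := ⟨m ^ 2 - 1, by
    have : 1 ≤ m ^ 2 := Nat.one_le_pow _ _ hm
    omega⟩
  obtain ⟨d', hd'⟩ : ∃ d', (m + 1) ^ 2 = d' + 1 := ⟨(m + 1) ^ 2 - 1, by
    have : 1 ≤ (m + 1) ^ 2 := Nat.one_le_pow _ _ (by omega)
    omega⟩
  rw [hd] at hU hV
  rw [hd'] at hU' hV'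
  rw [Nat.add_sub_cancel] at hV hV'
  have hdd : d' = d + 2 * m + 1 := by
    have : (m + 1) ^ 2 = m ^ 2 + 2 * m + 1 := by ring
    omega
  exact (top_addD hU hV hU' hV').cast (by omega) (by push_cast; ring)

theorem h21_D_natDegree_le {m : ℕ} (hm : 1 ≤ m) :
    (h3lad_D W m).natDegree ≤ 2 * m ^ 2 + 2 * m := (h21_D_top W hm).1

theorem h21_D_coeff {m : ℕ} (hm : 1 ≤ m) :
    (h3lad_D W m).coeff (2 * m ^ 2 + 2 * m) = 2 * (m : R) + 1 := (h21_D_top W hm).2

theorem h21_D_natDegree {m : ℕ} (hm : 1 ≤ m) (h : 2 * (m : R) + 1 ≠ 0) :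
    (h3lad_D W m).natDegree = 2 * m ^ 2 + 2 * m :=
  (h21_D_top W hm).natDegree_eq_of_ne h

/-- base change of `D_m`. -/
theorem h21_D_map {S : Type*} [CommRing S] (f : R →+* S) (m : ℕ) :
    (h3lad_D W m).map f = h3lad_D (W.map f) m := by
  simp only [h3lad_D, addD, Polynomial.map_sub, Polynomial.map_mul, h3lad_U_map, h3lad_V_map]

/-- In characteristic zero (more generally if `n` is invertible) over a field, `V_n` is a
nonzero polynomial of degree `n² - 1`. -/
theorem h21_V_natDegree_of_charZero {K : Type*} [Field K] [CharZero K] (W : WeierstrassCurve K)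
    {n : ℕ} (hn : 1 ≤ n) : (h3lad_V W n).natDegree = n ^ 2 - 1 :=
  h21_V_natDegree W (pow_ne_zero 2 (Nat.cast_ne_zero.mpr (by omega)))

end Fermat.Agent.H21Lad
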