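/-
T-Ell piece DP (helper3), part 2: the ladder polynomials compute multiples of points.

For a point `P = (x₀, y₀)` of a Weierstrass curve over a field (`Δ ≠ 0`, `2 ≠ 0`) and `n ≥ 1`:
`n • P = 0 ↔ V_n(x₀) = 0`, and otherwise `x(n • P) · V_n(x₀) = U_n(x₀)`.
-/
import Mathlib
import Fermat.Agent.S05.XIdent
import Fermat.Agent.S51.Torsion3
import Fermat.Agent.S51.Torsion5
import Fermat.Agent.TEll.LadderPoly

set_option autoImplicit false
set_option linter.unusedSectionVars false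
set_option linter.unusedVariables false

namespace Fermat.Agent.H3Lad

open WeierstrassCurve Polynomial Fermat.Agent.H29 Fermat.Agent.H3S51

section algebra

variable {K : Type*} [Field K] (b₂ b₄ b₆ b₈ : K)

theorem dupM_hom (x v : K) :
    dupM b₂ b₄ b₆ (x * v) v = v ^ 3 * (4 * x ^ 3 + b₂ * x ^ 2 + 2 * b₄ * x + b₆) := by
  simp only [dupM]; ring

theorem dupU_hom (x v : K) :
    dupU b₄ b₆ b₈ (x * v) v = v ^ 4 * (x ^ 4 - b₄ * x ^ 2 - 2 * b₆ * x - b₈) := by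
  simp only [dupU]; ring

theorem addD_hom (x v x' v' : K) : addD (x * v) v (x' * v') v' = v * v' * (x - x') := by
  simp only [addD]; ring

theorem addS_hom (x v x' v' : K) :
    addS b₂ b₄ b₆ (x * v) v (x' * v') v' =
      v ^ 2 * v' ^ 2 * (2 * x * x' * (x + x') + b₂ * x * x' + b₄ * (x + x') + b₆) := by
  simp only [addS]; ring

end algebra

section points

open WeierstrassCurve.Affine

variable {K : Type*} [Field K] [DecidableEq K] (E : WeierstrassCurve.Affine K)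

/-- `(u, v)` represents the `x`-coordinate of `Q` projectively. -/
def LadRep (Q : E.Point) (u v : K) : Prop :=
  (Q = 0 ∧ v = 0 ∧ u ≠ 0) ∨
    ∃ (x y : K) (h : E.Nonsingular x y), Q = Point.some x y h ∧ v ≠ 0 ∧ x * v = u

theorem ladRep_zero_iff {Q : E.Point} {u v : K} (h : LadRep E Q u v) : Q = 0 ↔ v = 0 := by
  rcases h with ⟨hQ, hv, -⟩ | ⟨x, y, hxy, hQ, hv, -⟩
  · exact ⟨fun _ => hv, fun _ => hQ⟩
  · exact ⟨fun h0 => absurd (hQ ▸ h0) (Point.some_ne_zero _), fun h0 => absurd h0 hv⟩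

/-- `M` and `N` have no common root. -/
theorem ladN_ne_zero (h2 : (2 : K) ≠ 0) (hΔ : E.Δ ≠ 0) {x : K}
    (hM : 4 * x ^ 3 + E.b₂ * x ^ 2 + 2 * E.b₄ * x + E.b₆ = 0) :
    x ^ 4 - E.b₄ * x ^ 2 - 2 * E.b₆ * x - E.b₈ ≠ 0 := by
  intro hN
  apply hΔ
  refine h13s51_Δ_eq_zero_of_common_root E h2 hM ?_
  linear_combination x * hM - hN

/-- doubling step -/
theorem ladRep_dbl (h2 : (2 : K) ≠ 0) (hΔ : E.Δ ≠ 0) {Q : E.Point} {u v : K}
    (h : LadRep E Q u v) :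
    LadRep E ((2 : ℕ) • Q) (dupU E.b₄ E.b₆ E.b₈ u v) (dupV E.b₂ E.b₄ E.b₆ u v) := by
  rcases h with ⟨hQ, hv, hu⟩ | ⟨x, y, hxy, hQ, hv, hxu⟩
  · left
    refine ⟨by rw [hQ, smul_zero], by simp [dupV, hv], ?_⟩
    simp only [dupU, hv]
    simpa using pow_ne_zero 4 hu
  · subst hQ
    rw [← hxu]
    by_cases hM : h29s51_M E x = 0
    · left
      refine ⟨(h29s51_two_nsmul_eq_zero_iff E hxy).mpr hM, ?_, ?_⟩
      · rw [dupV, dupM_hom]
        have hM' : 4 * x ^ 3 + E.b₂ * x ^ 2 + 2 * E.b₄ * x + E.b₆ = 0 := hM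
        rw [hM']; ring
      · rw [dupU_hom]
        exact mul_ne_zero (pow_ne_zero 4 hv) (ladN_ne_zero E h2 hΔ hM)
    · right
      obtain ⟨xd, yd, hd, h2Q, hrel⟩ := h29s51_two_nsmul E hxy hM
      refine ⟨xd, yd, hd, h2Q, ?_, ?_⟩
      · rw [dupV, dupM_hom]
        exact mul_ne_zero hv (mul_ne_zero (pow_ne_zero 3 hv) hM)
      · rw [dupV, dupM_hom, dupU_hom]
        have hrel' : xd * (4 * x ^ 3 + E.b₂ * x ^ 2 + 2 * E.b₄ * x + E.b₆) =
            x ^ 4 - E.b₄ * x ^ 2 - 2 * E.b₆ * x - E.b₈ := hrel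
        linear_combination v ^ 4 * hrel'

/-- addition step: `Q₂ = Q₁ + P` with `P = (x₀, y₀)`. -/
theorem ladRep_add (h2 : (2 : K) ≠ 0) (hΔ : E.Δ ≠ 0) {x₀ y₀ : K} (h₀ : E.Nonsingular x₀ y₀)
    {Q₁ Q₂ : E.Point} (hdiff : Q₂ = Q₁ + Point.some x₀ y₀ h₀) {u v u' v' : K}
    (h₁ : LadRep E Q₁ u v) (h₂ : LadRep E Q₂ u' v') :
    LadRep E (Q₁ + Q₂) (addU E.b₂ E.b₄ E.b₆ x₀ u v u' v') (addV u v u' v') := by
  have hP0 : Point.some x₀ y₀ h₀ ≠ 0 := Point.some_ne_zero _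
  rcases h₁ with ⟨hQ₁, hv, hu⟩ | ⟨x₁, y₁, hxy₁, hQ₁, hv, hxu⟩
  · -- `Q₁ = 0`, `Q₂ = P`
    subst hQ₁
    rw [zero_add] at hdiff
    rcases h₂ with ⟨hQ₂, -, -⟩ | ⟨x₂, y₂, hxy₂, hQ₂, hv', hxu'⟩
    · exact absurd (hdiff ▸ hQ₂) hP0
    · have hx : x₂ = x₀ := by
        have := hdiff.symm.trans hQ₂
        simp only [Point.some.injEq] at this
        exact this.1.symm
      subst hx
      right
      refine ⟨x₂, y₀, h₀, by rw [zero_add, hdiff], ?_, ?_⟩
      · simp only [addV, addD, hv, mul_zero, sub_zero]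
        exact pow_ne_zero 2 (mul_ne_zero hu hv')
      · simp only [addU, addV, addS, addD, hv, ← hxu']
        ring
  · rcases h₂ with ⟨hQ₂, hv', hu'⟩ | ⟨x₂, y₂, hxy₂, hQ₂, hv', hxu'⟩
    · -- `Q₂ = 0`, `Q₁ = -P`
      subst hQ₂
      have hQ₁' : Q₁ = -Point.some x₀ y₀ h₀ := eq_neg_of_add_eq_zero_left hdiff.symm
      have hx : x₁ = x₀ := by
        have := hQ₁.symm.trans hQ₁'
        rw [Point.neg_some] at this
        simp only [Point.some.injEq] at this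
        exact this.1
      subst hx
      right
      refine ⟨x₁, y₁, hxy₁, by rw [add_zero, hQ₁], ?_, ?_⟩
      · simp only [addV, addD, hv', mul_zero, zero_sub]
        exact pow_ne_zero 2 (neg_ne_zero.mpr (mul_ne_zero hu' hv))
      · simp only [addU, addV, addS, addD, hv', ← hxu]
        ring
    · -- both affine
      subst hQ₁
      subst hQ₂
      rw [← hxu, ← hxu']
      by_cases hx : x₁ = x₂
      · subst hx
        left
        have hneg : Point.some x₁ y₂ hxy₂ = -Point.some x₁ y₁ hxy₁ := by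
          rcases h29s51_eq_or_eq_neg E hxy₂ hxy₁ with h | h
          · exfalso
            apply hP0
            have := hdiff
            rw [h] at this
            exact (add_eq_left.mp this.symm)
          · exact h
        refine ⟨by rw [hneg, add_neg_cancel], ?_, ?_⟩
        · rw [addV, addD_hom]; ring
        · rw [addU, addD_hom, addS_hom]
          have hM : h29s51_M E x₁ ≠ 0 := by
            intro hM
            have h2Q := (h29s51_two_nsmul_eq_zero_iff E hxy₁).mpr hM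
            apply hP0
            have e1 : Point.some x₁ y₁ hxy₁ = -Point.some x₁ y₁ hxy₁ := by
              rw [two_nsmul] at h2Q
              exact eq_neg_of_add_eq_zero_left h2Q
            have e2 : Point.some x₁ y₂ hxy₂ = Point.some x₁ y₁ hxy₁ := by rw [hneg, ← e1]
            rw [e2] at hdiff
            exact (add_eq_left.mp hdiff.symm)
          have hM' : 4 * x₁ ^ 3 + E.b₂ * x₁ ^ 2 + 2 * E.b₄ * x₁ + E.b₆ ≠ 0 := hM
          have e : v ^ 2 * v' ^ 2 * (2 * x₁ * x₁ * (x₁ + x₁) + E.b₂ * x₁ * x₁ + E.b₄ * (x₁ + x₁)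
              + E.b₆) - x₀ * (v * v' * (x₁ - x₁)) ^ 2
              = v ^ 2 * v' ^ 2 * (4 * x₁ ^ 3 + E.b₂ * x₁ ^ 2 + 2 * E.b₄ * x₁ + E.b₆) := by ring
          rw [e]
          exact mul_ne_zero (mul_ne_zero (pow_ne_zero 2 hv) (pow_ne_zero 2 hv')) hM'
      · right
        obtain ⟨xp, yp, xm, ym, hp, hm, hadd, hsub, -, -, hsum, -⟩ :=
          h29_exists_add_sub E hxy₂ hxy₁ (Ne.symm hx)
        have hxm : xm = x₀ := by
          have e : Point.some x₂ y₂ hxy₂ - Point.some x₁ y₁ hxy₁ = Point.some x₀ y₀ h₀ := by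
            rw [hdiff]; abel
          have := hsub.symm.trans e
          simp only [Point.some.injEq] at this
          exact this.1
        subst hxm
        refine ⟨xp, yp, hp, by rw [add_comm, hadd], ?_, ?_⟩
        · rw [addV, addD_hom]
          exact pow_ne_zero 2 (mul_ne_zero (mul_ne_zero hv hv') (sub_ne_zero.mpr hx))
        · rw [addU, addV, addD_hom, addS_hom]
          linear_combination v ^ 2 * v' ^ 2 * hsum

/-- **The ladder computes multiples.** -/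
theorem ladRep_nsmul (h2 : (2 : K) ≠ 0) (hΔ : E.Δ ≠ 0) {x₀ y₀ : K} (h₀ : E.Nonsingular x₀ y₀)
    (n : ℕ) :
    LadRep E (n • Point.some x₀ y₀ h₀) (lad E.b₂ E.b₄ E.b₆ E.b₈ x₀ n).1
      (lad E.b₂ E.b₄ E.b₆ E.b₈ x₀ n).2 := by
  induction n using Nat.strong_induction_on with
  | _ n ih =>
    rcases Nat.lt_or_ge n 2 with hn | hn
    · interval_cases n
      · left
        rw [lad]
        exact ⟨zero_smul _ _, rfl, one_ne_zero⟩
      · right
        rw [lad]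
        exact ⟨x₀, y₀, h₀, one_smul _ _, one_ne_zero, mul_one _⟩
    · rcases Nat.even_or_odd' n with ⟨m, rfl | rfl⟩
      · have hm : 1 ≤ m := by omega
        rw [lad_two_mul _ _ _ _ _ hm, mul_smul]
        exact ladRep_dbl E h2 hΔ (ih m (by omega))
      · have hm : 1 ≤ m := by omega
        rw [lad_two_mul_add_one _ _ _ _ _ hm]
        have e : (2 * m + 1) • Point.some x₀ y₀ h₀ =
            m • Point.some x₀ y₀ h₀ + (m + 1) • Point.some x₀ y₀ h₀ := by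
          rw [← add_smul]; congr 1; ring
        rw [e]
        exact ladRep_add E h2 hΔ h₀ (by rw [add_smul, one_smul]) (ih m (by omega))
          (ih (m + 1) (by omega))

/-- `n • P = 0 ↔ V_n(x(P)) = 0`. -/
theorem h3lad_nsmul_eq_zero_iff (h2 : (2 : K) ≠ 0) (hΔ : E.Δ ≠ 0) {x₀ y₀ : K}
    (h₀ : E.Nonsingular x₀ y₀) (n : ℕ) :
    n • Point.some x₀ y₀ h₀ = 0 ↔ (h3lad_V E n).eval x₀ = 0 := by
  have h := ladRep_nsmul E h2 hΔ h₀ n
  have e2 : (h3lad_V E n).eval x₀ = (lad E.b₂ E.b₄ E.b₆ E.b₈ x₀ n).2 :=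
    congrArg Prod.snd (h3lad_eval E x₀ n)
  rw [ladRep_zero_iff E h, e2]

/-- if `n • P ≠ 0` then `x(n • P) · V_n(x(P)) = U_n(x(P))`. -/
theorem h3lad_nsmul_some (h2 : (2 : K) ≠ 0) (hΔ : E.Δ ≠ 0) {x₀ y₀ : K}
    (h₀ : E.Nonsingular x₀ y₀) (n : ℕ) {x y : K} {h : E.Nonsingular x y}
    (hn : n • Point.some x₀ y₀ h₀ = Point.some x y h) :
    (h3lad_V E n).eval x₀ ≠ 0 ∧ x * (h3lad_V E n).eval x₀ = (h3lad_U E n).eval x₀ := by
  have hl := ladRep_nsmul E h2 hΔ h₀ n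
  have e1 : (h3lad_U E n).eval x₀ = (lad E.b₂ E.b₄ E.b₆ E.b₈ x₀ n).1 :=
    congrArg Prod.fst (h3lad_eval E x₀ n)
  have e2 : (h3lad_V E n).eval x₀ = (lad E.b₂ E.b₄ E.b₆ E.b₈ x₀ n).2 :=
    congrArg Prod.snd (h3lad_eval E x₀ n)
  rw [e1, e2]
  rcases hl with ⟨hQ, -, -⟩ | ⟨x', y', hxy', hQ, hv, hxu⟩
  · exact absurd (hn.symm.trans hQ) (Point.some_ne_zero _)
  · have := hn.symm.trans hQ
    simp only [Point.some.injEq] at this
    rw [this.1]
    exact ⟨hv, hxu⟩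

/-- `U_n` and `V_n` have no common root. -/
theorem h3lad_no_common_root [IsAlgClosed K] (h2 : (2 : K) ≠ 0) (hΔ : E.Δ ≠ 0) (x₀ : K) (n : ℕ)
    (hV : (h3lad_V E n).eval x₀ = 0) : (h3lad_U E n).eval x₀ ≠ 0 := by
  obtain ⟨y₀, hy₀⟩ := h29s51_exists_Y E x₀
  have h₀ : E.Nonsingular x₀ y₀ := (equation_iff_nonsingular_of_Δ_ne_zero hΔ).mp hy₀
  have hl := ladRep_nsmul E h2 hΔ h₀ n
  have e1 : (h3lad_U E n).eval x₀ = (lad E.b₂ E.b₄ E.b₆ E.b₈ x₀ n).1 :=
    congrArg Prod.fst (h3lad_eval E x₀ n)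
  have e2 : (h3lad_V E n).eval x₀ = (lad E.b₂ E.b₄ E.b₆ E.b₈ x₀ n).2 :=
    congrArg Prod.snd (h3lad_eval E x₀ n)
  rw [e1]
  rw [e2] at hV
  rcases hl with ⟨-, -, hu⟩ | ⟨x', y', hxy', -, hv, -⟩
  · exact hu
  · exact absurd hV hv

/-- existence of a nonzero `n`-torsion point, given that `V_n` is not constant -/
theorem h3lad_exists_torsion_of_degree [IsAlgClosed K] (h2 : (2 : K) ≠ 0) (hΔ : E.Δ ≠ 0)
    (n : ℕ) (hdeg : (h3lad_V E n).degree ≠ 0) :
    ∃ P : E.Point, P ≠ 0 ∧ n • P = 0 := by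
  obtain ⟨x₀, hx₀⟩ := IsAlgClosed.exists_root _ hdeg
  obtain ⟨y₀, hy₀⟩ := h29s51_exists_Y E x₀
  have h₀ : E.Nonsingular x₀ y₀ := (equation_iff_nonsingular_of_Δ_ne_zero hΔ).mp hy₀
  exact ⟨Point.some x₀ y₀ h₀, Point.some_ne_zero _,
    (h3lad_nsmul_eq_zero_iff E h2 hΔ h₀ n).mpr hx₀⟩

end points

end Fermat.Agent.H3Lad
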