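/-
T-Ell pieces DP and Card (helper21): for the Frey curve `E` over `Qb = AlgebraicClosure ℚ`,
the `p`-torsion `E(Qb)[p]` is nontrivial, finite, and has fewer than `p ^ 3` elements.

Inputs: helper3's ladder polynomials (`TEll/LadderPoly.lean`, `TEll/LadderPts.lean`:
`n • P = 0 ↔ V_n(x(P)) = 0`) and the degree computation `natDegree V_n = n² - 1`
(`TEll/LadderDeg.lean`).
-/
import Fermat.Agent.TEll.Defs
import Fermat.Agent.TEll.LadderPts
import Fermat.Agent.TEll.LadderDeg
import Fermat.Agent.S05.FreyArith

set_option autoImplicit false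
set_option linter.unusedSectionVars false
set_option linter.unusedVariables false

namespace Fermat.Agent.H21DP

open WeierstrassCurve WeierstrassCurve.Affine Polynomial
open Fermat.Agent.H3Lad Fermat.Agent.H21Lad Fermat.Agent.H3S51

section general

variable {K : Type*} [Field K] [DecidableEq K] [IsAlgClosed K] [CharZero K]
  (E : WeierstrassCurve.Affine K)

/-- A nonzero `n`-torsion point exists on every elliptic curve over an algebraically closed
field of characteristic zero (`n ≥ 2`). -/
theorem h21_exists_torsion (hΔ : E.Δ ≠ 0) {n : ℕ} (hn : 2 ≤ n) :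
    ∃ P : E.Point, P ≠ 0 ∧ n • P = 0 := by
  apply h3lad_exists_torsion_of_degree E two_ne_zero hΔ n
  have h := h21_V_natDegree_of_charZero E (n := n) (by omega)
  intro h0
  have h1 : (h3lad_V E n).natDegree = 0 := natDegree_eq_zero_iff_degree_le_zero.mpr h0.le
  rw [h1] at h
  have : 4 ≤ n ^ 2 := by nlinarith
  omega

/-- coding of points by their coordinates -/
noncomputable def h21_ptCode : E.Point → Option (K × K)
  | .zero => none
  | .some x y _ => some (x, y)

theorem h21_ptCode_injective : Function.Injective (h21_ptCode E) := by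
  intro P Q h
  cases P with
  | zero =>
    cases Q with
    | zero => rfl
    | some x y hxy => simp [h21_ptCode] at h
  | some x y hxy =>
    cases Q with
    | zero => simp [h21_ptCode] at h
    | some x' y' hxy' =>
      simp only [h21_ptCode, Option.some.injEq, Prod.mk.injEq] at h
      obtain ⟨rfl, rfl⟩ := h
      rfl

/-- a chosen `y`-coordinate above `x` -/
noncomputable def h21_yAbove (x : K) : K := (h29s51_exists_Y E x).choose

theorem h21_yAbove_spec (x : K) : E.Equation x (h21_yAbove E x) :=
  (h29s51_exists_Y E x).choose_spec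

/-- the finite set containing the codes of all `n`-torsion points -/
noncomputable def h21_torsCodes (n : ℕ) : Finset (Option (K × K)) :=
  insert none
    (((h3lad_V E n).roots.toFinset.image fun x => some (x, h21_yAbove E x)) ∪
      ((h3lad_V E n).roots.toFinset.image fun x => some (x, E.negY x (h21_yAbove E x))))

theorem h21_card_torsCodes_le {n : ℕ} (hn : 1 ≤ n) :
    (h21_torsCodes E n).card ≤ 2 * n ^ 2 - 1 := by
  have hr : (h3lad_V E n).roots.toFinset.card ≤ n ^ 2 - 1 := by
    calc (h3lad_V E n).roots.toFinset.card ≤ Multiset.card (h3lad_V E n).roots :=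
          Multiset.toFinset_card_le _
      _ ≤ (h3lad_V E n).natDegree := card_roots' _
      _ ≤ n ^ 2 - 1 := h21_V_natDegree_le E n
  have h1 : 1 ≤ n ^ 2 := Nat.one_le_pow _ _ hn
  calc (h21_torsCodes E n).card
      ≤ _ + 1 := Finset.card_insert_le _ _
    _ ≤ ((h3lad_V E n).roots.toFinset.card + (h3lad_V E n).roots.toFinset.card) + 1 := by
        gcongr
        exact (Finset.card_union_le _ _).trans
          (Nat.add_le_add Finset.card_image_le Finset.card_image_le)
    _ ≤ 2 * n ^ 2 - 1 := by omega

theorem h21_ptCode_mem (hΔ : E.Δ ≠ 0) {n : ℕ} (hn : 1 ≤ n) {P : E.Point} (hP : n • P = 0) :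
    h21_ptCode E P ∈ h21_torsCodes E n := by
  cases P with
  | zero => simp [h21_ptCode, h21_torsCodes]
  | some x y hxy =>
    have hV : (h3lad_V E n).eval x = 0 :=
      (h3lad_nsmul_eq_zero_iff E two_ne_zero hΔ hxy n).mp hP
    have hV0 : h3lad_V E n ≠ 0 :=
      h21_V_ne_zero E (pow_ne_zero 2 (Nat.cast_ne_zero.mpr (by omega)))
    have hx : x ∈ (h3lad_V E n).roots.toFinset := by
      rw [Multiset.mem_toFinset, mem_roots hV0]
      exact hV
    have hy : y = h21_yAbove E x ∨ y = E.negY x (h21_yAbove E x) := by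
      by_cases h : y = E.negY x (h21_yAbove E x)
      · exact Or.inr h
      · exact Or.inl (Y_eq_of_Y_ne hxy.1 (h21_yAbove_spec E x) rfl h)
    simp only [h21_ptCode, h21_torsCodes, Finset.mem_insert, Finset.mem_union, Finset.mem_image,
      Option.some.injEq, Prod.mk.injEq, reduceCtorEq, false_or]
    rcases hy with hy | hy
    · exact Or.inl ⟨x, hx, rfl, hy.symm⟩
    · exact Or.inr ⟨x, hx, rfl, hy.symm⟩

/-- the `n`-torsion is finite with at most `2n² - 1` elements -/
theorem h21_torsion_finite_card (hΔ : E.Δ ≠ 0) {n : ℕ} (hn : 1 ≤ n) :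
    Finite (Submodule.torsionBy ℤ E.Point n) ∧
      Nat.card (Submodule.torsionBy ℤ E.Point n) ≤ 2 * n ^ 2 - 1 := by
  let f : Submodule.torsionBy ℤ E.Point n → (h21_torsCodes E n) := fun P =>
    ⟨h21_ptCode E P.1, h21_ptCode_mem E hΔ hn (by
      have := P.2
      rw [Submodule.mem_torsionBy_iff] at this
      rwa [natCast_zsmul] at this)⟩
  have hf : Function.Injective f := by
    intro P Q h
    have := congrArg Subtype.val h
    exact Subtype.ext (h21_ptCode_injective E this)
  have hfin : Finite (Submodule.torsionBy ℤ E.Point n) := Finite.of_injective f hf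
  refine ⟨hfin, ?_⟩
  calc Nat.card (Submodule.torsionBy ℤ E.Point n) ≤ Nat.card (h21_torsCodes E n) :=
        Nat.card_le_card_of_injective f hf
    _ = (h21_torsCodes E n).card := by simp
    _ ≤ 2 * n ^ 2 - 1 := h21_card_torsCodes_le E hn

theorem h21_torsion_nontrivial (hΔ : E.Δ ≠ 0) {n : ℕ} (hn : 2 ≤ n) :
    Nontrivial (Submodule.torsionBy ℤ E.Point n) := by
  obtain ⟨P, hP0, hP⟩ := h21_exists_torsion E hΔ hn
  have hmem : P ∈ Submodule.torsionBy ℤ E.Point n := by
    rw [Submodule.mem_torsionBy_iff, natCast_zsmul]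
    exact hP
  exact ⟨⟨⟨P, hmem⟩, 0, fun h => hP0 (congrArg Subtype.val h)⟩⟩

end general

section frey

open Fermat.Agent.TEll

variable (P : FreyPackage)

theorem h21_freyCurve_baseChange_Δ_ne_zero :
    (P.freyCurve⁄Qb).Δ ≠ 0 := by
  change (P.freyCurve.map (algebraMap ℚ Qb)).Δ ≠ 0
  rw [WeierstrassCurve.map_Δ]
  intro h
  exact Fermat.Agent.H4Frey.freyCurve_Δ_ne_zero P
    ((map_eq_zero_iff _ (algebraMap ℚ Qb).injective).mp h)

/-- Piece DP of T-Ell: the `p`-torsion of the Frey curve is nontrivial. -/
theorem h21_DP : DP P :=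
  h21_torsion_nontrivial (P.freyCurve⁄Qb) (h21_freyCurve_baseChange_Δ_ne_zero P)
    (by have := P.hp5; omega)

/-- Piece Card of T-Ell: the `p`-torsion of the Frey curve is finite, of cardinality `< p³`. -/
theorem h21_Card : Card P := by
  obtain ⟨hfin, hcard⟩ := h21_torsion_finite_card (P.freyCurve⁄Qb)
    (h21_freyCurve_baseChange_Δ_ne_zero P) (n := P.p) (by have := P.hp5; omega)
  refine ⟨hfin, lt_of_le_of_lt hcard ?_⟩
  have h5 := P.hp5
  have h1 : 2 * P.p ^ 2 ≤ P.p ^ 3 := by
    have : P.p ^ 3 = P.p * P.p ^ 2 := by ring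
    rw [this]
    exact Nat.mul_le_mul_right _ (by omega)
  have h2 : 1 ≤ P.p ^ 2 := Nat.one_le_pow _ _ (by omega)
  omega

end frey

end Fermat.Agent.H21DP
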