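import Fermat.Agent.TEll.Defs

/-!
# T-Ell (S13): the final assembly `FIN` (helper26)

`h26_s13_of_pieces`: the statement of `S13` follows from the pieces `DP`, `Card`, `L2u`, `L2r`,
`LQ`, `LP`, `BRex` of `TEll/Defs.lean`, plus existence of a place over every prime.
`h26_s13_of_pieces'`: the same from `DP`, `Card`, `L2u`, `L2r`, `LQ`, `LPunif`, `BRall`.
-/

set_option autoImplicit false
set_option linter.style.haveILetI false

open WeierstrassCurve WeierstrassCurve.Affine WeierstrassCurve.Affine.Point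

namespace Fermat.Agent.TEll

/-- The `x`-coordinate of a point (`0` for the point at infinity). -/
noncomputable def h26_cx {P : FreyPackage} : (P.freyCurve⁄Qb).Point → Qb
  | .zero => 0
  | .some x _ _ => x

/-- The `y`-coordinate of a point (`0` for the point at infinity). -/
noncomputable def h26_cy {P : FreyPackage} : (P.freyCurve⁄Qb).Point → Qb
  | .zero => 0
  | .some _ y _ => y

/-- An automorphism fixing both coordinates of a point fixes the point. -/
theorem h26_smul_eq_of_fix {P : FreyPackage} (σ : GQ) (Q : (P.freyCurve⁄Qb).Point)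
    (hx : σ (h26_cx Q) = h26_cx Q) (hy : σ (h26_cy Q) = h26_cy Q) : σ • Q = Q := by
  rw [algEquiv_smul_def]
  cases Q with
  | zero => rfl
  | some x y h =>
    simp only [h26_cx, h26_cy] at hx hy
    simp only [Point.map_some, Point.some.injEq]
    exact ⟨hx, hy⟩

/-- If the torsion is finite, the Galois action on it factors through a finite extension. -/
theorem h26_exists_fixing (P : FreyPackage) (hFin : Finite (Tors P)) :
    ∃ L : IntermediateField ℚ Qb, FiniteDimensional ℚ L ∧
      ∀ σ ∈ L.fixingSubgroup, ∀ x : Tors P, σ • x = x := by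
  have : Finite (Tors P) := hFin
  let S : Set Qb := Set.range (fun x : Tors P => h26_cx (x : (P.freyCurve⁄Qb).Point)) ∪
    Set.range (fun x : Tors P => h26_cy (x : (P.freyCurve⁄Qb).Point))
  have hSfin : S.Finite := (Set.finite_range _).union (Set.finite_range _)
  have : Finite S := hSfin
  refine ⟨IntermediateField.adjoin ℚ S, ?_, ?_⟩
  · exact IntermediateField.finiteDimensional_adjoin
      (fun x _ => ((AlgebraicClosure.isAlgebraic ℚ).isAlgebraic x).isIntegral)
  · intro σ hσ x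
    have hfix : ∀ y ∈ S, σ y = y := by
      intro y hy
      have := (IntermediateField.mem_fixingSubgroup_iff _ σ).mp hσ y
        (IntermediateField.subset_adjoin ℚ S hy)
      simpa using this
    apply Subtype.ext
    change σ • (x : (P.freyCurve⁄Qb).Point) = x
    apply h26_smul_eq_of_fix
    · exact hfix _ (Or.inl ⟨x, rfl⟩)
    · exact hfix _ (Or.inr ⟨x, rfl⟩)

/-- The subgroup of `GQ` acting trivially on a subspace `N`. -/
def h26_fixSub (P : FreyPackage) (N : Sub P) : Subgroup GQ where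
  carrier := {σ | ∀ x ∈ N, σ • x = x}
  one_mem' := fun x _ => one_smul _ x
  mul_mem' := by
    intro σ τ hσ hτ x hx
    rw [mul_smul, hτ x hx, hσ x hx]
  inv_mem' := by
    intro σ hσ x hx
    have h := hσ x hx
    calc σ⁻¹ • x = σ⁻¹ • (σ • x) := by rw [h]
      _ = x := inv_smul_smul σ x

/-- The subgroup of `GQ` acting trivially on `V/N`, for a stable `N`. -/
def h26_cofixSub (P : FreyPackage) (N : Sub P) (hN : IsGaloisStable ℚ N) : Subgroup GQ where
  carrier := {σ | ∀ x : Tors P, σ • x - x ∈ N}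
  one_mem' := fun x => by
    change (1 : GQ) • x - x ∈ N
    rw [one_smul, sub_self]; exact N.zero_mem
  mul_mem' := by
    intro σ τ hσ hτ x
    have h1 : (σ * τ) • x - x = σ • (τ • x - x) + (σ • x - x) := by
      rw [mul_smul, smul_sub]; abel
    rw [h1]
    exact N.add_mem (hN σ _ (hτ x)) (hσ x)
  inv_mem' := by
    intro σ hσ x
    have h1 : σ⁻¹ • x - x = -(σ⁻¹ • (σ • x - x)) := by
      rw [smul_sub, inv_smul_smul]; abel
    rw [h1]
    exact N.neg_mem (hN σ⁻¹ _ (hσ x))

theorem h26_fixSub_normal (P : FreyPackage) (N : Sub P) (hN : IsGaloisStable ℚ N) :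
    (h26_fixSub P N).Normal := by
  constructor
  intro σ hσ τ x hx
  change (τ * σ * τ⁻¹) • x = x
  rw [mul_smul, mul_smul, hσ _ (hN τ⁻¹ x hx), smul_inv_smul]

theorem h26_cofixSub_normal (P : FreyPackage) (N : Sub P) (hN : IsGaloisStable ℚ N) :
    (h26_cofixSub P N hN).Normal := by
  constructor
  intro σ hσ τ x
  change (τ * σ * τ⁻¹) • x - x ∈ N
  have h1 : (τ * σ * τ⁻¹) • x - x = τ • (σ • (τ⁻¹ • x) - τ⁻¹ • x) := by
    rw [mul_smul, mul_smul, smul_sub, smul_inv_smul]
  rw [h1]
  exact hN τ _ (hσ _)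

/-- Linear algebra: in a vector space of dimension at most `2`, an endomorphism `T` with `T² = 0`
which preserves a proper nonzero subspace `N` kills `N` and maps everything into `N`. -/
theorem h26_unipotent_line {K V : Type*} [Field K] [AddCommGroup V] [Module K V]
    [FiniteDimensional K V] (hdim : Module.finrank K V ≤ 2)
    (N : Submodule K V) (hbot : N ≠ ⊥) (htop : N ≠ ⊤)
    (T : V →ₗ[K] V) (hT : ∀ x, T (T x) = 0) (hN : ∀ x ∈ N, T x ∈ N) :
    (∀ x ∈ N, T x = 0) ∧ ∀ x, T x ∈ N := by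
  have h1 : Module.finrank K N < Module.finrank K V := Submodule.finrank_lt htop
  have h2 : 0 < Module.finrank K N := by
    rw [Module.finrank_pos_iff]
    exact (Submodule.nontrivial_iff_ne_bot).mpr hbot
  have hN1 : Module.finrank K N = 1 := by omega
  have hV2 : Module.finrank K V = 2 := by omega
  -- a generator of `N`
  obtain ⟨e, he0, he⟩ := finrank_eq_one_iff'.mp hN1
  have hTN : ∀ x ∈ N, T x = 0 := by
    have hTe : T (e : V) = 0 := by
      obtain ⟨c, hc⟩ := he ⟨T e, hN e e.2⟩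
      have hc' : c • (e : V) = T e := congrArg Subtype.val hc
      have h3 : T (T (e : V)) = (c * c) • (e : V) := by
        rw [← hc', map_smul, ← hc', smul_smul]
      rw [hT] at h3
      have h4 : c * c = 0 ∨ (e : V) = 0 := smul_eq_zero.mp h3.symm
      rcases h4 with h4 | h4
      · have hc0 : c = 0 := by simpa using h4
        rw [← hc', hc0, zero_smul]
      · exact absurd (Subtype.ext h4) he0
    intro x hx
    obtain ⟨c, hc⟩ := he ⟨x, hx⟩
    have hc' : c • (e : V) = x := congrArg Subtype.val hc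
    rw [← hc', map_smul, hTe, smul_zero]
  refine ⟨hTN, ?_⟩
  -- the quotient is one-dimensional
  have hq : Module.finrank K (V ⧸ N) = 1 := by
    have := Submodule.finrank_quotient_add_finrank N
    omega
  obtain ⟨f, hf0, hf⟩ := finrank_eq_one_iff'.mp hq
  obtain ⟨f', rfl⟩ := Submodule.Quotient.mk_surjective N f
  have hf'N : f' ∉ N := fun h => hf0 ((Submodule.Quotient.mk_eq_zero N).mpr h)
  have hdecomp : ∀ x : V, ∃ c : K, x - c • f' ∈ N := by
    intro x
    obtain ⟨c, hc⟩ := hf (Submodule.Quotient.mk x)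
    refine ⟨c, ?_⟩
    rw [← Submodule.Quotient.mk_eq_zero N, Submodule.Quotient.mk_sub, Submodule.Quotient.mk_smul, hc,
      sub_self]
  have hTf : T f' ∈ N := by
    obtain ⟨a, ha⟩ := hdecomp (T f')
    have h3 : T (T f' - a • f') = 0 := hTN _ ha
    rw [map_sub, hT, map_smul, zero_sub, neg_eq_zero] at h3
    -- a • T f' = 0
    rcases smul_eq_zero.mp h3 with h4 | h4
    · rw [h4, zero_smul, sub_zero] at ha
      exact ha
    · rw [h4]; exact N.zero_mem
  intro x
  obtain ⟨c, hc⟩ := hdecomp x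
  have h5 : T x = T (x - c • f') + c • T f' := by
    rw [map_sub, map_smul]; abel
  rw [h5, hTN _ hc, zero_add]
  exact N.smul_mem c hTf


/-- The dimension of the torsion is at most `2`. -/
theorem h26_finrank_le_two (P : FreyPackage) (hCard : Card P) :
    haveI : Fact P.p.Prime := ⟨P.pp⟩
    Module.Finite (ZMod P.p) (Tors P) ∧ Module.finrank (ZMod P.p) (Tors P) ≤ 2 := by
  haveI : Fact P.p.Prime := ⟨P.pp⟩
  obtain ⟨hfin, hlt⟩ := hCard
  haveI : Finite (Tors P) := hfin
  haveI : Fintype (Tors P) := Fintype.ofFinite _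
  haveI : Module.Finite (ZMod P.p) (Tors P) := Module.Finite.of_finite
  refine ⟨inferInstance, ?_⟩
  have h1 : Fintype.card (Tors P) = Fintype.card (ZMod P.p) ^ Module.finrank (ZMod P.p) (Tors P) :=
    Module.card_eq_pow_finrank
  rw [ZMod.card, ← Nat.card_eq_fintype_card] at h1
  rw [h1] at hlt
  have h2 : Module.finrank (ZMod P.p) (Tors P) < 3 :=
    (Nat.pow_lt_pow_iff_right P.pp.one_lt).mp hlt
  omega

/-- A unipotent automorphism of the torsion which preserves a line `N` acts trivially on `N`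
and on `V/N`. -/
theorem h26_trivial_of_unipotent (P : FreyPackage) (hCard : Card P) (N : Sub P)
    (hNbot : N ≠ ⊥) (hNtop : N ≠ ⊤) (σ : GQ) (hσN : ∀ x ∈ N, σ • x ∈ N)
    (hσ : ∀ x : Tors P, σ • (σ • x - x) = σ • x - x) :
    (∀ x ∈ N, σ • x = x) ∧ ∀ x : Tors P, σ • x - x ∈ N := by
  haveI : Fact P.p.Prime := ⟨P.pp⟩
  obtain ⟨hfin, hdim⟩ := h26_finrank_le_two P hCard
  haveI : Module.Finite (ZMod P.p) (Tors P) := hfin
  let f : Tors P →+ Tors P := DistribSMul.toAddMonoidHom (Tors P) σ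
  let T : Tors P →ₗ[ZMod P.p] Tors P := (f - AddMonoidHom.id _).toZModLinearMap P.p
  have hTx : ∀ x, T x = σ • x - x := fun x => rfl
  have h := h26_unipotent_line hdim N hNbot hNtop T
    (fun x => by rw [hTx, hTx, hσ x, sub_self])
    (fun x hx => by rw [hTx]; exact N.sub_mem (hσN x hx) hx)
  refine ⟨fun x hx => ?_, fun x => ?_⟩
  · have := h.1 x hx
    rw [hTx] at this
    exact sub_eq_zero.mp this
  · have := h.2 x
    rw [hTx] at this
    exact this

/-- The subgroups `H₁`, `H₂` attached to a stable line are open. -/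
theorem h26_fixSub_open (P : FreyPackage) (hCard : Card P) (N : Sub P) :
    IsOpenSub (h26_fixSub P N) := by
  obtain ⟨L, hLfin, hLfix⟩ := h26_exists_fixing P hCard.1
  exact ⟨L, hLfin, fun σ hσ x _ => hLfix σ hσ x⟩

theorem h26_cofixSub_open (P : FreyPackage) (hCard : Card P) (N : Sub P)
    (hN : IsGaloisStable ℚ N) : IsOpenSub (h26_cofixSub P N hN) := by
  obtain ⟨L, hLfin, hLfix⟩ := h26_exists_fixing P hCard.1
  refine ⟨L, hLfin, fun σ hσ x => ?_⟩
  change σ • x - x ∈ N
  rw [hLfix σ hσ x, sub_self]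
  exact N.zero_mem

/-- Inertia at every prime `q ≠ p` lies in `H₁ ∩ H₂`. -/
theorem h26_inertia_le_away (P : FreyPackage) (hCard : Card P) (hL2u : L2u P) (hLQ : LQ P)
    (N : Sub P) (hN : IsGaloisStable ℚ N) (hNbot : N ≠ ⊥) (hNtop : N ≠ ⊤)
    (q : ℕ) (hq : q.Prime) (hqp : q ≠ P.p) (A : ValuationSubring Qb) (hA : A.LiesOverPrime q) :
    A.inertiaSubgroupIn ℚ ≤ h26_fixSub P N ∧ A.inertiaSubgroupIn ℚ ≤ h26_cofixSub P N hN := by
  by_cases hq2 : q = 2
  · subst hq2
    have key : ∀ σ ∈ A.inertiaSubgroupIn ℚ,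
        (∀ x ∈ N, σ • x = x) ∧ ∀ x : Tors P, σ • x - x ∈ N := fun σ hσ =>
      h26_trivial_of_unipotent P hCard N hNbot hNtop σ (hN σ) (hL2u A hA σ hσ)
    exact ⟨fun σ hσ => (key σ hσ).1, fun σ hσ => (key σ hσ).2⟩
  · refine ⟨fun σ hσ x _ => hLQ q hq hq2 hqp A hA σ hσ x, fun σ hσ x => ?_⟩
    have h := hLQ q hq hq2 hqp A hA σ hσ x
    have h0 : σ • x - x = 0 := sub_eq_zero.mpr h
    change σ • x - x ∈ N
    rw [h0]
    exact N.zero_mem

/-- Existence of a stable line from reducibility. -/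
theorem h26_exists_line (P : FreyPackage) (hDP : DP P)
    (hred : ¬ GaloisRepIsIrreducible (K := AlgebraicClosure ℚ) ℚ P.freyCurve P.p) :
    ∃ N : Sub P, IsGaloisStable ℚ N ∧ N ≠ ⊥ ∧ N ≠ ⊤ := by
  by_contra hno
  apply hred
  refine ⟨hDP, fun N hN => ?_⟩
  by_contra hN'
  rw [not_or] at hN'
  exact hno ⟨N, hN, hN'.1, hN'.2⟩

/-- `H₁ = ⊤` contradicts `L2r`. -/
theorem h26_fixSub_ne_top (P : FreyPackage) (hL2r : L2r P) (N : Sub P) (hNbot : N ≠ ⊥) :
    h26_fixSub P N ≠ ⊤ := by
  intro htop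
  apply hNbot
  rw [eq_bot_iff]
  intro x hx
  rw [Submodule.mem_bot]
  apply hL2r x
  intro σ
  have hσ : σ ∈ h26_fixSub P N := by rw [htop]; exact Subgroup.mem_top σ
  exact hσ x hx

/-- **FIN**, first form: `S13` from the pieces, with `LP` for one place and `BRex`. -/
theorem h26_s13_of_pieces (P : FreyPackage) (hDP : DP P) (hCard : Card P) (hL2u : L2u P)
    (hL2r : L2r P) (hLQ : LQ P) (hLP : LP P) (hBR : BRex)
    (hex : ∀ q : ℕ, q.Prime → ∃ A : ValuationSubring Qb, A.LiesOverPrime q)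
    (hred : ¬ GaloisRepIsIrreducible (K := AlgebraicClosure ℚ) ℚ P.freyCurve P.p) :
    HasGaloisStableCofixedLine (K := AlgebraicClosure ℚ) ℚ P.freyCurve P.p := by
  obtain ⟨N, hN, hNbot, hNtop⟩ := h26_exists_line P hDP hred
  obtain ⟨Ap, hAp⟩ := hex P.p P.pp
  have hq1 : ∀ q : ℕ, q.Prime → q ≠ P.p → ∃ A : ValuationSubring Qb, A.LiesOverPrime q ∧
      A.inertiaSubgroupIn ℚ ≤ h26_fixSub P N ∧
      A.inertiaSubgroupIn ℚ ≤ h26_cofixSub P N hN := by
    intro q hq hqp
    obtain ⟨A, hA⟩ := hex q hq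
    exact ⟨A, hA, h26_inertia_le_away P hCard hL2u hLQ N hN hNbot hNtop q hq hqp A hA⟩
  rcases hLP N hN hNbot hNtop Ap hAp with hp1 | hp2
  · exfalso
    apply h26_fixSub_ne_top P hL2r N hNbot
    apply hBR _ (h26_fixSub_normal P N hN) (h26_fixSub_open P hCard N)
    intro q hq
    by_cases hqp : q = P.p
    · subst hqp
      exact ⟨Ap, hAp, fun σ hσ => hp1 σ hσ⟩
    · obtain ⟨A, hA, hA1, -⟩ := hq1 q hq hqp
      exact ⟨A, hA, hA1⟩
  · have htop : h26_cofixSub P N hN = ⊤ := by
      apply hBR _ (h26_cofixSub_normal P N hN) (h26_cofixSub_open P hCard N hN)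
      intro q hq
      by_cases hqp : q = P.p
      · subst hqp
        exact ⟨Ap, hAp, fun σ hσ => hp2 σ hσ⟩
      · obtain ⟨A, hA, -, hA2⟩ := hq1 q hq hqp
        exact ⟨A, hA, hA2⟩
    refine ⟨N, hN, hNbot, hNtop, fun σ x => ?_⟩
    have hσ : σ ∈ h26_cofixSub P N hN := by rw [htop]; exact Subgroup.mem_top σ
    exact hσ x

/-- **FIN**, second form: `S13` from the pieces, with the uniform `LPunif` and `BRall`. -/
theorem h26_s13_of_pieces' (P : FreyPackage) (hDP : DP P) (hCard : Card P) (hL2u : L2u P)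
    (hL2r : L2r P) (hLQ : LQ P) (hLP : LPunif P) (hBR : BRall)
    (hred : ¬ GaloisRepIsIrreducible (K := AlgebraicClosure ℚ) ℚ P.freyCurve P.p) :
    HasGaloisStableCofixedLine (K := AlgebraicClosure ℚ) ℚ P.freyCurve P.p := by
  obtain ⟨N, hN, hNbot, hNtop⟩ := h26_exists_line P hDP hred
  rcases hLP N hN hNbot hNtop with hp1 | hp2
  · exfalso
    apply h26_fixSub_ne_top P hL2r N hNbot
    apply hBR _ (h26_fixSub_normal P N hN) (h26_fixSub_open P hCard N)
    intro q hq A hA
    by_cases hqp : q = P.p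
    · subst hqp
      exact fun σ hσ => hp1 A hA σ hσ
    · exact (h26_inertia_le_away P hCard hL2u hLQ N hN hNbot hNtop q hq hqp A hA).1
  · have htop : h26_cofixSub P N hN = ⊤ := by
      apply hBR _ (h26_cofixSub_normal P N hN) (h26_cofixSub_open P hCard N hN)
      intro q hq A hA
      by_cases hqp : q = P.p
      · subst hqp
        exact fun σ hσ => hp2 A hA σ hσ
      · exact (h26_inertia_le_away P hCard hL2u hLQ N hN hNbot hNtop q hq hqp A hA).2
    refine ⟨N, hN, hNbot, hNtop, fun σ x => ?_⟩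
    have hσ : σ ∈ h26_cofixSub P N hN := by rw [htop]; exact Subgroup.mem_top σ
    exact hσ x

end Fermat.Agent.TEll
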