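/-
T-Ell piece L2r (helper25): abstract lemmas at a place of residue characteristic `2`
(`v 2 < 1`, `v al < 1`, `v (be - 1) < 1`) for a point `P` of odd prime order `p ≥ 5`:
* `h25r_unit_false` : `ξ(P) ≡ 1` modulo the maximal ideal is impossible
  (then `ξ(2P) ≡ 1` and `3P` lies in the kernel of reduction, which has no odd torsion);
* `h25r_level_false` : `v (ξ P) = v 2 ^ k < 1` is impossible if `v al = v 2 ^ n` with `p ∤ n`
  (level core).
-/
import Fermat.Agent.TEll.L2Kernel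
import Fermat.Agent.TEll.Level2

set_option autoImplicit false

namespace Fermat.Agent.H25R

variable {K : Type*} [Field K] {Γ₀ : Type*} [LinearOrderedCommGroupWithZero Γ₀]
variable {G : Type*} [AddCommGroup G] (D : H5.XData K G)

/-- `v x = 1` if `v (x - 1) < 1`. -/
theorem h25r_unit_of_sub_one (v : Valuation K Γ₀) {x : K} (h : v (x - 1) < 1) : v x = 1 := by
  have e : x = (x - 1) + 1 := by ring
  rw [e, Valuation.map_add_eq_of_lt_right v (by rw [map_one]; exact h), map_one]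

/-- **Unit case.** -/
theorem h25r_unit_false (v : Valuation K Γ₀) (h2 : v (2 : K) < 1) (hal : v D.al < 1)
    (hbe1 : v (D.be - 1) < 1) {p : ℕ} (hpp : p.Prime) (hp5 : 5 ≤ p) {P : G} (hP0 : P ≠ 0)
    (hpP : p • P = 0) (hx : v (D.xi P - 1) < 1) : False := by
  have hodd : Odd p := hpp.odd_of_ne_two (by omega)
  have hbe : v D.be = 1 := h25r_unit_of_sub_one v hbe1
  have hx1 : v (D.xi P) = 1 := h25r_unit_of_sub_one v hx
  have h2le : v (2 : K) ≤ 1 := h2.le
  have h4 : v (4 : K) < 1 := by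
    have e : (4 : K) = 2 * 2 := by norm_num
    rw [e]
    exact H5.v_mul_lt_one_left v h2 h2le
  have h2P : P + P ≠ 0 := H5.eq_zero_of_add_self_eq_zero hpp hP0 hpP hp5
  have h2P' : 2 • P ≠ 0 := by rw [two_nsmul]; exact h2P
  -- `ξ(2P) ≡ 1`
  have hdbl := D.dbl_formula P hP0 h2P
  have hω2 := D.om_sq P hP0
  have hfac : v (4 * D.xi P ^ 2 + D.be * D.xi P + 4 * D.al) = 1 := by
    have h1 : v (4 * D.xi P ^ 2) < 1 :=
      H5.v_mul_lt_one_left v h4 (by rw [map_pow, hx1, one_pow])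
    have h3 : v (D.be * D.xi P) = 1 := by rw [map_mul, hbe, hx1, one_mul]
    have h5 : v (4 * D.al) < 1 := H5.v_mul_lt_one_left v h4 hal.le
    rw [Valuation.map_add_eq_of_lt_left v, Valuation.map_add_eq_of_lt_right v, h3]
    · rw [h3]; exact h1
    · rw [Valuation.map_add_eq_of_lt_right v (by rw [h3]; exact h1), h3]; exact h5
  have hvω2 : v (D.om P ^ 2) = 1 := by rw [hω2, map_mul, hx1, hfac, one_mul]
  have hx2 : v (D.xi (P + P) - 1) < 1 := by
    have e : (D.xi (P + P) - 1) * D.om P ^ 2 =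
        D.xi P ^ 2 * ((D.xi P - 1) * (D.xi P + 1) - (D.be - 1)) +
          (D.al * (D.al - 2 * D.xi P ^ 2) - 4 * (D.xi P ^ 3 + D.al * D.xi P)) := by
      rw [sub_mul, hdbl, one_mul, hω2]; ring
    have hv := congrArg v e
    rw [map_mul, hvω2, mul_one] at hv
    rw [hv]
    have hxi1 : v (D.xi P + 1) ≤ 1 :=
      (v.map_add _ _).trans (max_le hx1.le (by rw [map_one]))
    have hxsq : v (D.xi P ^ 2) ≤ 1 := by rw [map_pow, hx1, one_pow]
    have hxcu : v (D.xi P ^ 3) ≤ 1 := by rw [map_pow, hx1, one_pow]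
    refine v.map_add_lt ?_ (v.map_sub_lt ?_ ?_)
    · refine H5.v_mul_lt_one_right v hxsq (v.map_sub_lt ?_ hbe1)
      exact H5.v_mul_lt_one_left v hx hxi1
    · refine H5.v_mul_lt_one_left v hal ((v.map_sub _ _).trans (max_le hal.le ?_))
      exact H5.v_mul_le_one v h2le hxsq
    · refine H5.v_mul_lt_one_left v h4 ((v.map_add _ _).trans (max_le hxcu ?_))
      exact H5.v_mul_le_one v hal.le hx1.le
  have hx21 : v (D.xi (P + P)) = 1 := h25r_unit_of_sub_one v hx2
  -- `δ = ξ(2P) - ξ(P)`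
  have hne : D.xi (P + P) ≠ D.xi P := by
    have := H5.seq_ne D hpp hp5 hP0 hpP 2 le_rfl (by omega)
    rwa [two_nsmul] at this
  have hδ : v (D.xi (P + P) - D.xi P) < 1 := by
    have e : D.xi (P + P) - D.xi P = (D.xi (P + P) - 1) - (D.xi P - 1) := by ring
    rw [e]
    exact v.map_sub_lt hx2 hx
  have hδ0 : 0 < v (D.xi (P + P) - D.xi P) := by
    rw [Valuation.pos_iff]; exact sub_ne_zero.mpr hne
  have hδ2 : v (D.xi (P + P) - D.xi P) ^ 2 < 1 := by
    calc v (D.xi (P + P) - D.xi P) ^ 2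
        = v (D.xi (P + P) - D.xi P) * v (D.xi (P + P) - D.xi P) := sq _
      _ ≤ v (D.xi (P + P) - D.xi P) * 1 := by gcongr
      _ = v (D.xi (P + P) - D.xi P) := mul_one _
      _ < 1 := hδ
  have hS := D.sum_formula (P + P) P h2P hP0 hne
  have hPP : P + P - P = P := by abel
  rw [hPP] at hS
  have hsumle : v (D.xi (P + P) + D.xi P) ≤ 1 :=
    (v.map_add _ _).trans (max_le hx21.le hx1.le)
  have hnum : v (D.xi (P + P) * D.xi P * (2 * (D.xi (P + P) + D.xi P) + D.be) +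
      2 * D.al * (D.xi (P + P) + D.xi P)) = 1 := by
    have h1 : v (2 * (D.xi (P + P) + D.xi P)) < 1 := H5.v_mul_lt_one_left v h2 hsumle
    have h3 : v (2 * (D.xi (P + P) + D.xi P) + D.be) = 1 := by
      rw [Valuation.map_add_eq_of_lt_right v (by rw [hbe]; exact h1), hbe]
    have h5 : v (D.xi (P + P) * D.xi P * (2 * (D.xi (P + P) + D.xi P) + D.be)) = 1 := by
      rw [map_mul, map_mul, hx21, hx1, h3, one_mul, one_mul]
    have h6 : v (2 * D.al * (D.xi (P + P) + D.xi P)) < 1 :=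
      H5.v_mul_lt_one_left v (H5.v_mul_lt_one_left v h2 hal.le) hsumle
    rw [Valuation.map_add_eq_of_lt_left v (by rw [h5]; exact h6), h5]
  have hv := congrArg v hS
  rw [map_mul, map_pow, hnum] at hv
  -- `1 < v (ξ(3P))`
  have h3gt : 1 < v (D.xi (P + P + P)) := by
    by_contra hcon
    rw [not_lt] at hcon
    have hle : v (D.xi (P + P + P) + D.xi P) ≤ 1 :=
      (v.map_add _ _).trans (max_le hcon hx1.le)
    have : v (D.xi (P + P + P) + D.xi P) * v (D.xi (P + P) - D.xi P) ^ 2 < 1 := by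
      calc v (D.xi (P + P + P) + D.xi P) * v (D.xi (P + P) - D.xi P) ^ 2
          ≤ 1 * v (D.xi (P + P) - D.xi P) ^ 2 := by gcongr
        _ = v (D.xi (P + P) - D.xi P) ^ 2 := one_mul _
        _ < 1 := hδ2
    rw [hv] at this
    exact lt_irrefl _ this
  -- contradiction with the kernel lemma
  have h3P0 : P + P + P ≠ 0 := by
    have := H5.nsmul_ne_zero_of_lt hpp hP0 hpP (k := 3) (by omega) (by omega)
    rwa [show (3 : ℕ) • P = P + P + P from by rw [succ_nsmul, two_nsmul]] at this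
  have hp3P : p • (P + P + P) = 0 := by rw [nsmul_add, nsmul_add, hpP, add_zero, add_zero]
  have := Fermat.Agent.H27L2.h27_kernel2 D v h4 hal.le hbe.le hodd h3P0 hp3P
  exact absurd h3gt (not_lt.mpr this)

/-- powers of an element `0 < a < 1` of `Γ₀` are injective in the exponent -/
theorem h25r_pow_inj {a : Γ₀} (h0 : a ≠ 0) (h1 : a < 1) {i j : ℕ} (h : a ^ i = a ^ j) :
    i = j := by
  have hpos : 0 < a := zero_lt_iff.mpr h0
  exact (pow_right_strictAnti₀ hpos h1).injective h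

/-- **Level case.** -/
theorem h25r_level_false (v : Valuation K Γ₀) (h2 : v (2 : K) < 1) (h20 : (2 : K) ≠ 0)
    (hal0 : D.al ≠ 0) (hal : v D.al < 1) (hbe : v D.be = 1)
    {p : ℕ} (hpp : p.Prime) (hp5 : 5 ≤ p) {n : ℕ} (hn : v D.al = v 2 ^ n) (hpn : ¬ p ∣ n)
    {P : G} (hP0 : P ≠ 0) (hpP : p • P = 0) {k : ℕ} (hk : v (D.xi P) = v 2 ^ k)
    (hx : v (D.xi P) < 1) : False := by
  have hodd : Odd p := hpp.odd_of_ne_two (by omega)
  obtain ⟨-, m, hm0, hmp, hm⟩ := Fermat.Agent.H9.h9_level_core2 v p hp5 hodd h20 h2.le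
    D.al D.be hal0 hal hbe (fun k => D.xi (k • P))
    (H5.seq_ne_zero D hpp hp5 hP0 hpP)
    (H5.seq_symm D hpp hp5 hP0 hpP)
    (fun k h1 h2 => by simpa using H5.seq_ne D hpp hp5 hP0 hpP k h1 h2)
    (by simpa using H5.seq_dbl D hpp hp5 hP0 hpP)
    (fun k h1 h2 => by simpa using H5.seq_s1 D hpp hp5 hP0 hpP k h1 h2)
    (fun k h1 h2 => by simpa using H5.seq_s2 D hpp hp5 hP0 hpP k h1 h2)
    (by simpa using hx)
  simp only [one_nsmul] at hm
  rw [hk, hn, ← pow_mul, ← pow_mul] at hm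
  have hv20 : v (2 : K) ≠ 0 := (Valuation.ne_zero_iff v).mpr h20
  have he : k * p = n * (2 * m) := h25r_pow_inj hv20 h2 hm
  have hdvd : p ∣ n * (2 * m) := ⟨k, by rw [← he, mul_comm]⟩
  rcases (Nat.Prime.dvd_mul hpp).mp hdvd with h | h
  · exact hpn h
  · have := Nat.le_of_dvd (by omega) h
    omega

end Fermat.Agent.H25R
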