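/-
T-Ell, piece L2 (helper27): the "branch" computation at a node.

For a curve `y² + x y = x³ + a₂ x² + a₄ x` over a valued field with `v 2 < 1`, `v a₂ ≤ 1`,
`v a₄ < 1`: if two points `P₁ = (x₁, y₁)`, `P₂ = (x₂, y₂)` reduce to the node `(0, 0)` with the same
level `v x₁ = v x₂ > v a₄` and the same tangent direction (`y₂/x₂ ≡ y₁/x₁` modulo the maximal
ideal), then `1 ≤ v (x (P₁ - P₂))`.
-/
import Mathlib.AlgebraicGeometry.EllipticCurve.Affine.Point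
import Mathlib.RingTheory.Valuation.Basic

set_option autoImplicit false

namespace Fermat.Agent.H27L2

open WeierstrassCurve

variable {L : Type*} [Field L] [DecidableEq L] {Γ₀ : Type*} [LinearOrderedCommGroupWithZero Γ₀]

/-- The field identity behind the branch lemma. -/
theorem h27_branch_identity (W : Affine L) (ha₁ : W.a₁ = 1) (ha₃ : W.a₃ = 0) (ha₆ : W.a₆ = 0)
    {x₁ y₁ x₂ y₂ : L} (h₁ : W.Equation x₁ y₁) (hx₁ : x₁ ≠ 0) (hx₂ : x₂ ≠ 0) (hx : x₁ ≠ x₂) :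
    W.addX x₁ x₂ (W.slope x₁ x₂ y₁ (W.negY x₂ y₂)) =
      (y₁ / x₁ + y₂ / x₂ + 1) ^ 2 * (x₁ * x₂ / (x₁ - x₂) ^ 2)
        - (y₂ / x₂ - y₁ / x₁) * (y₁ / x₁ + y₂ / x₂ + 1) * (x₂ / (x₁ - x₂)) + W.a₄ / x₁ - x₂ := by
  rw [Affine.equation_iff, ha₁, ha₃, ha₆] at h₁
  have hd : x₁ - x₂ ≠ 0 := sub_ne_zero.mpr hx
  rw [Affine.slope_of_X_ne hx]
  simp only [Affine.addX, Affine.negY, ha₁, ha₃]
  field_simp
  linear_combination x₂ * (x₁ - x₂) ^ 2 * h₁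

omit [DecidableEq L] in
/-- On the curve, `v y ≤ v x` for a point near the node with `v a₄ ≤ v x`. -/
theorem h27_tau_le (v : Valuation L Γ₀) (W : Affine L) (ha₁ : W.a₁ = 1) (ha₃ : W.a₃ = 0)
    (ha₆ : W.a₆ = 0) (ha₂ : v W.a₂ ≤ 1) {x y : L} (h : W.Equation x y) (hx : v x ≤ 1)
    (hal : v W.a₄ ≤ v x) : v y ≤ v x := by
  rw [Affine.equation_iff, ha₁, ha₃, ha₆] at h
  by_contra hlt
  rw [not_le] at hlt
  have hy0 : (0 : Γ₀) < v y := lt_of_le_of_lt zero_le hlt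
  have h1 : v (1 * x * y) < v (y ^ 2) := by
    rw [one_mul, map_mul, map_pow, pow_two]
    exact mul_lt_mul_of_pos_right hlt hy0
  have hL : v (y ^ 2 + 1 * x * y + 0 * y) = v y ^ 2 := by
    rw [zero_mul, add_zero, ← map_pow]
    exact Valuation.map_add_eq_of_lt_left v h1
  have hR : v (x ^ 3 + W.a₂ * x ^ 2 + W.a₄ * x + 0) ≤ v x ^ 2 := by
    rw [add_zero]
    have e1 : v (x ^ 3) ≤ v x ^ 2 := by
      rw [map_pow, pow_succ]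
      calc v x ^ 2 * v x ≤ v x ^ 2 * 1 := mul_le_mul_of_nonneg_left hx zero_le
        _ = v x ^ 2 := mul_one _
    have e2 : v (W.a₂ * x ^ 2) ≤ v x ^ 2 := by
      rw [map_mul, map_pow]
      calc v W.a₂ * v x ^ 2 ≤ 1 * v x ^ 2 := mul_le_mul_of_nonneg_right ha₂ zero_le
        _ = v x ^ 2 := one_mul _
    have e3 : v (W.a₄ * x) ≤ v x ^ 2 := by
      rw [map_mul, pow_two]
      exact mul_le_mul_of_nonneg_right hal zero_le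
    exact (v.map_add _ _).trans (max_le ((v.map_add _ _).trans (max_le e1 e2)) e3)
  rw [← h, hL] at hR
  have : v y ^ 2 ≤ v x ^ 2 := hR
  have h2 : v x ^ 2 < v y ^ 2 := pow_lt_pow_left₀ hlt zero_le (by norm_num)
  exact lt_irrefl _ (lt_of_le_of_lt this h2)

/-- **Branch lemma.** -/
theorem h27_branch_val (v : Valuation L Γ₀) (W : Affine L) (ha₁ : W.a₁ = 1) (ha₃ : W.a₃ = 0)
    (ha₆ : W.a₆ = 0) (h2 : v (2 : L) < 1) (ha₂ : v W.a₂ ≤ 1)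
    {x₁ y₁ x₂ y₂ : L} (h₁ : W.Equation x₁ y₁) (hx : x₁ ≠ x₂)
    (hv₁ : v x₁ < 1) (hal : v W.a₄ < v x₁) (hv₂ : v x₂ = v x₁)
    (hτ : v (y₂ / x₂ - y₁ / x₁) < 1) :
    1 ≤ v (W.addX x₁ x₂ (W.slope x₁ x₂ y₁ (W.negY x₂ y₂))) := by
  have ht : (0 : Γ₀) < v x₁ := lt_of_le_of_lt zero_le hal
  have hx₁ : x₁ ≠ 0 := (Valuation.pos_iff v).mp ht
  have hx₂ : x₂ ≠ 0 := (Valuation.pos_iff v).mp (by rw [hv₂]; exact ht)
  have hd : x₁ - x₂ ≠ 0 := sub_ne_zero.mpr hx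
  have hδ0 : (0 : Γ₀) < v (x₁ - x₂) := (Valuation.pos_iff v).mpr hd
  have hδ : v (x₁ - x₂) ≤ v x₁ := (v.map_sub _ _).trans (max_le le_rfl hv₂.le)
  rw [h27_branch_identity W ha₁ ha₃ ha₆ h₁ hx₁ hx₂ hx]
  -- `τ₁` is integral, `u` is a unit
  have hτ₁ : v (y₁ / x₁) ≤ 1 := by
    rw [map_div₀]
    exact div_le_one_of_le₀ (h27_tau_le v W ha₁ ha₃ ha₆ ha₂ h₁ hv₁.le hal.le) zero_le
  have hu : v (y₁ / x₁ + y₂ / x₂ + 1) = 1 := by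
    have e : y₁ / x₁ + y₂ / x₂ + 1 = 1 + (2 * (y₁ / x₁) + (y₂ / x₂ - y₁ / x₁)) := by ring
    rw [e]
    apply Valuation.map_one_add_of_lt
    refine lt_of_le_of_lt (v.map_add _ _) (max_lt ?_ hτ)
    rw [map_mul]
    calc v 2 * v (y₁ / x₁) ≤ v 2 * 1 := mul_le_mul_of_nonneg_left hτ₁ zero_le
      _ = v 2 := mul_one _
      _ < 1 := h2
  -- the ratio `ρ = v x₁ / v δ ≥ 1`
  set ρ : Γ₀ := v x₁ / v (x₁ - x₂) with hρ
  have hρ1 : 1 ≤ ρ := (one_le_div₀ hδ0).mpr hδ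
  have hρ0 : (0 : Γ₀) < ρ := lt_of_lt_of_le zero_lt_one hρ1
  have hρρ : ρ ≤ ρ ^ 2 := by
    rw [pow_two]
    calc ρ = ρ * 1 := (mul_one _).symm
      _ ≤ ρ * ρ := mul_le_mul_of_nonneg_left hρ1 zero_le
  have hM : v ((y₁ / x₁ + y₂ / x₂ + 1) ^ 2 * (x₁ * x₂ / (x₁ - x₂) ^ 2)) = ρ ^ 2 := by
    rw [map_mul, map_pow, hu, one_pow, one_mul, map_div₀, map_mul, map_pow, hv₂, hρ, div_pow,
      pow_two (v x₁)]
  have hE₁ : v ((y₂ / x₂ - y₁ / x₁) * (y₁ / x₁ + y₂ / x₂ + 1) * (x₂ / (x₁ - x₂))) < ρ ^ 2 := by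
    rw [map_mul, map_mul, hu, mul_one, map_div₀, hv₂, ← hρ]
    calc v (y₂ / x₂ - y₁ / x₁) * ρ < 1 * ρ := mul_lt_mul_of_pos_right hτ hρ0
      _ = ρ := one_mul _
      _ ≤ ρ ^ 2 := hρρ
  have hone : (1 : Γ₀) ≤ ρ ^ 2 := hρ1.trans hρρ
  have hE₂ : v (W.a₄ / x₁) < ρ ^ 2 := by
    rw [map_div₀]
    exact lt_of_lt_of_le ((div_lt_one₀ ht).mpr hal) hone
  have hE₃ : v x₂ < ρ ^ 2 := by
    rw [hv₂]; exact lt_of_lt_of_le hv₁ hone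
  have h12 : v ((y₁ / x₁ + y₂ / x₂ + 1) ^ 2 * (x₁ * x₂ / (x₁ - x₂) ^ 2)
      - (y₂ / x₂ - y₁ / x₁) * (y₁ / x₁ + y₂ / x₂ + 1) * (x₂ / (x₁ - x₂))) = ρ ^ 2 := by
    rw [← hM]
    apply Valuation.map_sub_eq_of_lt_left
    rw [hM]; exact hE₁
  have h123 : v ((y₁ / x₁ + y₂ / x₂ + 1) ^ 2 * (x₁ * x₂ / (x₁ - x₂) ^ 2)
      - (y₂ / x₂ - y₁ / x₁) * (y₁ / x₁ + y₂ / x₂ + 1) * (x₂ / (x₁ - x₂)) + W.a₄ / x₁) = ρ ^ 2 := by
    rw [← h12]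
    apply Valuation.map_add_eq_of_lt_left
    rw [h12]; exact hE₂
  have h1234 : v ((y₁ / x₁ + y₂ / x₂ + 1) ^ 2 * (x₁ * x₂ / (x₁ - x₂) ^ 2)
      - (y₂ / x₂ - y₁ / x₁) * (y₁ / x₁ + y₂ / x₂ + 1) * (x₂ / (x₁ - x₂)) + W.a₄ / x₁ - x₂)
      = ρ ^ 2 := by
    rw [← h123]
    apply Valuation.map_sub_eq_of_lt_left
    rw [h123]; exact hE₃
  rw [h1234]
  exact hone

end Fermat.Agent.H27L2
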