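/-
T-Ell, piece L2 (helper27): abstract valuation lemmas for `H5.XData` at a place of residue
characteristic `2` (`v 4 < 1`) with `v al < 1`, `v be = 1`:

* `h27_kernel2`   : a nonzero point of odd order has `v (xi P) ≤ 1` (no odd torsion in the kernel of
                    reduction);
* `h27_good_dbl`, `h27_good_add` : the points with `v (xi P) = 1` are closed under the group law
                    (inside the torsion);
* `h27_level_lt`  : a nonzero point of odd order with `v (xi P) < 1` has `v al < v (xi P)`.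
-/
import Fermat.Agent.S05.Glue
import Fermat.Agent.S05.Steps

set_option autoImplicit false

namespace Fermat.Agent.H27L2

variable {K : Type*} [Field K] {Γ₀ : Type*} [LinearOrderedCommGroupWithZero Γ₀]
variable {G : Type*} [AddCommGroup G] (D : H5.XData K G)

/-- `v (4 ξ² + be ξ + 4 al) < v ξ ^ 2` when `1 < v ξ`. -/
theorem h27_Q_lt (v : Valuation K Γ₀) (h4 : v (4 : K) < 1) (hal : v D.al ≤ 1) (hbe : v D.be ≤ 1)
    {ξ : K} (hξ : 1 < v ξ) : v (4 * ξ ^ 2 + D.be * ξ + 4 * D.al) < v ξ ^ 2 := by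
  have hpos : (0 : Γ₀) < v ξ := lt_trans zero_lt_one hξ
  have hsq : 1 < v ξ ^ 2 := one_lt_pow₀ hξ (by norm_num)
  have hlt : v ξ < v ξ ^ 2 := by
    rw [pow_two]
    calc v ξ = v ξ * 1 := (mul_one _).symm
      _ < v ξ * v ξ := mul_lt_mul_of_pos_left hξ hpos
  have h1 : v (4 * ξ ^ 2) < v ξ ^ 2 := by
    rw [map_mul, map_pow]
    calc v 4 * v ξ ^ 2 < 1 * v ξ ^ 2 := mul_lt_mul_of_pos_right h4 (lt_trans zero_lt_one hsq)
      _ = v ξ ^ 2 := one_mul _
  have h2 : v (D.be * ξ) < v ξ ^ 2 := by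
    rw [map_mul]
    calc v D.be * v ξ ≤ 1 * v ξ := mul_le_mul_of_nonneg_right hbe zero_le
      _ = v ξ := one_mul _
      _ < v ξ ^ 2 := hlt
  have h3 : v (4 * D.al) < v ξ ^ 2 := by
    rw [map_mul]
    calc v 4 * v D.al ≤ 1 * 1 := mul_le_mul' h4.le hal
      _ = 1 := one_mul _
      _ < v ξ ^ 2 := hsq
  exact lt_of_le_of_lt (v.map_add _ _)
    (max_lt (lt_of_le_of_lt (v.map_add _ _) (max_lt h1 h2)) h3)

/-- Doubling strictly increases `v ξ` on `{1 < v ξ}`. -/
theorem h27_dbl_val_gt (v : Valuation K Γ₀) (h4 : v (4 : K) < 1) (hal : v D.al ≤ 1)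
    (hbe : v D.be ≤ 1) {P : G} (hP : P ≠ 0) (hPP : P + P ≠ 0) (hξ : 1 < v (D.xi P)) :
    v (D.xi P) < v (D.xi (P + P)) := by
  have hpos : (0 : Γ₀) < v (D.xi P) := lt_trans zero_lt_one hξ
  have hsq : 1 < v (D.xi P) ^ 2 := one_lt_pow₀ hξ (by norm_num)
  have hd := D.dbl_formula P hP hPP
  rw [D.om_sq P hP] at hd
  have hQ := h27_Q_lt D v h4 hal hbe hξ
  have hnum : v (D.xi P ^ 2 - D.al) = v (D.xi P) ^ 2 := by
    rw [← map_pow]
    apply Valuation.map_sub_eq_of_lt_left
    rw [map_pow]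
    exact lt_of_le_of_lt hal hsq
  have hv := congrArg v hd
  rw [map_mul, map_mul, map_pow, hnum] at hv
  by_contra hle
  rw [not_lt] at hle
  have h1 : v (D.xi (P + P)) * (v (D.xi P) * v (4 * D.xi P ^ 2 + D.be * D.xi P + 4 * D.al)) <
      (v (D.xi P) ^ 2) ^ 2 := by
    calc v (D.xi (P + P)) * (v (D.xi P) * v (4 * D.xi P ^ 2 + D.be * D.xi P + 4 * D.al))
        ≤ v (D.xi P) * (v (D.xi P) * v (4 * D.xi P ^ 2 + D.be * D.xi P + 4 * D.al)) :=
          mul_le_mul_of_nonneg_right hle zero_le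
      _ < v (D.xi P) * (v (D.xi P) * v (D.xi P) ^ 2) := by
          apply mul_lt_mul_of_pos_left _ hpos
          exact mul_lt_mul_of_pos_left hQ hpos
      _ = (v (D.xi P) ^ 2) ^ 2 := by simp only [pow_two, mul_assoc]
  rw [hv] at h1
  exact lt_irrefl _ h1

/-- multiples by powers of two of a point of odd order are nonzero -/
theorem h27_two_pow_nsmul_ne_zero {p : ℕ} (hodd : Odd p) {P : G} (hP : P ≠ 0) (hpP : p • P = 0)
    (j : ℕ) : (2 ^ j) • P ≠ 0 := by
  intro h
  have h1 : addOrderOf P ∣ 2 ^ j := addOrderOf_dvd_of_nsmul_eq_zero h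
  have h2 : addOrderOf P ∣ p := addOrderOf_dvd_of_nsmul_eq_zero hpP
  have hcop : Nat.Coprime (2 ^ j) p := Nat.Coprime.pow_left j (Nat.coprime_two_left.mpr hodd)
  have h3 : addOrderOf P ∣ 1 := by
    have := Nat.dvd_gcd h1 h2
    rwa [hcop] at this
  have h4 : addOrderOf P = 1 := Nat.dvd_one.mp h3
  exact hP (AddMonoid.addOrderOf_eq_one_iff.mp h4)

/-- **Kernel lemma at residue characteristic 2.** -/
theorem h27_kernel2 (v : Valuation K Γ₀) (h4 : v (4 : K) < 1) (hal : v D.al ≤ 1)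
    (hbe : v D.be ≤ 1) {p : ℕ} (hodd : Odd p) {P : G} (hP : P ≠ 0) (hpP : p • P = 0) :
    v (D.xi P) ≤ 1 := by
  by_contra hgt
  rw [not_le] at hgt
  have hne := h27_two_pow_nsmul_ne_zero hodd hP hpP
  -- strictly increasing along the doubling orbit
  have key : ∀ j : ℕ, 1 < v (D.xi ((2 ^ j) • P)) ∧
      v (D.xi ((2 ^ j) • P)) < v (D.xi ((2 ^ (j + 1)) • P)) := by
    intro j
    induction j with
    | zero =>
      have h2P : P + P ≠ 0 := by
        have := hne 1
        rwa [pow_one, two_nsmul] at this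
      refine ⟨by simpa using hgt, ?_⟩
      have := h27_dbl_val_gt D v h4 hal hbe hP h2P hgt
      simpa [two_nsmul] using this
    | succ j ih =>
      have h1 : 1 < v (D.xi ((2 ^ (j + 1)) • P)) := lt_trans ih.1 ih.2
      refine ⟨h1, ?_⟩
      have hdd : (2 ^ (j + 1)) • P + (2 ^ (j + 1)) • P = (2 ^ (j + 1 + 1)) • P := by
        rw [← add_nsmul]
        congr 1
        ring
      have := h27_dbl_val_gt D v h4 hal hbe (hne (j + 1)) (by rw [hdd]; exact hne _) h1
      rwa [hdd] at this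
  have mono : ∀ j : ℕ, v (D.xi P) < v (D.xi ((2 ^ (j + 1)) • P)) := by
    intro j
    induction j with
    | zero => simpa using (key 0).2
    | succ j ih => exact lt_trans ih (key (j + 1)).2
  -- `2 ^ φ(p) ≡ 1 mod p`
  have hp0 : 0 < p := hodd.pos
  have hcop : Nat.Coprime 2 p := Nat.coprime_two_left.mpr hodd
  have hφ : 0 < Nat.totient p := Nat.totient_pos.mpr hp0
  have hmod : 2 ^ Nat.totient p ≡ 1 [MOD p] := Nat.ModEq.pow_totient hcop
  have hback : (2 ^ Nat.totient p) • P = P := by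
    have h1 : p ∣ 2 ^ Nat.totient p - 1 :=
      (Nat.modEq_iff_dvd' (Nat.one_le_two_pow)).mp hmod.symm
    obtain ⟨k, hk⟩ := h1
    have h2 : 2 ^ Nat.totient p = p * k + 1 := by
      have := Nat.one_le_two_pow (n := Nat.totient p)
      omega
    rw [h2, add_nsmul, one_nsmul, mul_nsmul, hpP, nsmul_zero, zero_add]

  have := mono (Nat.totient p - 1)
  rw [Nat.sub_add_cancel hφ, hback] at this
  exact lt_irrefl _ this

/-- In `Γ₀`: `a * b = 1`, `a ≤ 1`, `b ≤ 1` force `a = 1`. -/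
theorem h27_eq_one_of_mul_eq_one {a b : Γ₀} (h : a * b = 1) (ha : a ≤ 1) (hb : b ≤ 1) : a = 1 := by
  rcases ha.lt_or_eq with hlt | heq
  · exfalso
    have hb0 : (0 : Γ₀) < b := by
      rw [zero_lt_iff]
      rintro rfl
      rw [mul_zero] at h
      exact zero_ne_one h
    have : a * b < 1 := by
      calc a * b < 1 * b := mul_lt_mul_of_pos_right hlt hb0
        _ = b := one_mul _
        _ ≤ 1 := hb
    rw [h] at this
    exact lt_irrefl _ this
  · exact heq

/-- `v (4 ξ² + be ξ + 4 al) = 1` when `v ξ = 1`. -/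
theorem h27_Q_eq_one (v : Valuation K Γ₀) (h4 : v (4 : K) < 1) (hal : v D.al ≤ 1)
    (hbe : v D.be = 1) {ξ : K} (hξ : v ξ = 1) : v (4 * ξ ^ 2 + D.be * ξ + 4 * D.al) = 1 := by
  have h1 : v (4 * ξ ^ 2) < 1 := by rw [map_mul, map_pow, hξ, one_pow, mul_one]; exact h4
  have h2 : v (D.be * ξ) = 1 := by rw [map_mul, hbe, hξ, one_mul]
  have h3 : v (4 * D.al) < 1 := by
    rw [map_mul]
    calc v 4 * v D.al ≤ v 4 * 1 := mul_le_mul_of_nonneg_left hal zero_le
      _ = v 4 := mul_one _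
      _ < 1 := h4
  have h12 : v (4 * ξ ^ 2 + D.be * ξ) = 1 := by
    rw [← h2]
    apply Valuation.map_add_eq_of_lt_right
    rw [h2]; exact h1
  rw [← h12]
  apply Valuation.map_add_eq_of_lt_left
  rw [h12]; exact h3

/-- The good part is closed under doubling. -/
theorem h27_good_dbl (v : Valuation K Γ₀) (h4 : v (4 : K) < 1) (hal : v D.al < 1)
    (hbe : v D.be = 1) {P : G} (hP : P ≠ 0) (hPP : P + P ≠ 0) (hξ : v (D.xi P) = 1) :
    v (D.xi (P + P)) = 1 := by
  have hd := D.dbl_formula P hP hPP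
  rw [D.om_sq P hP] at hd
  have hQ := h27_Q_eq_one D v h4 hal.le hbe hξ
  have hnum : v (D.xi P ^ 2 - D.al) = 1 := by
    have : v (D.xi P ^ 2) = 1 := by rw [map_pow, hξ, one_pow]
    rw [← this]
    apply Valuation.map_sub_eq_of_lt_left
    rw [this]; exact hal
  have hv := congrArg v hd
  rw [map_mul, map_mul, map_pow, hnum, hξ, hQ, one_pow, mul_one, mul_one] at hv
  exact hv

/-- The good part is closed under addition (inside a set where `v ξ ≤ 1`). -/
theorem h27_good_add (v : Valuation K Γ₀) (hal : v D.al < 1) {P Q : G} (hP : P ≠ 0) (hQ : Q ≠ 0)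
    (hne : D.xi P ≠ D.xi Q) (hξP : v (D.xi P) = 1) (hξQ : v (D.xi Q) = 1)
    (hp : v (D.xi (P + Q)) ≤ 1) (hm : v (D.xi (P - Q)) ≤ 1) :
    v (D.xi (P + Q)) = 1 ∧ v (D.xi (P - Q)) = 1 ∧ v (D.xi P - D.xi Q) = 1 := by
  have hpr := D.prod_formula P Q hP hQ hne
  have hnum : v (D.xi P * D.xi Q - D.al) = 1 := by
    have : v (D.xi P * D.xi Q) = 1 := by rw [map_mul, hξP, hξQ, one_mul]
    rw [← this]
    apply Valuation.map_sub_eq_of_lt_left
    rw [this]; exact hal
  have hv := congrArg v hpr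
  rw [map_mul, map_mul, map_pow, map_pow, hnum, one_pow] at hv
  have hδ : v (D.xi P - D.xi Q) ≤ 1 := by
    refine (v.map_sub _ _).trans (max_le hξP.le hξQ.le)
  have hδ2 : v (D.xi P - D.xi Q) ^ 2 ≤ 1 := pow_le_one₀ zero_le hδ
  have hpm : v (D.xi (P + Q)) * v (D.xi (P - Q)) ≤ 1 := mul_le_one₀ hp zero_le hm
  have e1 : v (D.xi (P + Q)) * v (D.xi (P - Q)) = 1 := h27_eq_one_of_mul_eq_one hv hpm hδ2
  have e2 : v (D.xi (P - Q)) * v (D.xi (P + Q)) = 1 := by rw [mul_comm]; exact e1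
  have e3 : v (D.xi P - D.xi Q) ^ 2 = 1 := by
    rw [e1, one_mul] at hv; exact hv
  refine ⟨h27_eq_one_of_mul_eq_one e1 hp hm, h27_eq_one_of_mul_eq_one e2 hm hp, ?_⟩
  rw [pow_two] at e3
  exact h27_eq_one_of_mul_eq_one e3 hδ hδ

/-- The good part of the `p`-torsion is closed under multiples. -/
theorem h27_good_nsmul (v : Valuation K Γ₀) (h4 : v (4 : K) < 1) (hal : v D.al < 1)
    (hbe : v D.be = 1) {p : ℕ} (hodd : Odd p) {P : G} (hP : P ≠ 0) (hpP : p • P = 0)
    (hξ : v (D.xi P) = 1) : ∀ k : ℕ, k • P ≠ 0 → v (D.xi (k • P)) = 1 := by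
  have hK : ∀ Q : G, Q ≠ 0 → p • Q = 0 → v (D.xi Q) ≤ 1 := fun Q hQ hpQ =>
    h27_kernel2 D v h4 hal.le hbe.le hodd hQ hpQ
  have htor : ∀ k : ℕ, p • (k • P) = 0 := fun k => by
    rw [← mul_nsmul', mul_comm, mul_nsmul', hpP, nsmul_zero]
  intro k
  induction k with
  | zero => intro h; exact absurd (zero_nsmul P) h
  | succ k ih =>
    intro hk1
    by_cases hk : k • P = 0
    · rw [succ_nsmul, hk, zero_add]; exact hξ
    have ihk := ih hk
    have hsucc : (k + 1) • P = k • P + P := succ_nsmul P k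
    by_cases hxe : D.xi (k • P) = D.xi P
    · rcases D.eq_or_eq_neg hk hP hxe with h | h
      · rw [hsucc, h]
        refine h27_good_dbl D v h4 hal hbe hP ?_ hξ
        rw [hsucc, h] at hk1; exact hk1
      · exfalso
        apply hk1
        rw [hsucc, h, neg_add_cancel]
    · have hm0 : k • P - P ≠ 0 := by
        intro h
        exact hxe (by rw [sub_eq_zero.mp h])
      have hpp : p • (k • P + P) = 0 := by rw [nsmul_add, htor, hpP, add_zero]
      have hpm : p • (k • P - P) = 0 := by rw [nsmul_sub, htor, hpP, sub_zero]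
      rw [hsucc] at hk1 ⊢
      exact (h27_good_add D v hal hk hP hxe ihk hξ (hK _ hk1 hpp) (hK _ hm0 hpm)).1

/-- **Level bound.** A nonzero point of odd order reducing to the node has `v al < v ξ`. -/
theorem h27_level_lt (v : Valuation K Γ₀) (h4 : v (4 : K) < 1) (hal : v D.al < 1)
    (hbe : v D.be = 1) {p : ℕ} (hodd : Odd p) {P : G} (hP : P ≠ 0) (hpP : p • P = 0)
    (hξ : v (D.xi P) < 1) : v D.al < v (D.xi P) := by
  by_contra hle
  rw [not_lt] at hle
  have hK : ∀ Q : G, Q ≠ 0 → p • Q = 0 → v (D.xi Q) ≤ 1 := fun Q hQ hpQ =>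
    h27_kernel2 D v h4 hal.le hbe.le hodd hQ hpQ
  have h2P : P + P ≠ 0 := by
    have := h27_two_pow_nsmul_ne_zero hodd hP hpP 1
    rwa [pow_one, two_nsmul] at this
  have hp2P : p • (P + P) = 0 := by rw [nsmul_add, hpP, add_zero]
  have hξ0 : D.xi P ≠ 0 := fun h => h2P (D.add_self_eq_zero_of_xi_eq_zero hP h)
  have ht : (0 : Γ₀) < v (D.xi P) := by rw [Valuation.pos_iff]; exact hξ0
  have hα : (0 : Γ₀) < v D.al := lt_of_lt_of_le ht hle
  have hd := D.dbl_formula P hP h2P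
  rw [D.om_sq P hP] at hd
  have hsq : v (D.xi P ^ 2) < v D.al := by
    rw [map_pow]
    exact lt_of_lt_of_le (H5.sq_lt_self ht.ne' hξ) hle
  have hnum : v (D.xi P ^ 2 - D.al) = v D.al := Valuation.map_sub_eq_of_lt_right v hsq
  have hv := congrArg v hd
  rw [map_mul, map_mul, map_pow, hnum] at hv
  have hX := hK _ h2P hp2P
  -- bound on `v Q`
  have hQle : v (4 * D.xi P ^ 2 + D.be * D.xi P + 4 * D.al) ≤ v D.al := by
    have h1 : v (4 * D.xi P ^ 2) ≤ v D.al := by
      rw [map_mul]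
      calc v 4 * v (D.xi P ^ 2) ≤ 1 * v (D.xi P ^ 2) := mul_le_mul_of_nonneg_right h4.le zero_le
        _ = v (D.xi P ^ 2) := one_mul _
        _ ≤ v D.al := hsq.le
    have h2 : v (D.be * D.xi P) ≤ v D.al := by rw [map_mul, hbe, one_mul]; exact hle
    have h3 : v (4 * D.al) ≤ v D.al := by
      rw [map_mul]
      calc v 4 * v D.al ≤ 1 * v D.al := mul_le_mul_of_nonneg_right h4.le zero_le
        _ = v D.al := one_mul _
    exact (v.map_add _ _).trans (max_le ((v.map_add _ _).trans (max_le h1 h2)) h3)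
  -- hence `v al ^ 2 ≤ v X * (v ξ * v al)`, so `v al ≤ v X * v ξ ≤ v ξ`
  have h5 : v D.al ^ 2 ≤ v (D.xi (P + P)) * (v (D.xi P) * v D.al) := by
    rw [← hv]
    exact mul_le_mul_of_nonneg_left (mul_le_mul_of_nonneg_left hQle zero_le) zero_le
  have h6 : v D.al ≤ v (D.xi (P + P)) * v (D.xi P) := by
    have : v D.al * v D.al ≤ (v (D.xi (P + P)) * v (D.xi P)) * v D.al := by
      rw [← pow_two, mul_assoc]; exact h5
    exact le_of_mul_le_mul_right this hα
  have h7 : v (D.xi (P + P)) * v (D.xi P) ≤ v (D.xi P) := by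
    calc v (D.xi (P + P)) * v (D.xi P) ≤ 1 * v (D.xi P) := mul_le_mul_of_nonneg_right hX zero_le
      _ = v (D.xi P) := one_mul _
  have hteq : v (D.xi P) = v D.al := le_antisymm hle (h6.trans h7)
  -- then `v X = 1` and `v Q = v al`
  have hX1 : v (D.xi (P + P)) = 1 := by
    rcases hX.lt_or_eq with hlt | heq
    · exfalso
      have : v (D.xi (P + P)) * v (D.xi P) < v (D.xi P) := by
        calc v (D.xi (P + P)) * v (D.xi P) < 1 * v (D.xi P) := mul_lt_mul_of_pos_right hlt ht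
          _ = v (D.xi P) := one_mul _
      rw [hteq] at this
      exact lt_irrefl _ (lt_of_le_of_lt (by rw [hteq] at h6; exact h6) this)
    · exact heq
  -- so `2P` is good, hence `P = ((p+1)/2) • 2P` is good: contradiction
  obtain ⟨m, hm⟩ := hodd
  have hPm : (m + 1) • (P + P) = P := by
    rw [← two_nsmul, ← mul_nsmul']
    have : (m + 1) * 2 = p + 1 := by omega
    rw [this, add_nsmul, hpP, zero_add, one_nsmul]
  have := h27_good_nsmul D v h4 hal hbe ⟨m, hm⟩ h2P hp2P hX1 (m + 1) (by rw [hPm]; exact hP)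
  rw [hPm] at this
  rw [this] at hξ
  exact lt_irrefl _ hξ

end Fermat.Agent.H27L2
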