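/-
T-Ell, piece L2u (helper27): inertia at a place of residue characteristic `2` acts unipotently
(`(σ - 1)² = 0`) on the odd torsion of a curve `y² + x y = x³ + a₂ x² + a₄ x` with `v a₂ ≤ 1`,
`v a₄ < 1` (multiplicative reduction, node at the origin).

Strategy: with `D` the `XData` at the 2-torsion point `(0, 0)`:
* `h27_fixed_of_good` : a torsion point with `v x = 1` (reducing to the smooth locus) is fixed;
* `h27_diff_good`     : for any torsion point `X`, `σ X - X` is `0` or has `v x = 1`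
                        (the branch lemma `h27_branch_val`).
-/
import Fermat.Agent.TEll.L2Kernel
import Fermat.Agent.TEll.L2Branch
import Fermat.Agent.S05.XGalois

set_option autoImplicit false

namespace Fermat.Agent.H27L2

open WeierstrassCurve WeierstrassCurve.Affine WeierstrassCurve.Affine.Point
open Fermat.Agent.H29

section Core

variable {R : Type*} {S : Type*} {K : Type*} [CommRing R] [CommRing S] [Field K]
  [DecidableEq K] {W' : Affine R} [Algebra R S] [Algebra R K] [Algebra S K]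
  [IsScalarTower R S K] {Γ₀ : Type*} [LinearOrderedCommGroupWithZero Γ₀]

omit [DecidableEq K] [Algebra R S] [Algebra S K] [IsScalarTower R S K] in
theorem h27_some_congr {x y x' y' : K} (h : (W'⁄K).Nonsingular x y)
    (h' : (W'⁄K).Nonsingular x' y') (hx : x' = x) (hy : y' = y) :
    (Affine.Point.some x' y' h' : (W'⁄K).Point) = Affine.Point.some x y h := by
  subst hx; subst hy; rfl

omit [DecidableEq K] [Algebra R S] [Algebra S K] [IsScalarTower R S K] in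
theorem h27_hx₀ (ha₃ : (W'⁄K).a₃ = 0) (ha₆ : (W'⁄K).a₆ = 0) :
    4 * (0 : K) ^ 3 + (W'⁄K).b₂ * (0 : K) ^ 2 + 2 * (W'⁄K).b₄ * (0 : K) + (W'⁄K).b₆ = 0 := by
  rw [WeierstrassCurve.b₆, ha₃, ha₆]; ring

omit [DecidableEq K] [Algebra R S] [Algebra S K] [IsScalarTower R S K] in
theorem h27_val_four (v : Valuation K Γ₀) (h2 : v (2 : K) < 1) : v (4 : K) < 1 := by
  have h4 : (4 : K) = 2 * 2 := by norm_num
  rw [h4, map_mul]
  calc v 2 * v 2 ≤ v 2 * 1 := mul_le_mul_of_nonneg_left h2.le zero_le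
    _ = v 2 := mul_one _
    _ < 1 := h2

theorem h27_al_eq (h2ne : (2 : K) ≠ 0) (ha₁ : (W'⁄K).a₁ = 1) (ha₃ : (W'⁄K).a₃ = 0)
    (ha₆ : (W'⁄K).a₆ = 0) :
    (h29_xdata (W'⁄K) h2ne 0 (h27_hx₀ ha₃ ha₆)).al = (W'⁄K).a₄ := by
  rw [h29_xdata_al, WeierstrassCurve.b₄, ha₁, ha₃]
  field_simp
  ring

theorem h27_be_eq (h2ne : (2 : K) ≠ 0) (ha₁ : (W'⁄K).a₁ = 1) (ha₃ : (W'⁄K).a₃ = 0)
    (ha₆ : (W'⁄K).a₆ = 0) :
    (h29_xdata (W'⁄K) h2ne 0 (h27_hx₀ ha₃ ha₆)).be = 1 + 4 * (W'⁄K).a₂ := by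
  rw [h29_xdata_be, WeierstrassCurve.b₂, ha₁]
  ring

theorem h27_be_val (v : Valuation K Γ₀) (h2 : v (2 : K) < 1) (h2ne : (2 : K) ≠ 0)
    (ha₁ : (W'⁄K).a₁ = 1) (ha₃ : (W'⁄K).a₃ = 0) (ha₆ : (W'⁄K).a₆ = 0)
    (ha₂ : v (W'⁄K).a₂ ≤ 1) :
    v (h29_xdata (W'⁄K) h2ne 0 (h27_hx₀ ha₃ ha₆)).be = 1 := by
  rw [h27_be_eq h2ne ha₁ ha₃ ha₆]
  apply Valuation.map_one_add_of_lt
  rw [map_mul]
  calc v 4 * v (W'⁄K).a₂ ≤ v 4 * 1 := mul_le_mul_of_nonneg_left ha₂ zero_le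
    _ = v 4 := mul_one _
    _ < 1 := h27_val_four v h2

/-- `σ` commutes with multiples. -/
theorem h27_smul_nsmul (σ : K ≃ₐ[S] K) (n : ℕ) (P : (W'⁄K).Point) :
    σ • (n • P) = n • (σ • P) :=
  map_nsmul (DistribSMul.toAddMonoidHom (W'⁄K).Point σ) n P

theorem h27_smul_sub (σ : K ≃ₐ[S] K) (P Q : (W'⁄K).Point) :
    σ • (P - Q) = σ • P - σ • Q :=
  map_sub (DistribSMul.toAddMonoidHom (W'⁄K).Point σ) P Q

/-- Kernel lemma, including the point at infinity. -/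
theorem h27_xi_le_one (v : Valuation K Γ₀) (h2 : v (2 : K) < 1) (h2ne : (2 : K) ≠ 0)
    (ha₁ : (W'⁄K).a₁ = 1) (ha₃ : (W'⁄K).a₃ = 0) (ha₆ : (W'⁄K).a₆ = 0)
    (ha₂ : v (W'⁄K).a₂ ≤ 1) (ha₄ : v (W'⁄K).a₄ < 1) {p : ℕ} (hodd : Odd p)
    (Q : (W'⁄K).Point) (hpQ : p • Q = 0) : v (h29_xi (W'⁄K) 0 Q) ≤ 1 := by
  by_cases hQ : Q = 0
  · rw [hQ, h29_xi_zero, _root_.map_zero]; exact zero_le_one
  · have hal : v (h29_xdata (W'⁄K) h2ne 0 (h27_hx₀ ha₃ ha₆)).al ≤ 1 := by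
      rw [h27_al_eq h2ne ha₁ ha₃ ha₆]; exact ha₄.le
    exact h27_kernel2 (h29_xdata (W'⁄K) h2ne 0 (h27_hx₀ ha₃ ha₆)) v (h27_val_four v h2) hal
      (h27_be_val v h2 h2ne ha₁ ha₃ ha₆ ha₂).le hodd hQ hpQ

/-- **Claim B.** A torsion point of odd order reducing to the smooth locus is fixed by `σ`. -/
theorem h27_fixed_of_good (v : Valuation K Γ₀) (h2 : v (2 : K) < 1) (h2ne : (2 : K) ≠ 0)
    (ha₁ : (W'⁄K).a₁ = 1) (ha₃ : (W'⁄K).a₃ = 0) (ha₆ : (W'⁄K).a₆ = 0)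
    (ha₂ : v (W'⁄K).a₂ ≤ 1) (ha₄ : v (W'⁄K).a₄ < 1)
    (σ : K ≃ₐ[S] K) (hσm : ∀ x, v x ≤ 1 → v (σ x - x) < 1)
    {p : ℕ} (hodd : Odd p) {P : (W'⁄K).Point} (hP : P ≠ 0) (hpP : p • P = 0)
    (hξ : v (h29_xi (W'⁄K) 0 P) = 1) : σ • P = P := by
  obtain ⟨x, y, h, rfl⟩ := h29_exists_some _ hP
  rw [h29_xi_some, sub_zero] at hξ
  have hσh : (W'⁄K).Nonsingular (σ x) (σ y) :=
    (W'.baseChange_nonsingular σ.toAlgHom.injective ..).mpr h
  have hσP : σ • (Affine.Point.some x y h : (W'⁄K).Point) = Affine.Point.some (σ x) (σ y) hσh :=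
    h29_smul_some σ h
  by_cases hx : σ x = x
  · rcases Affine.Y_eq_of_X_eq hσh.1 h.1 hx with hy | hy
    · rw [hσP]; exact h27_some_congr h hσh hx hy
    · exfalso
      have hyle : v y ≤ v x := h27_tau_le v (W'⁄K) ha₁ ha₃ ha₆ ha₂ h.1 hξ.le (by rw [hξ]; exact ha₄.le)
      rw [hξ] at hyle
      have hlt := hσm y hyle
      rw [hy, Affine.negY, ha₁, ha₃] at hlt
      have e : -y - 1 * x - 0 - y = -(x + 2 * y) := by ring
      rw [e, Valuation.map_neg] at hlt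
      have h2y : v (2 * y) < v x := by
        rw [map_mul, hξ]
        calc v 2 * v y ≤ v 2 * 1 := mul_le_mul_of_nonneg_left hyle zero_le
          _ = v 2 := mul_one _
          _ < 1 := h2
      rw [Valuation.map_add_eq_of_lt_left v h2y, hξ] at hlt
      exact lt_irrefl _ hlt
  · exfalso
    have hal : v (h29_xdata (W'⁄K) h2ne 0 (h27_hx₀ ha₃ ha₆)).al < 1 := by
      rw [h27_al_eq h2ne ha₁ ha₃ ha₆]; exact ha₄
    have hQ : (Affine.Point.some (σ x) (σ y) hσh : (W'⁄K).Point) ≠ 0 := by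
      intro h0; cases h0
    have hpQ : p • (Affine.Point.some (σ x) (σ y) hσh : (W'⁄K).Point) = 0 := by
      rw [← hσP, ← h27_smul_nsmul, hpP]; exact h29_smul_zero σ
    have hK := h27_xi_le_one (W' := W') v h2 h2ne ha₁ ha₃ ha₆ ha₂ ha₄ hodd
    have hxle : v x ≤ 1 := hξ.le
    have hσx1 : v (σ x) = 1 := by
      have h1 := hK _ hpQ
      rw [h29_xi_some, sub_zero] at h1
      -- `v (σ x - x) < 1` and `v x = 1` force `v (σ x) = 1`
      have h3 := hσm x hxle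
      have e : σ x = x + (σ x - x) := by ring
      rw [e, Valuation.map_add_eq_of_lt_left v (by rw [hξ]; exact h3)]
      exact hξ
    have hne : (h29_xdata (W'⁄K) h2ne 0 (h27_hx₀ ha₃ ha₆)).xi (Affine.Point.some x y h) ≠
        (h29_xdata (W'⁄K) h2ne 0 (h27_hx₀ ha₃ ha₆)).xi (Affine.Point.some (σ x) (σ y) hσh) := by
      simp only [h29_xdata_xi, h29_xi_some, sub_zero]
      exact fun h' => hx h'.symm
    have hsum : p • ((Affine.Point.some x y h : (W'⁄K).Point) +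
        Affine.Point.some (σ x) (σ y) hσh) = 0 := by rw [nsmul_add, hpP, hpQ, add_zero]
    have hdif : p • ((Affine.Point.some x y h : (W'⁄K).Point) -
        Affine.Point.some (σ x) (σ y) hσh) = 0 := by rw [nsmul_sub, hpP, hpQ, sub_zero]
    have key := h27_good_add (h29_xdata (W'⁄K) h2ne 0 (h27_hx₀ ha₃ ha₆)) v hal hP hQ hne
      (by simp only [h29_xdata_xi, h29_xi_some, sub_zero]; exact hξ)
      (by simp only [h29_xdata_xi, h29_xi_some, sub_zero]; exact hσx1)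
      (hK _ hsum) (hK _ hdif)
    have h3 := key.2.2
    simp only [h29_xdata_xi, h29_xi_some, sub_zero] at h3
    have h4 := hσm x hxle
    rw [Valuation.map_sub_swap, h3] at h4
    exact lt_irrefl _ h4

/-- **Claim A.** For a torsion point `X` of odd order, `σ X - X` is zero or reduces to the smooth
locus. -/
theorem h27_diff_good (v : Valuation K Γ₀) (h2 : v (2 : K) < 1) (h2ne : (2 : K) ≠ 0)
    (ha₁ : (W'⁄K).a₁ = 1) (ha₃ : (W'⁄K).a₃ = 0) (ha₆ : (W'⁄K).a₆ = 0)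
    (ha₂ : v (W'⁄K).a₂ ≤ 1) (ha₄ : v (W'⁄K).a₄ < 1)
    (σ : K ≃ₐ[S] K) (hσv : ∀ x, v (σ x) = v x) (hσm : ∀ x, v x ≤ 1 → v (σ x - x) < 1)
    {p : ℕ} (hodd : Odd p) (X : (W'⁄K).Point) (hpX : p • X = 0)
    (hR : σ • X - X ≠ 0) : v (h29_xi (W'⁄K) 0 (σ • X - X)) = 1 := by
  have hpσX : p • (σ • X) = 0 := by rw [← h27_smul_nsmul, hpX]; exact h29_smul_zero σ
  have hpR : p • (σ • X - X) = 0 := by rw [nsmul_sub, hpσX, hpX, sub_zero]
  have hK := h27_xi_le_one (W' := W') v h2 h2ne ha₁ ha₃ ha₆ ha₂ ha₄ hodd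
  have hX0 : X ≠ 0 := by
    intro h0
    apply hR
    rw [h0, h29_smul_zero, sub_zero]
  obtain ⟨x, y, h, rfl⟩ := h29_exists_some _ hX0
  have hσh : (W'⁄K).Nonsingular (σ x) (σ y) :=
    (W'.baseChange_nonsingular σ.toAlgHom.injective ..).mpr h
  have hσP : σ • (Affine.Point.some x y h : (W'⁄K).Point) = Affine.Point.some (σ x) (σ y) hσh :=
    h29_smul_some σ h
  have hx1 : v x ≤ 1 := by
    have := hK _ hpX
    rwa [h29_xi_some, sub_zero] at this
  rcases lt_or_eq_of_le hx1 with hxlt | hxeq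
  · -- `X` reduces to the node
    have hal : v (h29_xdata (W'⁄K) h2ne 0 (h27_hx₀ ha₃ ha₆)).al < 1 := by
      rw [h27_al_eq h2ne ha₁ ha₃ ha₆]; exact ha₄
    have hlev : v (W'⁄K).a₄ < v x := by
      have := h27_level_lt (h29_xdata (W'⁄K) h2ne 0 (h27_hx₀ ha₃ ha₆)) v (h27_val_four v h2) hal
        (h27_be_val v h2 h2ne ha₁ ha₃ ha₆ ha₂) hodd hX0 hpX
        (by simp only [h29_xdata_xi, h29_xi_some, sub_zero]; exact hxlt)
      simp only [h29_xdata_xi, h29_xi_some, sub_zero] at this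
      rwa [h27_al_eq h2ne ha₁ ha₃ ha₆] at this
    have hxpos : (0 : Γ₀) < v x := lt_of_le_of_lt zero_le hlev
    have hxne : x ≠ 0 := (Valuation.pos_iff v).mp hxpos
    have hyx : v y ≤ v x := h27_tau_le v (W'⁄K) ha₁ ha₃ ha₆ ha₂ h.1 hx1 hlev.le
    have hτ1 : v (y / x) ≤ 1 := by
      rw [map_div₀]
      exact div_le_one_of_le₀ hyx zero_le
    have hτ := hσm (y / x) hτ1
    rw [map_div₀] at hτ
    by_cases hx : σ x = x
    · exfalso
      rcases Affine.Y_eq_of_X_eq hσh.1 h.1 hx with hy | hy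
      · apply hR
        rw [hσP, h27_some_congr h hσh hx hy, sub_self]
      · rw [hx, hy, Affine.negY, ha₁, ha₃] at hτ
        have e : (-y - 1 * x - 0) / x - y / x = -(1 + 2 * (y / x)) := by
          field_simp
          ring
        rw [e, Valuation.map_neg] at hτ
        have h2τ : v (2 * (y / x)) < 1 := by
          rw [map_mul]
          calc v 2 * v (y / x) ≤ v 2 * 1 := mul_le_mul_of_nonneg_left hτ1 zero_le
            _ = v 2 := mul_one _
            _ < 1 := h2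
        rw [Valuation.map_one_add_of_lt (v := v) h2τ] at hτ
        exact lt_irrefl _ hτ
    · -- the branch lemma
      have hsub : σ • (Affine.Point.some x y h : (W'⁄K).Point) - Affine.Point.some x y h =
          Affine.Point.some (σ x) (σ y) hσh + Affine.Point.some x ((W'⁄K).negY x y)
            ((Affine.nonsingular_neg ..).mpr h) := by
        rw [hσP, sub_eq_add_neg, Affine.Point.neg_some]
      have hge : 1 ≤ v (h29_xi (W'⁄K) 0 (σ • (Affine.Point.some x y h : (W'⁄K).Point) -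
          Affine.Point.some x y h)) := by
        rw [hsub, Affine.Point.add_of_X_ne hx, h29_xi_some, sub_zero]
        refine h27_branch_val v (W'⁄K) ha₁ ha₃ ha₆ h2 ha₂ hσh.1 hx ?_ ?_ ?_ ?_
        · rw [hσv]; exact hxlt
        · rw [hσv]; exact hlev
        · rw [hσv]
        · rw [Valuation.map_sub_swap]; exact hτ
      exact le_antisymm (hK _ hpR) hge
  · -- `X` reduces to the smooth locus: it is fixed
    exfalso
    apply hR
    rw [h27_fixed_of_good v h2 h2ne ha₁ ha₃ ha₆ ha₂ ha₄ σ hσm hodd hX0 hpX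
      (by rw [h29_xi_some, sub_zero]; exact hxeq), sub_self]

/-- **Unipotence of inertia at `2`** (general form). -/
theorem h27_unipotent_core (v : Valuation K Γ₀) (h2 : v (2 : K) < 1) (h2ne : (2 : K) ≠ 0)
    (ha₁ : (W'⁄K).a₁ = 1) (ha₃ : (W'⁄K).a₃ = 0) (ha₆ : (W'⁄K).a₆ = 0)
    (ha₂ : v (W'⁄K).a₂ ≤ 1) (ha₄ : v (W'⁄K).a₄ < 1)
    (σ : K ≃ₐ[S] K) (hσv : ∀ x, v (σ x) = v x) (hσm : ∀ x, v x ≤ 1 → v (σ x - x) < 1)
    {p : ℕ} (hodd : Odd p) (X : (W'⁄K).Point) (hpX : p • X = 0) :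
    σ • (σ • X - X) = σ • X - X := by
  have hpσX : p • (σ • X) = 0 := by rw [← h27_smul_nsmul, hpX]; exact h29_smul_zero σ
  have hpR : p • (σ • X - X) = 0 := by rw [nsmul_sub, hpσX, hpX, sub_zero]
  by_cases hR : σ • X - X = 0
  · rw [hR]; exact h29_smul_zero σ
  · exact h27_fixed_of_good v h2 h2ne ha₁ ha₃ ha₆ ha₂ ha₄ σ hσm hodd hR hpR
      (h27_diff_good v h2 h2ne ha₁ ha₃ ha₆ ha₂ ha₄ σ hσv hσm hodd X hpX hR)

end Core

end Fermat.Agent.H27L2
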