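/-
T-Ell, piece L2u (helper27): inertia at `2` acts unipotently on the `p`-torsion of the Frey curve.

`h27_L2u (P : FreyPackage) : Fermat.Agent.TEll.L2u P`.
-/
import Fermat.Agent.TEll.L2Uni
import Fermat.Agent.TEll.Defs
import Fermat.Agent.S05.FreyArith
import Fermat.Agent.S05.Inertia

set_option autoImplicit false

namespace Fermat.Agent.H27L2

open WeierstrassCurve WeierstrassCurve.Affine WeierstrassCurve.Affine.Point
open Fermat.Agent.H29 Fermat.Agent.H4Frey Fermat.Agent.H9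

section Arith

variable (P : FreyPackage)

theorem h27_two_dvd_b : (2 : ℤ) ∣ P.b := by
  have h := P.hb2
  exact (ZMod.intCast_zmod_eq_zero_iff_dvd P.b 2).mp h

theorem h27_32_dvd_B : (32 : ℤ) ∣ P.b ^ P.p := by
  obtain ⟨k, hk⟩ := h27_two_dvd_b P
  rw [hk, mul_pow]
  have h1 : (32 : ℤ) ∣ 2 ^ P.p := by
    have : (32 : ℤ) = 2 ^ 5 := by norm_num
    rw [this]
    exact pow_dvd_pow 2 P.hp5
  exact Dvd.dvd.mul_right h1 _

theorem h27_4_dvd_a_add_one : (4 : ℤ) ∣ P.a + 1 := by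
  have h := P.ha4
  have h' : (((P.a + 1 : ℤ)) : ZMod 4) = 0 := by
    rw [Int.cast_add, h, Int.cast_one]
    decide
  exact (ZMod.intCast_zmod_eq_zero_iff_dvd (P.a + 1) 4).mp h'

theorem h27_4_dvd_a₂num : (4 : ℤ) ∣ P.b ^ P.p - 1 - P.a ^ P.p := by
  have h1 : (4 : ℤ) ∣ P.a ^ P.p + 1 := by
    have := Odd.add_dvd_pow_add_pow P.a 1 P.hp_odd
    rw [one_pow] at this
    exact (h27_4_dvd_a_add_one P).trans this
  have h2 : (4 : ℤ) ∣ P.b ^ P.p := by
    have : (4 : ℤ) ∣ 32 := by norm_num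
    exact this.trans (h27_32_dvd_B P)
  have e : P.b ^ P.p - 1 - P.a ^ P.p = P.b ^ P.p - (P.a ^ P.p + 1) := by ring
  rw [e]
  exact dvd_sub h2 h1

end Arith

local notation "Qbar" => AlgebraicClosure ℚ

section Frey

variable (P : FreyPackage)

theorem h27_val_two (A : ValuationSubring Qbar) (hA : A.LiesOverPrime 2) :
    A.valuation (2 : Qbar) < 1 := by
  have := valuation_intCast_lt_one (L := Qbar) Nat.prime_two hA (n := 2) (by norm_num)
  simpa using this

theorem h27_val_int_le (A : ValuationSubring Qbar) (n : ℤ) : A.valuation (n : Qbar) ≤ 1 :=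
  (ValuationSubring.valuation_le_one_iff A _).mpr (H4Frey.intCast_mem A n)

theorem h27_val_a₂ (A : ValuationSubring Qbar) :
    A.valuation ((P.freyCurve)⁄Qbar).a₂ ≤ 1 := by
  obtain ⟨m, hm⟩ := h27_4_dvd_a₂num P
  have e : ((P.freyCurve)⁄Qbar).a₂ = (m : Qbar) := by
    rw [baseChange_a₂]
    have h1 : BK P Qbar - 1 - AK P Qbar = ((P.b ^ P.p - 1 - P.a ^ P.p : ℤ) : Qbar) := by
      push_cast; rfl
    rw [h1, hm]
    push_cast
    field_simp
  rw [e]
  exact h27_val_int_le A m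

theorem h27_val_a₄ (A : ValuationSubring Qbar) (hA : A.LiesOverPrime 2) :
    A.valuation ((P.freyCurve)⁄Qbar).a₄ < 1 := by
  obtain ⟨m, hm⟩ := h27_32_dvd_B P
  have e : ((P.freyCurve)⁄Qbar).a₄ = 2 * (((-(P.a ^ P.p) * m : ℤ)) : Qbar) := by
    rw [baseChange_a₄]
    have h1 : BK P Qbar = ((P.b ^ P.p : ℤ) : Qbar) := by
      push_cast; rfl
    rw [h1, hm]
    push_cast
    field_simp
    ring
  rw [e, map_mul]
  calc A.valuation 2 * A.valuation (((-(P.a ^ P.p) * m : ℤ)) : Qbar)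
      ≤ A.valuation 2 * 1 := mul_le_mul_of_nonneg_left (h27_val_int_le A _) zero_le
    _ = A.valuation 2 := mul_one _
    _ < 1 := h27_val_two A hA

/-- Unipotence on points. -/
theorem h27_L2u_point (A : ValuationSubring Qbar) (hA : A.LiesOverPrime 2)
    (σ : Qbar ≃ₐ[ℚ] Qbar) (hσ : σ ∈ A.inertiaSubgroupIn ℚ)
    (x : ((P.freyCurve)⁄Qbar).Point) (hx : P.p • x = 0) :
    σ • (σ • x - x) = σ • x - x := by
  have hσv : ∀ y : Qbar, A.valuation (σ y) = A.valuation y := fun y =>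
    h9_inertia_valuation_apply A hσ ((AlgebraicClosure.isAlgebraic ℚ).isAlgebraic y)
  have hσm : ∀ y : Qbar, A.valuation y ≤ 1 → A.valuation (σ y - y) < 1 := by
    intro y hy
    have hyA : y ∈ A := (ValuationSubring.valuation_le_one_iff A y).mp hy
    have := h9_inertia_apply_sub_mem_nonunits A hσ hyA
    exact (ValuationSubring.mem_nonunits_iff A).mp this
  exact h27_unipotent_core A.valuation (h27_val_two A hA) two_ne_zero
    (baseChange_a₁ P Qbar) (baseChange_a₃ P Qbar) (baseChange_a₆ P Qbar)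
    (h27_val_a₂ P A) (h27_val_a₄ P A hA) σ hσv hσm P.hp_odd x hx

/-- **Piece L2u.** -/
theorem h27_L2u : Fermat.Agent.TEll.L2u P := by
  intro A hA σ hσ x
  apply Subtype.ext
  have hx : P.p • x.1 = 0 := by
    have := x.2
    rw [Submodule.mem_torsionBy_iff] at this
    rw [← natCast_zsmul]
    exact this
  exact h27_L2u_point P A hA σ hσ x.1 hx

end Frey

end Fermat.Agent.H27L2
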