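/-
T-Ell piece L2r (helper25): **the Frey curve has no rational point of order `p`**:
`h25r_L2r (P : FreyPackage) : Fermat.Agent.TEll.L2r P`.

A point of `E[p]` fixed by the whole Galois group has rational coordinates; at a place `A` over
`2` its `x`-coordinate `r ∈ ℚ` is non-integral (kernel lemma `h27_kernel2`), a unit
(`h25r_unit_false`) or a non-unit with `v r = v 2 ^ k` (`h25r_level_false`, since
`v a₄ = v 2 ^ n` with `p ∤ n`).
-/
import Fermat.Agent.TEll.L2rUnit
import Fermat.Agent.TEll.LPV1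
import Fermat.Agent.TEll.L2u
import Fermat.Agent.S54.Frobenius
import Fermat.Agent.TEll.Defs

set_option autoImplicit false

namespace Fermat.Agent.H25R

open WeierstrassCurve WeierstrassCurve.Affine WeierstrassCurve.Affine.Point
open Fermat.Agent.H29 Fermat.Agent.H4Frey Fermat.Agent.H9 Fermat.Agent.TEll
open Fermat.Agent.H25L Fermat.Agent.H27L2

local notation "Qbar" => AlgebraicClosure ℚ

/-! ### Elements fixed by the whole Galois group are rational -/

theorem h25r_rat_of_fixed (z : Qbar) (h : ∀ σ : Qbar ≃ₐ[ℚ] Qbar, σ z = z) :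
    ∃ r : ℚ, z = (r : Qbar) := by
  have hgal : IsGalois ℚ Qbar := by
    have h' : (DivisionRing.toRatAlgebra : Algebra ℚ (AlgebraicClosure ℚ)) =
        AlgebraicClosure.instAlgebra ℚ := Subsingleton.elim _ _
    rw [h']
    infer_instance
  obtain ⟨r, hr⟩ := (InfiniteGalois.mem_range_algebraMap_iff_fixed
    (k := ℚ) (K := Qbar) z).2 h
  refine ⟨r, ?_⟩
  rw [← hr]
  exact (eq_ratCast (algebraMap ℚ Qbar) r)

/-! ### `2`-adic valuations of integers and rationals -/

section Val

variable {A : ValuationSubring Qbar} (hA : A.LiesOverPrime 2)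
include hA

theorem h25r_val_odd {n : ℤ} (hn : ¬ (2 : ℤ) ∣ n) : A.valuation (n : Qbar) = 1 :=
  valuation_intCast_eq_one (L := Qbar) Nat.prime_two hA (by simpa using hn)

theorem h25r_val_even {n : ℤ} (hn : (2 : ℤ) ∣ n) : A.valuation (n : Qbar) < 1 :=
  valuation_intCast_lt_one (L := Qbar) Nat.prime_two hA (by simpa using hn)

theorem h25r_val_nat_pow {n : ℕ} (hn : n ≠ 0) :
    ∃ k : ℕ, A.valuation (n : Qbar) = A.valuation (2 : Qbar) ^ k := by
  obtain ⟨k, m, hm, rfl⟩ := Nat.exists_eq_two_pow_mul_odd hn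
  refine ⟨k, ?_⟩
  have hm' : ¬ (2 : ℤ) ∣ (m : ℤ) := by
    intro h
    have : 2 ∣ m := by exact_mod_cast h
    exact (Nat.not_even_iff_odd.mpr hm) (even_iff_two_dvd.mpr this)
  have h1 := h25r_val_odd hA hm'
  rw [Int.cast_natCast] at h1
  rw [Nat.cast_mul, Nat.cast_pow, map_mul, map_pow, h1, mul_one, Nat.cast_ofNat]

theorem h25r_val_int_pow {n : ℤ} (hn : n ≠ 0) :
    ∃ k : ℕ, A.valuation (n : Qbar) = A.valuation (2 : Qbar) ^ k := by
  obtain ⟨k, hk⟩ := h25r_val_nat_pow hA (Int.natAbs_ne_zero.mpr hn)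
  refine ⟨k, ?_⟩
  rw [← hk]
  rcases Int.natAbs_eq n with h | h
  · conv_lhs => rw [h]
    rw [Int.cast_natCast]
  · conv_lhs => rw [h]
    rw [Int.cast_neg, Valuation.map_neg, Int.cast_natCast]

/-- The three cases for a nonzero rational number at a place over `2`. -/
theorem h25r_rat_cases (r : ℚ) (hr : r ≠ 0) :
    1 < A.valuation (r : Qbar) ∨ A.valuation ((r : Qbar) - 1) < 1 ∨
      (A.valuation (r : Qbar) < 1 ∧
        ∃ k : ℕ, A.valuation (r : Qbar) = A.valuation (2 : Qbar) ^ k) := by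
  have hd0 : (r.den : Qbar) ≠ 0 := by exact_mod_cast r.den_ne_zero
  have hn0 : r.num ≠ 0 := Rat.num_ne_zero.mpr hr
  have hrq : (r : Qbar) = (r.num : Qbar) / (r.den : Qbar) := by
    conv_lhs => rw [← Rat.num_div_den r]
    push_cast
    rfl
  have hdpos : 0 < A.valuation (r.den : Qbar) := by
    rw [Valuation.pos_iff]; exact hd0
  by_cases hd : (2 : ℤ) ∣ (r.den : ℤ)
  · -- denominator even, numerator odd
    left
    have hnodd : ¬ (2 : ℤ) ∣ r.num := by
      intro h
      have h1 : (2 : ℤ) ∣ Int.gcd r.num r.den := Int.dvd_coe_gcd h hd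
      have h2 : Int.gcd r.num r.den = 1 := r.reduced
      rw [h2] at h1
      norm_num at h1
    have h1 := h25r_val_odd hA hnodd
    have h2 := h25r_val_even hA hd
    rw [Int.cast_natCast] at h2
    rw [hrq, map_div₀, h1, one_div]
    exact (one_lt_inv₀ hdpos).mpr h2
  · have hvd : A.valuation (r.den : Qbar) = 1 := by
      have := h25r_val_odd hA hd
      rwa [Int.cast_natCast] at this
    have hvr : A.valuation (r : Qbar) = A.valuation (r.num : Qbar) := by
      rw [hrq, map_div₀, hvd, div_one]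
    right
    by_cases hn : (2 : ℤ) ∣ r.num
    · right
      obtain ⟨k, hk⟩ := h25r_val_int_pow hA hn0
      exact ⟨by rw [hvr]; exact h25r_val_even hA hn, k, by rw [hvr, hk]⟩
    · left
      have e : (r : Qbar) - 1 = ((r.num - (r.den : ℤ) : ℤ) : Qbar) / (r.den : Qbar) := by
        rw [hrq]
        push_cast
        field_simp
      have heven : (2 : ℤ) ∣ r.num - (r.den : ℤ) := by
        have h1 : r.num % 2 = 1 := by omega
        have h2 : (r.den : ℤ) % 2 = 1 := by omega
        omega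
      rw [e, map_div₀, hvd, div_one]
      exact h25r_val_even hA heven

end Val

/-! ### The Frey data at `2` -/

section Frey

variable (P : FreyPackage)

theorem h25r_a_odd : ¬ (2 : ℤ) ∣ P.a := by
  intro h
  have h4 := h27_4_dvd_a_add_one P
  omega

/-- `v a₄ = v 2 ^ n` with `p ∤ n`, at a place over `2`. -/
theorem h25r_val_al {A : ValuationSubring Qbar} (hA : A.LiesOverPrime 2) :
    ∃ n : ℕ, ¬ P.p ∣ n ∧ A.valuation (h25l_D0 P).al = A.valuation (2 : Qbar) ^ n := by
  have hp5 := P.hp5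
  have hv2lt : A.valuation (2 : Qbar) < 1 := h27_val_two A hA
  have hv20 : A.valuation (2 : Qbar) ≠ 0 := (Valuation.ne_zero_iff _).mpr two_ne_zero
  -- `b = 2 ^ e * b'`
  obtain ⟨e, b', hb', hbe⟩ := Nat.exists_eq_two_pow_mul_odd (Int.natAbs_ne_zero.mpr P.hb0)
  have he : 1 ≤ e := by
    by_contra h
    have h0 : e = 0 := by omega
    rw [h0, pow_zero, one_mul] at hbe
    have h2 : (2 : ℤ) ∣ P.b := h27_two_dvd_b P
    have h3 : (2 : ℕ) ∣ P.b.natAbs := by
      have := Int.natAbs_dvd_natAbs.mpr h2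
      simpa using this
    rw [hbe] at h3
    exact (Nat.not_even_iff_odd.mpr hb') (even_iff_two_dvd.mpr h3)
  have hvb : A.valuation ((P.b : ℤ) : Qbar) = A.valuation (2 : Qbar) ^ e := by
    have h1 : A.valuation ((P.b : ℤ) : Qbar) = A.valuation ((P.b.natAbs : ℕ) : Qbar) := by
      rcases Int.natAbs_eq P.b with h | h
      · conv_lhs => rw [h]
        rw [Int.cast_natCast]
      · conv_lhs => rw [h]
        rw [Int.cast_neg, Valuation.map_neg, Int.cast_natCast]
    have hb'' : ¬ (2 : ℤ) ∣ (b' : ℤ) := by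
      intro h
      have : 2 ∣ b' := by exact_mod_cast h
      exact (Nat.not_even_iff_odd.mpr hb') (even_iff_two_dvd.mpr this)
    have h2 := h25r_val_odd hA hb''
    rw [Int.cast_natCast] at h2
    rw [h1, hbe, Nat.cast_mul, Nat.cast_pow, map_mul, map_pow, h2, mul_one, Nat.cast_ofNat]
  have hva : A.valuation ((P.a : ℤ) : Qbar) = 1 := h25r_val_odd hA (h25r_a_odd P)
  have hle : 4 ≤ e * P.p := by nlinarith
  refine ⟨e * P.p - 4, ?_, ?_⟩
  · intro hdvd
    have h1 : P.p ∣ e * P.p := Dvd.intro_left e rfl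
    have h2 : P.p ∣ e * P.p - (e * P.p - 4) := Nat.dvd_sub h1 hdvd
    have h3 : e * P.p - (e * P.p - 4) = 4 := by omega
    rw [h3] at h2
    have := Nat.le_of_dvd (by norm_num) h2
    omega
  · have h16 : A.valuation (16 : Qbar) = A.valuation (2 : Qbar) ^ 4 := by
      have e16 : (16 : Qbar) = 2 ^ 4 := by norm_num
      rw [e16, map_pow]
    have hnum : A.valuation (-(AK P Qbar * BK P Qbar)) = A.valuation (2 : Qbar) ^ (e * P.p) := by
      rw [Valuation.map_neg, map_mul, AK, BK, map_pow, map_pow]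
      rw [hva, hvb, one_pow, one_mul, ← pow_mul]
    rw [h25l_D0_al, map_div₀, hnum, h16]
    have h4pos : A.valuation (2 : Qbar) ^ 4 ≠ 0 := pow_ne_zero _ hv20
    rw [div_eq_iff h4pos, ← pow_add]
    congr 1
    omega

theorem h25r_val_be_sub_one {A : ValuationSubring Qbar} (hA : A.LiesOverPrime 2) :
    A.valuation ((h25l_D0 P).be - 1) < 1 := by
  have e : (h25l_D0 P).be - 1 = ((P.b ^ P.p - 1 - P.a ^ P.p : ℤ) : Qbar) := by
    rw [h25l_D0_be, AK, BK]
    push_cast
    ring
  rw [e]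
  apply h25r_val_even hA
  have : (2 : ℤ) ∣ 4 := by norm_num
  exact this.trans (h27_4_dvd_a₂num P)

/-- **L2r on points**: a nonzero `p`-torsion point is not fixed by the whole Galois group. -/
theorem h25r_point (x : ((P.freyCurve)⁄Qbar).Point) (hx : P.p • x = 0)
    (hfix : ∀ σ : Qbar ≃ₐ[ℚ] Qbar, σ • x = x) : x = 0 := by
  by_contra hx0
  obtain ⟨A, hA⟩ := h9_exists_valuationSubring_liesOver Nat.prime_two
  obtain ⟨x₀, y₀, h, rfl⟩ := h29_exists_some _ hx0
  have hfx : ∀ σ : Qbar ≃ₐ[ℚ] Qbar, σ x₀ = x₀ := by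
    intro σ
    have := hfix σ
    rw [h29_smul_some] at this
    injection this
  obtain ⟨r, hr⟩ := h25r_rat_of_fixed x₀ hfx
  have hv2 : A.valuation (2 : Qbar) < 1 := h27_val_two A hA
  have h4 : A.valuation (4 : Qbar) < 1 := by
    have e : (4 : Qbar) = 2 * 2 := by norm_num
    rw [e]
    exact H5.v_mul_lt_one_left _ hv2 hv2.le
  have hal : A.valuation (h25l_D0 P).al < 1 := by
    have := h27_val_a₄ P A hA
    rw [H4Frey.baseChange_a₄] at this
    rw [h25l_D0_al, ← neg_mul]
    exact this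
  have hal0 : (h25l_D0 P).al ≠ 0 := by
    rw [h25l_D0_al]
    have hA0 : AK P Qbar ≠ 0 := pow_ne_zero _ (by exact_mod_cast P.ha0)
    have hB0 : BK P Qbar ≠ 0 := pow_ne_zero _ (by exact_mod_cast P.hb0)
    exact div_ne_zero (neg_ne_zero.mpr (mul_ne_zero hA0 hB0)) (by norm_num)
  have hbe1 := h25r_val_be_sub_one P hA
  have hbe : A.valuation (h25l_D0 P).be = 1 := h25r_unit_of_sub_one _ hbe1
  have hξ : (h25l_D0 P).xi (Point.some x₀ y₀ h) = (r : Qbar) := by
    rw [h25l_D0_xi, h29_xi_some, sub_zero, hr]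
  have hr0 : r ≠ 0 := by
    intro h0
    have := H5.seq_ne_zero (h25l_D0 P) P.pp P.hp5 hx0 hx 1 le_rfl (by have := P.hp5; omega)
    rw [one_nsmul, hξ, h0, Rat.cast_zero] at this
    exact this rfl
  rcases h25r_rat_cases hA r hr0 with h1 | h1 | ⟨h1, k, hk⟩
  · have := h27_kernel2 (h25l_D0 P) A.valuation h4 hal.le hbe.le P.hp_odd hx0 hx
    rw [hξ] at this
    exact absurd h1 (not_lt.mpr this)
  · exact h25r_unit_false (h25l_D0 P) A.valuation hv2 hal hbe1 P.pp P.hp5 hx0 hx
      (by rw [hξ]; exact h1)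
  · obtain ⟨n, hpn, hn⟩ := h25r_val_al P hA
    exact h25r_level_false (h25l_D0 P) A.valuation hv2 two_ne_zero hal0 hal hbe P.pp P.hp5
      hn hpn hx0 hx (by rw [hξ]; exact hk) (by rw [hξ]; exact h1)

/-- **Piece L2r of T-Ell.** -/
theorem h25r_L2r : L2r P := by
  intro x hfix
  apply Subtype.ext
  have hx : P.p • x.1 = 0 := by
    have := x.2
    rw [Submodule.mem_torsionBy_iff] at this
    rw [← natCast_zsmul]
    exact this
  refine h25r_point P x.1 hx fun σ => ?_
  exact congrArg Subtype.val (hfix σ)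

end Frey

end Fermat.Agent.H25R
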