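/-
T-Ell (S13) pieces DP and Card (helper3): the `p`-torsion of the Frey curve over `Q̄` is
nontrivial, finite, and has fewer than `p ^ 3` elements.  Glue of the ladder polynomials
(`LadderPoly`, `LadderPts`, `LadderDeg`) and the counting lemma of `S51/Galois`.
-/
import Mathlib
import Fermat.Agent.TEll.Defs
import Fermat.Agent.TEll.LadderPts
import Fermat.Agent.TEll.LadderDeg
import Fermat.Agent.S05.FreyArith
import Fermat.Agent.S51.Galois

set_option autoImplicit false
set_option linter.unusedSectionVars false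

open WeierstrassCurve WeierstrassCurve.Affine Polynomial

namespace Fermat.Agent.H3Lad

open Fermat.Agent.TEll Fermat.Agent.H21Lad Fermat.Agent.H3S51

/-- general form: over an algebraically closed field of characteristic zero, the `n`-torsion
of a Weierstrass curve with `Δ ≠ 0` is nontrivial for `n ≥ 2`. -/
theorem h3_tors_nontrivial {K : Type*} [Field K] [DecidableEq K] [CharZero K] [IsAlgClosed K]
    (E : Affine K) (hΔ : E.Δ ≠ 0) {n : ℕ} (hn : 2 ≤ n) :
    Nontrivial (Submodule.torsionBy ℤ E.Point (n : ℤ)) := by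
  have h2 : (2 : K) ≠ 0 := two_ne_zero
  have hnat : (h3lad_V E n).natDegree = n ^ 2 - 1 :=
    h21_V_natDegree_of_charZero E (by omega)
  have hpos : 0 < (h3lad_V E n).natDegree := by
    rw [hnat]
    have : 2 ^ 2 ≤ n ^ 2 := Nat.pow_le_pow_left hn 2
    omega
  have hdeg : (h3lad_V E n).degree ≠ 0 := by
    intro h
    have := Polynomial.natDegree_eq_of_degree_eq_some (n := 0) (by simpa using h)
    omega
  obtain ⟨Q, hQ0, hQ⟩ := h3lad_exists_torsion_of_degree E h2 hΔ n hdeg
  have hmem : Q ∈ Submodule.torsionBy ℤ E.Point (n : ℤ) := by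
    rw [Submodule.mem_torsionBy_iff, natCast_zsmul]
    exact hQ
  refine ⟨⟨⟨Q, hmem⟩, 0, ?_⟩⟩
  intro h
  exact hQ0 (congrArg Subtype.val h)

/-- general form: over a field of characteristic zero, the `n`-torsion (`n ≥ 1`) of a
Weierstrass curve with `Δ ≠ 0` is finite with at most `2 n² - 1` elements. -/
theorem h3_tors_card {K : Type*} [Field K] [DecidableEq K] [CharZero K]
    (E : Affine K) (hΔ : E.Δ ≠ 0) {n : ℕ} (hn : 1 ≤ n) :
    Finite (Submodule.torsionBy ℤ E.Point (n : ℤ)) ∧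
      Nat.card (Submodule.torsionBy ℤ E.Point (n : ℤ)) ≤ 2 * (n ^ 2 - 1) + 1 := by
  have h2 : (2 : K) ≠ 0 := two_ne_zero
  have hn0 : ((n : K)) ^ 2 ≠ 0 := pow_ne_zero 2 (Nat.cast_ne_zero.mpr (by omega))
  have hF : h3lad_V E n ≠ 0 := h21_V_ne_zero E hn0
  have hnat : (h3lad_V E n).natDegree = n ^ 2 - 1 := h21_V_natDegree E hn0
  have key := h3s51_card_torsion E n (h3lad_V E n) hF (fun x y h hP =>
    (h3lad_nsmul_eq_zero_iff E h2 hΔ h n).mp hP)
  rw [hnat] at key
  exact key

/-- the discriminant of the Frey curve over `Q̄` is nonzero. -/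
theorem h3_tell_Δ (P : FreyPackage) : (P.freyCurve⁄Qb).Δ ≠ 0 := by
  show (P.freyCurve.map (algebraMap ℚ Qb)).Δ ≠ 0
  rw [WeierstrassCurve.map_Δ]
  intro h
  exact Fermat.Agent.H4Frey.freyCurve_Δ_ne_zero P
    ((map_eq_zero_iff _ (algebraMap ℚ Qb).injective).mp h)

/-- **Piece DP**: the Frey curve has a nonzero `p`-torsion point over `Q̄`. -/
theorem h3_tell_DP (P : FreyPackage) : DP P := by
  have hp5 := P.hp5
  exact h3_tors_nontrivial (P.freyCurve⁄Qb) (h3_tell_Δ P) (n := P.p) (by omega)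

/-- **Piece Card**: the `p`-torsion of the Frey curve over `Q̄` is finite with fewer than
`p ^ 3` elements. -/
theorem h3_tell_Card (P : FreyPackage) : Card P := by
  have hp5 := P.hp5
  obtain ⟨hfin, hcard⟩ := h3_tors_card (P.freyCurve⁄Qb) (h3_tell_Δ P) (n := P.p) (by omega)
  refine ⟨hfin, lt_of_le_of_lt hcard ?_⟩
  have h1 : 1 ≤ P.p ^ 2 := Nat.one_le_pow _ _ (by omega)
  have h3 : P.p ^ 3 = P.p * P.p ^ 2 := by ring
  have h4 : 5 * P.p ^ 2 ≤ P.p * P.p ^ 2 := Nat.mul_le_mul_right _ hp5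
  omega

end Fermat.Agent.H3Lad
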