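/-
T-Ell (S13), piece DP, helper18: the XZ "Montgomery ladder" on the S05 model
`om² = xi (4 xi² + be xi + 4 al)` (`H5.XData`).

`h18_lad al be t n = (X_n, Z_n)` with `X_1 = t`, `Z_1 = 1` and
  `X_{2n}   = (X_n² - al Z_n²)²`,              `Z_{2n}   = X_n Z_n (4 X_n² + be X_n Z_n + 4 al Z_n²)`,
  `X_{2n+1} = (X_n X_{n+1} - al Z_n Z_{n+1})²`, `Z_{2n+1} = t (X_n Z_{n+1} - X_{n+1} Z_n)²`.

Main result `h18_rep_lad`: for a point `P ≠ 0` with `xi P ≠ 0` the pair `h18_lad al be (xi P) n`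
is never `(0, 0)`, its second component vanishes iff `n • P = 0`, and otherwise it represents
`xi (n • P)` projectively.  No elliptic-divisibility-sequence identities are needed.
-/
import Mathlib
import Fermat.Agent.S05.XData

set_option autoImplicit false

namespace Fermat.Agent.H18

section Defs

variable {R : Type*} [CommRing R]

/-- XZ-doubling. -/
def h18_ladDbl (al be : R) (s : R × R) : R × R :=
  ((s.1 ^ 2 - al * s.2 ^ 2) ^ 2,
    s.1 * s.2 * (4 * s.1 ^ 2 + be * s.1 * s.2 + 4 * al * s.2 ^ 2))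

/-- XZ differential addition; `t` is the `xi`-coordinate of the difference. -/
def h18_ladAdd (al t : R) (s₁ s₂ : R × R) : R × R :=
  ((s₁.1 * s₂.1 - al * s₁.2 * s₂.2) ^ 2, t * (s₁.1 * s₂.2 - s₂.1 * s₁.2) ^ 2)

/-- The ladder: `h18_lad al be t n` represents `xi (n • P)` when `xi P = t`. -/
def h18_lad (al be t : R) : ℕ → R × R
  | 0 => (1, 0)
  | 1 => (t, 1)
  | (n + 2) =>
    if (n + 2) % 2 = 0 then h18_ladDbl al be (h18_lad al be t ((n + 2) / 2))
    else h18_ladAdd al t (h18_lad al be t ((n + 2) / 2)) (h18_lad al be t ((n + 2) / 2 + 1))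
  decreasing_by all_goals omega

@[simp] theorem h18_lad_zero (al be t : R) : h18_lad al be t 0 = (1, 0) := by
  rw [h18_lad]

@[simp] theorem h18_lad_one (al be t : R) : h18_lad al be t 1 = (t, 1) := by
  rw [h18_lad]

theorem h18_lad_two_mul (al be t : R) {n : ℕ} (hn : 1 ≤ n) :
    h18_lad al be t (2 * n) = h18_ladDbl al be (h18_lad al be t n) := by
  obtain ⟨k, rfl⟩ : ∃ k, n = k + 1 := ⟨n - 1, by omega⟩
  have e : 2 * (k + 1) = 2 * k + 2 := by ring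
  rw [e, h18_lad]
  have h1 : (2 * k + 2) % 2 = 0 := by omega
  have h2 : (2 * k + 2) / 2 = k + 1 := by omega
  rw [if_pos h1, h2]

theorem h18_lad_two_mul_add_one (al be t : R) {n : ℕ} (hn : 1 ≤ n) :
    h18_lad al be t (2 * n + 1) =
      h18_ladAdd al t (h18_lad al be t n) (h18_lad al be t (n + 1)) := by
  obtain ⟨k, rfl⟩ : ∃ k, n = k + 1 := ⟨n - 1, by omega⟩
  have e : 2 * (k + 1) + 1 = (2 * k + 1) + 2 := by ring
  rw [e, h18_lad]
  have h1 : ¬ ((2 * k + 1 + 2) % 2 = 0) := by omega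
  have h2 : (2 * k + 1 + 2) / 2 = k + 1 := by omega
  rw [if_neg h1, h2]

/-- The ladder commutes with ring homomorphisms. -/
theorem h18_map_lad {S : Type*} [CommRing S] (f : R →+* S) (al be t : R) (n : ℕ) :
    Prod.map f f (h18_lad al be t n) = h18_lad (f al) (f be) (f t) n := by
  induction n using Nat.strong_induction_on with
  | _ n ih =>
    rcases Nat.lt_or_ge n 2 with h | h
    · interval_cases n
      · simp
      · simp
    · rcases Nat.even_or_odd' n with ⟨m, rfl | rfl⟩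
      · have hm : 1 ≤ m := by omega
        rw [h18_lad_two_mul _ _ _ hm, h18_lad_two_mul _ _ _ hm, ← ih m (by omega)]
        simp [h18_ladDbl, Prod.map, map_ofNat]
      · have hm : 1 ≤ m := by omega
        rw [h18_lad_two_mul_add_one _ _ _ hm, h18_lad_two_mul_add_one _ _ _ hm,
          ← ih m (by omega), ← ih (m + 1) (by omega)]
        simp [h18_ladAdd, Prod.map]

end Defs

section Point

open H5

variable {K : Type*} [Field K] {G : Type*} [AddCommGroup G] (D : XData K G)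

/-- `s = (X, Z)` represents the `xi`-coordinate of `Q` projectively (`(X : 0)` for `Q = 0`). -/
def h18_Rep (Q : G) (s : K × K) : Prop :=
  (s.1 ≠ 0 ∨ s.2 ≠ 0) ∧ (Q = 0 ↔ s.2 = 0) ∧ (Q ≠ 0 → D.xi Q * s.2 = s.1)

theorem h18_rep_zero : h18_Rep D (0 : G) ((1 : K), (0 : K)) :=
  ⟨Or.inl one_ne_zero, by simp, fun h => absurd rfl h⟩

theorem h18_rep_self {P : G} (hP : P ≠ 0) : h18_Rep D P (D.xi P, (1 : K)) :=
  ⟨Or.inr one_ne_zero, by simp [hP], fun _ => by simp⟩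

theorem h18_eq_or_eq_neg {P Q : G} (hP : P ≠ 0) (hQ : Q ≠ 0) (h : D.xi P = D.xi Q) :
    P = Q ∨ P = -Q := by
  have h1 := D.om_sq P hP
  have h2 := D.om_sq Q hQ
  rw [h] at h1
  have h3 : D.om P ^ 2 = D.om Q ^ 2 := h1.trans h2.symm
  rcases sq_eq_sq_iff_eq_or_eq_neg.mp h3 with h4 | h4
  · exact Or.inl (D.eq_of_xi_om P Q hP hQ h h4)
  · refine Or.inr (D.eq_of_xi_om P (-Q) hP (neg_ne_zero.mpr hQ) ?_ ?_)
    · rw [D.xi_neg]; exact h
    · rw [D.om_neg]; exact h4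

/-- `2 Q = 0 ↔ om Q = 0` for `Q ≠ 0`. -/
theorem h18_om_eq_zero_iff (h2 : (2 : K) ≠ 0) {Q : G} (hQ : Q ≠ 0) :
    D.om Q = 0 ↔ Q + Q = 0 := by
  constructor
  · intro h
    have : Q = -Q := D.eq_of_xi_om Q (-Q) hQ (neg_ne_zero.mpr hQ) (D.xi_neg Q).symm
      (by rw [D.om_neg, h, neg_zero])
    exact add_eq_zero_iff_eq_neg.mpr this
  · intro h
    have h1 : Q = -Q := add_eq_zero_iff_eq_neg.mp h
    have h3 : D.om Q = -D.om Q := by
      conv_lhs => rw [h1]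
      exact D.om_neg Q
    have h4 : 2 * D.om Q = 0 := by linear_combination h3
    rcases mul_eq_zero.mp h4 with h5 | h5
    · exact absurd h5 h2
    · exact h5

/-- If `om Q = 0` then `xi Q ^ 2 ≠ al` (nonsingularity). -/
theorem h18_sq_ne_al (hal : D.al ≠ 0) (hdisc : D.be ^ 2 ≠ 64 * D.al) {Q : G} (hQ : Q ≠ 0)
    (hom : D.om Q = 0) : D.xi Q ^ 2 - D.al ≠ 0 := by
  intro h
  have h1 := D.om_sq Q hQ
  rw [hom] at h1
  have h3 : D.xi Q * (4 * D.xi Q ^ 2 + D.be * D.xi Q + 4 * D.al) = 0 := by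
    rw [← h1]; ring
  rcases mul_eq_zero.mp h3 with h4 | h4
  · rw [h4] at h
    apply hal
    linear_combination -h
  · -- xi^2 = al and 4 xi^2 + be xi + 4 al = 0
    have h5 : D.be * D.xi Q = -8 * D.al := by linear_combination h4 - 4 * h
    have h6 : D.be ^ 2 * D.al = 64 * D.al ^ 2 := by
      have : (D.be * D.xi Q) ^ 2 = (-8 * D.al) ^ 2 := by rw [h5]
      linear_combination this - D.be ^ 2 * h
    apply hdisc
    have h7 : D.al * (D.be ^ 2 - 64 * D.al) = 0 := by linear_combination h6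
    rcases mul_eq_zero.mp h7 with h8 | h8
    · exact absurd h8 hal
    · linear_combination h8

theorem h18_rep_dbl (h2 : (2 : K) ≠ 0) (hal : D.al ≠ 0) (hdisc : D.be ^ 2 ≠ 64 * D.al)
    {Q : G} {s : K × K} (h : h18_Rep D Q s) :
    h18_Rep D (Q + Q) (h18_ladDbl D.al D.be s) := by
  obtain ⟨hne, hz, hx⟩ := h
  by_cases hQ : Q = 0
  · have hs2 : s.2 = 0 := hz.mp hQ
    have hs1 : s.1 ≠ 0 := by
      rcases hne with h | h
      · exact h
      · exact absurd hs2 h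
    subst hQ
    refine ⟨Or.inl ?_, ?_, ?_⟩
    · simp [h18_ladDbl, hs2, hs1]
    · simp [h18_ladDbl, hs2]
    · intro h0; exact absurd (by simp) h0
  · have hs2 : s.2 ≠ 0 := fun h => hQ (hz.mpr h)
    have hs1 : s.1 = D.xi Q * s.2 := (hx hQ).symm
    have hom := D.om_sq Q hQ
    have hX : (h18_ladDbl D.al D.be s).1 = s.2 ^ 4 * (D.xi Q ^ 2 - D.al) ^ 2 := by
      simp only [h18_ladDbl, hs1]; ring
    have hZ : (h18_ladDbl D.al D.be s).2 = s.2 ^ 4 * D.om Q ^ 2 := by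
      simp only [h18_ladDbl, hs1, hom]; ring
    by_cases hQQ : Q + Q = 0
    · have hom0 : D.om Q = 0 := (h18_om_eq_zero_iff D h2 hQ).mpr hQQ
      have hne' := h18_sq_ne_al D hal hdisc hQ hom0
      refine ⟨Or.inl ?_, ?_, ?_⟩
      · rw [hX]
        exact mul_ne_zero (pow_ne_zero _ hs2) (pow_ne_zero _ hne')
      · rw [hZ, hom0]; simp [hQQ]
      · intro h0; exact absurd hQQ h0
    · have hom0 : D.om Q ≠ 0 := fun h => hQQ ((h18_om_eq_zero_iff D h2 hQ).mp h)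
      have hZne : (h18_ladDbl D.al D.be s).2 ≠ 0 := by
        rw [hZ]
        exact mul_ne_zero (pow_ne_zero _ hs2) (pow_ne_zero _ hom0)
      refine ⟨Or.inr hZne, ?_, ?_⟩
      · constructor
        · intro h0; exact absurd h0 hQQ
        · intro h0; exact absurd h0 hZne
      · intro _
        rw [hX, hZ]
        have := D.dbl_formula Q hQ hQQ
        linear_combination s.2 ^ 4 * this

/-- Differential addition: `Q₂ - Q₁ = P`, `xi P = t ≠ 0`. -/
theorem h18_rep_add (h2 : (2 : K) ≠ 0) {P : G} (hP : P ≠ 0) (hxP : D.xi P ≠ 0)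
    {Q₁ Q₂ : G} (hdiff : Q₂ = Q₁ + P) {s₁ s₂ : K × K}
    (h₁ : h18_Rep D Q₁ s₁) (h₂ : h18_Rep D Q₂ s₂) :
    h18_Rep D (Q₁ + Q₂) (h18_ladAdd D.al (D.xi P) s₁ s₂) := by
  obtain ⟨hne₁, hz₁, hx₁⟩ := h₁
  obtain ⟨hne₂, hz₂, hx₂⟩ := h₂
  by_cases hQ₁ : Q₁ = 0
  · -- Q₁ = 0, Q₂ = P
    have hs12 : s₁.2 = 0 := hz₁.mp hQ₁
    have hs11 : s₁.1 ≠ 0 := by
      rcases hne₁ with h | h
      · exact h
      · exact absurd hs12 h
    have hQ₂ : Q₂ = P := by rw [hdiff, hQ₁, zero_add]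
    have hQ₂0 : Q₂ ≠ 0 := by rw [hQ₂]; exact hP
    have hs22 : s₂.2 ≠ 0 := fun h => hQ₂0 (hz₂.mpr h)
    have hs21 : s₂.1 = D.xi P * s₂.2 := by rw [← hQ₂]; exact (hx₂ hQ₂0).symm
    have hsum : Q₁ + Q₂ = P := by rw [hQ₁, zero_add, hQ₂]
    have hX : (h18_ladAdd D.al (D.xi P) s₁ s₂).1 = D.xi P ^ 2 * s₁.1 ^ 2 * s₂.2 ^ 2 := by
      simp only [h18_ladAdd, hs12, hs21]; ring
    have hZ : (h18_ladAdd D.al (D.xi P) s₁ s₂).2 = D.xi P * s₁.1 ^ 2 * s₂.2 ^ 2 := by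
      simp only [h18_ladAdd, hs12, hs21]; ring
    have hZne : (h18_ladAdd D.al (D.xi P) s₁ s₂).2 ≠ 0 := by
      rw [hZ]
      exact mul_ne_zero (mul_ne_zero hxP (pow_ne_zero _ hs11)) (pow_ne_zero _ hs22)
    rw [hsum]
    refine ⟨Or.inr hZne, ?_, ?_⟩
    · constructor
      · intro h0; exact absurd h0 hP
      · intro h0; exact absurd h0 hZne
    · intro _
      rw [hX, hZ]; ring
  by_cases hQ₂ : Q₂ = 0
  · -- Q₂ = 0, Q₁ = -P
    have hs22 : s₂.2 = 0 := hz₂.mp hQ₂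
    have hs21 : s₂.1 ≠ 0 := by
      rcases hne₂ with h | h
      · exact h
      · exact absurd hs22 h
    have hQ₁' : Q₁ = -P := by
      have : Q₁ + P = 0 := by rw [← hdiff, hQ₂]
      exact add_eq_zero_iff_eq_neg.mp this
    have hs12 : s₁.2 ≠ 0 := fun h => hQ₁ (hz₁.mpr h)
    have hs11 : s₁.1 = D.xi P * s₁.2 := by
      have := (hx₁ hQ₁).symm
      rw [hQ₁', D.xi_neg] at this
      exact this
    have hsum : Q₁ + Q₂ = -P := by rw [hQ₂, add_zero, hQ₁']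
    have hX : (h18_ladAdd D.al (D.xi P) s₁ s₂).1 = D.xi P ^ 2 * s₂.1 ^ 2 * s₁.2 ^ 2 := by
      simp only [h18_ladAdd, hs22, hs11]; ring
    have hZ : (h18_ladAdd D.al (D.xi P) s₁ s₂).2 = D.xi P * s₂.1 ^ 2 * s₁.2 ^ 2 := by
      simp only [h18_ladAdd, hs22, hs11]; ring
    have hZne : (h18_ladAdd D.al (D.xi P) s₁ s₂).2 ≠ 0 := by
      rw [hZ]
      exact mul_ne_zero (mul_ne_zero hxP (pow_ne_zero _ hs21)) (pow_ne_zero _ hs12)
    rw [hsum]
    refine ⟨Or.inr hZne, ?_, ?_⟩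
    · constructor
      · intro h0; exact absurd (neg_eq_zero.mp h0) hP
      · intro h0; exact absurd h0 hZne
    · intro _
      rw [hX, hZ, D.xi_neg]; ring
  -- both nonzero
  have hs12 : s₁.2 ≠ 0 := fun h => hQ₁ (hz₁.mpr h)
  have hs22 : s₂.2 ≠ 0 := fun h => hQ₂ (hz₂.mpr h)
  have hs11 : s₁.1 = D.xi Q₁ * s₁.2 := (hx₁ hQ₁).symm
  have hs21 : s₂.1 = D.xi Q₂ * s₂.2 := (hx₂ hQ₂).symm
  have hX : (h18_ladAdd D.al (D.xi P) s₁ s₂).1 =
      s₁.2 ^ 2 * s₂.2 ^ 2 * (D.xi Q₁ * D.xi Q₂ - D.al) ^ 2 := by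
    simp only [h18_ladAdd, hs11, hs21]; ring
  have hZ : (h18_ladAdd D.al (D.xi P) s₁ s₂).2 =
      D.xi P * s₁.2 ^ 2 * s₂.2 ^ 2 * (D.xi Q₁ - D.xi Q₂) ^ 2 := by
    simp only [h18_ladAdd, hs11, hs21]; ring
  have hdiff' : Q₂ - Q₁ = P := by rw [hdiff]; abel
  by_cases hxi : D.xi Q₁ = D.xi Q₂
  · -- Q₁ = -Q₂
    have hneg : Q₁ = -Q₂ := by
      rcases h18_eq_or_eq_neg D hQ₁ hQ₂ hxi with h | h
      · exfalso
        apply hP
        rw [← hdiff', h, sub_self]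
      · exact h
    have hsum : Q₁ + Q₂ = 0 := by rw [hneg]; simp
    have h2Q : Q₂ + Q₂ = P := by
      have : Q₂ + Q₂ = Q₂ - Q₁ := by rw [hneg]; abel
      rw [this, hdiff']
    have h2Q0 : Q₂ + Q₂ ≠ 0 := by rw [h2Q]; exact hP
    have hom0 : D.om Q₂ ≠ 0 := fun h => h2Q0 ((h18_om_eq_zero_iff D h2 hQ₂).mp h)
    have hd := D.dbl_formula Q₂ hQ₂ h2Q0
    rw [h2Q] at hd
    have hne' : (D.xi Q₂ ^ 2 - D.al) ^ 2 ≠ 0 := by
      rw [← hd]
      exact mul_ne_zero hxP (pow_ne_zero _ hom0)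
    refine ⟨Or.inl ?_, ?_, ?_⟩
    · rw [hX, hxi]
      have e : D.xi Q₂ * D.xi Q₂ - D.al = D.xi Q₂ ^ 2 - D.al := by ring
      rw [e]
      exact mul_ne_zero (mul_ne_zero (pow_ne_zero _ hs12) (pow_ne_zero _ hs22)) hne'
    · rw [hZ, hxi]; simp [hsum]
    · intro h0; exact absurd hsum h0
  · have hsum0 : Q₁ + Q₂ ≠ 0 := by
      intro h
      apply hxi
      have : Q₁ = -Q₂ := add_eq_zero_iff_eq_neg.mp h
      rw [this, D.xi_neg]
    have hZne : (h18_ladAdd D.al (D.xi P) s₁ s₂).2 ≠ 0 := by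
      rw [hZ]
      exact mul_ne_zero (mul_ne_zero (mul_ne_zero hxP (pow_ne_zero _ hs12)) (pow_ne_zero _ hs22))
        (pow_ne_zero _ (sub_ne_zero.mpr hxi))
    refine ⟨Or.inr hZne, ?_, ?_⟩
    · constructor
      · intro h0; exact absurd h0 hsum0
      · intro h0; exact absurd h0 hZne
    · intro _
      have hp := D.prod_formula Q₂ Q₁ hQ₂ hQ₁ (Ne.symm hxi)
      rw [hdiff'] at hp
      have e : Q₂ + Q₁ = Q₁ + Q₂ := add_comm _ _
      rw [e] at hp
      rw [hX, hZ]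
      linear_combination s₁.2 ^ 2 * s₂.2 ^ 2 * hp

/-- **Completeness of the ladder.**  For `P ≠ 0` with `xi P ≠ 0` and all `n`, the pair
`h18_lad al be (xi P) n` represents `xi (n • P)`; in particular it is never `(0, 0)` and its
second component vanishes iff `n • P = 0`. -/
theorem h18_rep_lad (h2 : (2 : K) ≠ 0) (hal : D.al ≠ 0) (hdisc : D.be ^ 2 ≠ 64 * D.al)
    {P : G} (hP : P ≠ 0) (hxP : D.xi P ≠ 0) (n : ℕ) :
    h18_Rep D (n • P) (h18_lad D.al D.be (D.xi P) n) := by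
  induction n using Nat.strong_induction_on with
  | _ n ih =>
    rcases Nat.lt_or_ge n 2 with h | h
    · interval_cases n
      · rw [zero_smul, h18_lad_zero]; exact h18_rep_zero D
      · rw [one_smul, h18_lad_one]; exact h18_rep_self D hP
    · rcases Nat.even_or_odd' n with ⟨m, rfl | rfl⟩
      · have hm : 1 ≤ m := by omega
        rw [h18_lad_two_mul _ _ _ hm, two_mul, add_smul]
        exact h18_rep_dbl D h2 hal hdisc (ih m (by omega))
      · have hm : 1 ≤ m := by omega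
        rw [h18_lad_two_mul_add_one _ _ _ hm]
        have e : (2 * m + 1) • P = m • P + (m + 1) • P := by
          rw [← add_smul]; congr 1; ring
        rw [e]
        refine h18_rep_add D h2 hP hxP ?_ (ih m (by omega)) (ih (m + 1) (by omega))
        rw [add_smul, one_smul]

/-- Consequence: `n • P = 0 ↔ Z_n (xi P) = 0`. -/
theorem h18_nsmul_eq_zero_iff (h2 : (2 : K) ≠ 0) (hal : D.al ≠ 0) (hdisc : D.be ^ 2 ≠ 64 * D.al)
    {P : G} (hP : P ≠ 0) (hxP : D.xi P ≠ 0) (n : ℕ) :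
    n • P = 0 ↔ (h18_lad D.al D.be (D.xi P) n).2 = 0 :=
  (h18_rep_lad D h2 hal hdisc hP hxP n).2.1

/-- Consequence: `xi (n • P) * Z_n (xi P) = X_n (xi P)` when `n • P ≠ 0`. -/
theorem h18_xi_nsmul (h2 : (2 : K) ≠ 0) (hal : D.al ≠ 0) (hdisc : D.be ^ 2 ≠ 64 * D.al)
    {P : G} (hP : P ≠ 0) (hxP : D.xi P ≠ 0) (n : ℕ) (hn : n • P ≠ 0) :
    D.xi (n • P) * (h18_lad D.al D.be (D.xi P) n).2 = (h18_lad D.al D.be (D.xi P) n).1 :=
  (h18_rep_lad D h2 hal hdisc hP hxP n).2.2 hn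

end Point

end Fermat.Agent.H18
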