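/-
T-Ell (S13), piece DP (i), helper18: degrees and leading coefficients of the ladder polynomials.
`h18_ladPoly al be n = (X_n, Z_n)` in `K[X]`: `X_n` is monic, `deg Z_n = deg X_n - 1`, and the
leading coefficient of `Z_n` is `n²`.
-/
import Mathlib
import Fermat.Agent.TEll.Ladder

set_option autoImplicit false

open Polynomial

namespace Fermat.Agent.H18

variable {K : Type*} [Field K]

/-- The ladder polynomials. -/
noncomputable def h18_ladPoly (al be : K) (n : ℕ) : K[X] × K[X] :=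
  h18_lad (C al) (C be) (X : K[X]) n

theorem h18_ladPoly_eval (al be x : K) (n : ℕ) :
    ((h18_ladPoly al be n).1.eval x, (h18_ladPoly al be n).2.eval x) = h18_lad al be x n := by
  have h := h18_map_lad (Polynomial.evalRingHom x) (C al) (C be) (X : K[X]) n
  simp only [Polynomial.coe_evalRingHom, Polynomial.eval_C, Polynomial.eval_X] at h
  rw [← h]
  rfl

theorem h18_ladPoly_eval_fst (al be x : K) (n : ℕ) :
    (h18_ladPoly al be n).1.eval x = (h18_lad al be x n).1 := by
  rw [← h18_ladPoly_eval]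

theorem h18_ladPoly_eval_snd (al be x : K) (n : ℕ) :
    (h18_ladPoly al be n).2.eval x = (h18_lad al be x n).2 := by
  rw [← h18_ladPoly_eval]

/-- `Xp` monic, `deg Zp + 1 = deg Xp`, leading coefficient of `Zp` equal to `c`. -/
def h18_Good (s : K[X] × K[X]) (c : K) : Prop :=
  s.1.Monic ∧ s.2.natDegree + 1 = s.1.natDegree ∧ s.2.leadingCoeff = c

theorem h18_good_one (al be : K) : h18_Good (h18_ladPoly al be 1) 1 := by
  unfold h18_ladPoly
  rw [h18_lad_one]
  refine ⟨monic_X, ?_, ?_⟩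
  · simp
  · simp

theorem h18_natDegree_C_mul_le (a : K) (p : K[X]) : (C a * p).natDegree ≤ p.natDegree := by
  by_cases ha : a = 0
  · simp [ha]
  · rw [natDegree_C_mul ha]

theorem h18_good_dbl [CharZero K] (al be : K) {s : K[X] × K[X]} {c : K} (hc : c ≠ 0)
    (h : h18_Good s c) : h18_Good (h18_ladDbl (C al) (C be) s) (4 * c) := by
  obtain ⟨hX, hdeg, hlead⟩ := h
  have hZ0 : s.2 ≠ 0 := by
    intro h0
    rw [h0, leadingCoeff_zero] at hlead
    exact hc hlead.symm
  have hX0 : s.1 ≠ 0 := hX.ne_zero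
  have h4 : (4 : K) ≠ 0 := by norm_num
  -- A = X^2 - al Z^2
  have hX2 : (s.1 ^ 2).Monic := hX.pow 2
  have hX2d : (s.1 ^ 2).natDegree = 2 * s.1.natDegree := by
    rw [hX.natDegree_pow]
  have hZ2d : (s.2 ^ 2).natDegree = 2 * s.2.natDegree := by
    rw [natDegree_pow]
  have hAlt : (C al * s.2 ^ 2).natDegree < (s.1 ^ 2).natDegree := by
    have := h18_natDegree_C_mul_le al (s.2 ^ 2)
    omega
  have hAm : (s.1 ^ 2 - C al * s.2 ^ 2).Monic := by
    refine hX2.sub_of_left ?_
    exact degree_lt_degree hAlt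
  have hXm : (h18_ladDbl (C al) (C be) s).1.Monic := by
    unfold h18_ladDbl
    exact hAm.pow 2
  have hAd : (s.1 ^ 2 - C al * s.2 ^ 2).natDegree = 2 * s.1.natDegree := by
    rw [natDegree_sub_eq_left_of_natDegree_lt hAlt, hX2d]
  have hXd : (h18_ladDbl (C al) (C be) s).1.natDegree = 4 * s.1.natDegree := by
    unfold h18_ladDbl
    simp only
    rw [hAm.natDegree_pow, hAd]; ring
  -- B = 4 X^2 + be X Z + 4 al Z^2
  set B : K[X] := 4 * s.1 ^ 2 + C be * s.1 * s.2 + 4 * C al * s.2 ^ 2 with hB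
  have hBsplit : B = (C be * s.1 * s.2 + C (4 * al) * s.2 ^ 2) + C 4 * s.1 ^ 2 := by
    rw [hB]
    simp only [C_mul, map_ofNat]
    ring
  have hC4d : (C (4 : K) * s.1 ^ 2).natDegree = 2 * s.1.natDegree := by
    rw [natDegree_C_mul h4, hX2d]
  have hC4l : (C (4 : K) * s.1 ^ 2).leadingCoeff = 4 := by
    rw [leadingCoeff_mul, leadingCoeff_C, hX2.leadingCoeff, mul_one]
  have hrest : (C be * s.1 * s.2 + C (4 * al) * s.2 ^ 2).natDegree <
      (C (4 : K) * s.1 ^ 2).natDegree := by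
    rw [hC4d]
    refine lt_of_le_of_lt (natDegree_add_le _ _) ?_
    have h1 : (C be * s.1 * s.2).natDegree ≤ s.1.natDegree + s.2.natDegree := by
      rw [mul_assoc]
      refine le_trans (h18_natDegree_C_mul_le be _) ?_
      exact natDegree_mul_le
    have h2 : (C (4 * al) * s.2 ^ 2).natDegree ≤ 2 * s.2.natDegree := by
      refine le_trans (h18_natDegree_C_mul_le _ _) ?_
      rw [hZ2d]
    have : max (C be * s.1 * s.2).natDegree (C (4 * al) * s.2 ^ 2).natDegree <
        2 * s.1.natDegree := by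
      rw [max_lt_iff]
      constructor <;> omega
    exact this
  have hBd : B.natDegree = 2 * s.1.natDegree := by
    rw [hBsplit, natDegree_add_eq_right_of_natDegree_lt hrest, hC4d]
  have hBl : B.leadingCoeff = 4 := by
    rw [hBsplit, leadingCoeff_add_of_degree_lt (degree_lt_degree hrest), hC4l]
  have hB0 : B ≠ 0 := by
    intro h0
    rw [h0, leadingCoeff_zero] at hBl
    exact h4 hBl.symm
  have hZeq : (h18_ladDbl (C al) (C be) s).2 = s.1 * s.2 * B := by
    unfold h18_ladDbl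
    rfl
  refine ⟨hXm, ?_, ?_⟩
  · rw [hXd, hZeq, natDegree_mul (mul_ne_zero hX0 hZ0) hB0, natDegree_mul hX0 hZ0, hBd]
    omega
  · rw [hZeq, leadingCoeff_mul, leadingCoeff_mul, hX.leadingCoeff, hlead, hBl]
    ring

theorem h18_good_add (al : K) {s₁ s₂ : K[X] × K[X]} {c₁ c₂ : K}
    (hc₁ : c₁ ≠ 0) (hc₂ : c₂ ≠ 0) (hc : c₂ - c₁ ≠ 0)
    (h₁ : h18_Good s₁ c₁) (h₂ : h18_Good s₂ c₂) :
    h18_Good (h18_ladAdd (C al) (X : K[X]) s₁ s₂) ((c₂ - c₁) ^ 2) := by
  obtain ⟨hX₁, hdeg₁, hlead₁⟩ := h₁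
  obtain ⟨hX₂, hdeg₂, hlead₂⟩ := h₂
  have hZ₁0 : s₁.2 ≠ 0 := by
    intro h0
    rw [h0, leadingCoeff_zero] at hlead₁
    exact hc₁ hlead₁.symm
  have hZ₂0 : s₂.2 ≠ 0 := by
    intro h0
    rw [h0, leadingCoeff_zero] at hlead₂
    exact hc₂ hlead₂.symm
  have hX₁0 : s₁.1 ≠ 0 := hX₁.ne_zero
  have hX₂0 : s₂.1 ≠ 0 := hX₂.ne_zero
  -- first component
  have hXXm : (s₁.1 * s₂.1).Monic := hX₁.mul hX₂
  have hXXd : (s₁.1 * s₂.1).natDegree = s₁.1.natDegree + s₂.1.natDegree :=
    hX₁.natDegree_mul hX₂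
  have hlt : (C al * s₁.2 * s₂.2).natDegree < (s₁.1 * s₂.1).natDegree := by
    rw [hXXd, mul_assoc]
    refine lt_of_le_of_lt (h18_natDegree_C_mul_le al _) ?_
    refine lt_of_le_of_lt natDegree_mul_le ?_
    omega
  have hAm : (s₁.1 * s₂.1 - C al * s₁.2 * s₂.2).Monic :=
    hXXm.sub_of_left (degree_lt_degree hlt)
  have hAd : (s₁.1 * s₂.1 - C al * s₁.2 * s₂.2).natDegree =
      s₁.1.natDegree + s₂.1.natDegree := by
    rw [natDegree_sub_eq_left_of_natDegree_lt hlt, hXXd]
  have hXm : (h18_ladAdd (C al) (X : K[X]) s₁ s₂).1.Monic := by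
    unfold h18_ladAdd
    exact hAm.pow 2
  have hXd : (h18_ladAdd (C al) (X : K[X]) s₁ s₂).1.natDegree =
      2 * (s₁.1.natDegree + s₂.1.natDegree) := by
    unfold h18_ladAdd
    simp only
    rw [hAm.natDegree_pow, hAd]
  -- second component: g = X₁ Z₂ - X₂ Z₁
  have hd1 : (s₁.1 * s₂.2).natDegree = s₁.1.natDegree + s₂.2.natDegree :=
    natDegree_mul hX₁0 hZ₂0
  have hd2 : (s₂.1 * s₁.2).natDegree = s₂.1.natDegree + s₁.2.natDegree :=
    natDegree_mul hX₂0 hZ₁0
  have hl1 : (s₁.1 * s₂.2).leadingCoeff = c₂ := by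
    rw [leadingCoeff_mul, hX₁.leadingCoeff, hlead₂, one_mul]
  have hl2 : (s₂.1 * s₁.2).leadingCoeff = c₁ := by
    rw [leadingCoeff_mul, hX₂.leadingCoeff, hlead₁, one_mul]
  have hdeq : (s₁.1 * s₂.2).natDegree = (s₂.1 * s₁.2).natDegree := by
    rw [hd1, hd2]; omega
  set g : K[X] := s₁.1 * s₂.2 - s₂.1 * s₁.2 with hg
  have hgle : g.natDegree ≤ (s₁.1 * s₂.2).natDegree := by
    refine le_trans (natDegree_sub_le _ _) ?_
    rw [← hdeq, max_self]
  have hgcoeff : g.coeff (s₁.1 * s₂.2).natDegree = c₂ - c₁ := by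
    rw [hg, coeff_sub]
    have e1 : (s₁.1 * s₂.2).coeff (s₁.1 * s₂.2).natDegree = c₂ := by
      rw [coeff_natDegree, hl1]
    have e2 : (s₂.1 * s₁.2).coeff (s₁.1 * s₂.2).natDegree = c₁ := by
      rw [hdeq, coeff_natDegree, hl2]
    rw [e1, e2]
  have hgd : g.natDegree = (s₁.1 * s₂.2).natDegree := by
    refine le_antisymm hgle ?_
    exact le_natDegree_of_ne_zero (by rw [hgcoeff]; exact hc)
  have hgl : g.leadingCoeff = c₂ - c₁ := by
    rw [leadingCoeff, hgd, hgcoeff]
  have hg0 : g ≠ 0 := by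
    intro h0
    rw [h0, leadingCoeff_zero] at hgl
    exact hc hgl.symm
  have hZeq : (h18_ladAdd (C al) (X : K[X]) s₁ s₂).2 = X * g ^ 2 := by
    unfold h18_ladAdd
    rfl
  refine ⟨hXm, ?_, ?_⟩
  · rw [hXd, hZeq, natDegree_mul X_ne_zero (pow_ne_zero _ hg0), natDegree_X, natDegree_pow, hgd,
      hd1]
    omega
  · rw [hZeq, leadingCoeff_mul, leadingCoeff_X, leadingCoeff_pow, hgl, one_mul]

/-- **Degrees of the ladder polynomials.** -/
theorem h18_good_ladPoly [CharZero K] (al be : K) {n : ℕ} (hn : 1 ≤ n) :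
    h18_Good (h18_ladPoly al be n) ((n : K) ^ 2) := by
  induction n using Nat.strong_induction_on with
  | _ n ih =>
    rcases Nat.lt_or_ge n 2 with h | h
    · have : n = 1 := by omega
      subst this
      simpa using h18_good_one al be
    · rcases Nat.even_or_odd' n with ⟨m, rfl | rfl⟩
      · have hm : 1 ≤ m := by omega
        have hmK : ((m : K)) ^ 2 ≠ 0 := by
          apply pow_ne_zero
          exact_mod_cast (by omega : m ≠ 0)
        have := h18_good_dbl al be hmK (ih m (by omega) hm)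
        unfold h18_ladPoly at this ⊢
        rw [h18_lad_two_mul _ _ _ hm]
        convert this using 1
        push_cast; ring
      · have hm : 1 ≤ m := by omega
        have hmK : ((m : K)) ^ 2 ≠ 0 := by
          apply pow_ne_zero
          exact_mod_cast (by omega : m ≠ 0)
        have hm1K : (((m + 1 : ℕ) : K)) ^ 2 ≠ 0 := by
          apply pow_ne_zero
          exact_mod_cast (by omega : m + 1 ≠ 0)
        have hdiff : (((m + 1 : ℕ) : K)) ^ 2 - (m : K) ^ 2 ≠ 0 := by
          have e : (((m + 1 : ℕ) : K)) ^ 2 - (m : K) ^ 2 = ((2 * m + 1 : ℕ) : K) := by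
            push_cast; ring
          rw [e]
          exact_mod_cast (by omega : 2 * m + 1 ≠ 0)
        have := h18_good_add al hmK hm1K hdiff (ih m (by omega) hm)
          (ih (m + 1) (by omega) (by omega))
        unfold h18_ladPoly at this ⊢
        rw [h18_lad_two_mul_add_one _ _ _ hm]
        convert this using 1
        push_cast; ring

end Fermat.Agent.H18
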