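/-
T-Ell, piece L2r (helper9): abstract core of "no rational point of order `p`" at the place `2`.

Setting: `H5.XData` over a valued field `(K, v)` with `v 2 < 1`, `v al = v 2 ^ N` (`N > 0`,
`p ∤ N`), `v be = 1`, and a point `P` of prime order `p ≥ 5` all of whose nonzero multiples have
* `v (xi (k • P)) ∈ v 2 ^ ℤ`                 (rationality: value group of `ℚ₂`), and
* `v (xi (k • P)) = 1 → v (xi (k • P) - 1) < 1` (residue field `𝔽₂`).
Then there is a contradiction.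
-/
import Fermat.Agent.TEll.Level2
import Fermat.Agent.TEll.L2Kernel
import Fermat.Agent.S05.Glue

set_option autoImplicit false

namespace Fermat.Agent.H9

variable {K : Type*} [Field K] {Γ₀ : Type*} [LinearOrderedCommGroupWithZero Γ₀]
variable {G : Type*} [AddCommGroup G]

/-- All nonzero multiples of a "rational" point of order `p` have unit `xi` at `2`. -/
theorem h9_l2rat_unit (D : H5.XData K G) (v : Valuation K Γ₀) (h2 : v (2 : K) < 1)
    (h20 : (2 : K) ≠ 0) (hal0 : D.al ≠ 0) (N : ℕ) (hN : v D.al = v 2 ^ N) (hN1 : 0 < N)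
    (hbe : v D.be = 1) {p : ℕ} (hpp : p.Prime) (hp5 : 5 ≤ p) (hpN : ¬ p ∣ N)
    {Q : G} (hQ0 : Q ≠ 0) (hpQ : p • Q = 0)
    (hrat : ∃ c : ℤ, v (D.xi Q) = v 2 ^ c) :
    v (D.xi Q) = 1 := by
  have hv2pos : 0 < v (2 : K) := by
    rw [Valuation.pos_iff]; exact h20
  have hv2ne : v (2 : K) ≠ 0 := hv2pos.ne'
  have h4 : v (4 : K) < 1 := by
    have : (4 : K) = 2 * 2 := by norm_num
    rw [this, map_mul]
    calc v (2 : K) * v 2 < 1 * 1 := mul_lt_mul'' h2 h2 zero_le zero_le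
      _ = 1 := one_mul 1
  have hal1 : v D.al < 1 := by
    rw [hN]
    exact pow_lt_one₀ zero_le h2 hN1.ne'
  have hodd : Odd p := hpp.odd_of_ne_two (by omega)
  have hle : v (D.xi Q) ≤ 1 :=
    Fermat.Agent.H27L2.h27_kernel2 D v h4 hal1.le hbe.le hodd hQ0 hpQ
  rcases hle.lt_or_eq with hlt | heq
  · exfalso
    obtain ⟨-, m, hm0, hmp, hm⟩ := h9_level_core2 v p hp5 hodd h20 h2.le D.al D.be hal0 hal1 hbe
      (fun k => D.xi (k • Q))
      (H5.seq_ne_zero D hpp hp5 hQ0 hpQ)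
      (H5.seq_symm D hpp hp5 hQ0 hpQ)
      (by
        intro k h1 h2'
        have := H5.seq_ne D hpp hp5 hQ0 hpQ k h1 h2'
        simpa using this)
      (by
        have := H5.seq_dbl D hpp hp5 hQ0 hpQ
        simpa using this)
      (by
        intro k h1 h2'
        have := H5.seq_s1 D hpp hp5 hQ0 hpQ k h1 h2'
        simpa using this)
      (by
        intro k h1 h2'
        have := H5.seq_s2 D hpp hp5 hQ0 hpQ k h1 h2'
        simpa using this)
      (by simpa using hlt)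
    simp only [one_smul] at hm
    obtain ⟨c, hc⟩ := hrat
    rw [hc, hN, ← zpow_natCast, ← zpow_mul, ← pow_mul, ← zpow_natCast] at hm
    have hinj := zpow_right_injective₀ hv2pos h2.ne
    have hcp : c * (p : ℤ) = ((N * (2 * m) : ℕ) : ℤ) := hinj hm
    have hdvd : (p : ℤ) ∣ ((N * (2 * m) : ℕ) : ℤ) := ⟨c, by rw [← hcp]; ring⟩
    have hdvd' : p ∣ N * (2 * m) := Int.natCast_dvd_natCast.mp hdvd
    rcases (Nat.Prime.dvd_mul hpp).mp hdvd' with h | h
    · exact hpN h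
    · have := Nat.le_of_dvd (by omega) h
      omega
  · exact heq

/-- **L2r, abstract core.** -/
theorem h9_l2rat_core (D : H5.XData K G) (v : Valuation K Γ₀) (h2 : v (2 : K) < 1)
    (h20 : (2 : K) ≠ 0) (hal0 : D.al ≠ 0) (N : ℕ) (hN : v D.al = v 2 ^ N) (hN1 : 0 < N)
    (hbe : v D.be = 1) {p : ℕ} (hpp : p.Prime) (hp5 : 5 ≤ p) (hpN : ¬ p ∣ N)
    {P : G} (hP0 : P ≠ 0) (hpP : p • P = 0)
    (hrat : ∀ k : ℕ, k • P ≠ 0 → ∃ c : ℤ, v (D.xi (k • P)) = v 2 ^ c)
    (hres : ∀ k : ℕ, k • P ≠ 0 → v (D.xi (k • P)) = 1 → v (D.xi (k • P) - 1) < 1) : False := by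
  have hal1 : v D.al < 1 := by
    rw [hN]
    exact pow_lt_one₀ zero_le h2 hN1.ne'
  have hunit : ∀ k : ℕ, 1 ≤ k → k ≤ p - 1 → v (D.xi (k • P)) = 1 := by
    intro k h1 hk
    have hk0 : k • P ≠ 0 := H5.nsmul_ne_zero_of_lt hpp hP0 hpP h1 hk
    have hpk : p • (k • P) = 0 := by rw [smul_comm, hpP, smul_zero]
    exact h9_l2rat_unit D v h2 h20 hal0 N hN hN1 hbe hpp hp5 hpN hk0 hpk (hrat k hk0)
  have hres' : ∀ k : ℕ, 1 ≤ k → k ≤ p - 1 → v (D.xi (k • P) - 1) < 1 := by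
    intro k h1 hk
    exact hres k (H5.nsmul_ne_zero_of_lt hpp hP0 hpP h1 hk) (hunit k h1 hk)
  have h1 := hunit 1 le_rfl (by omega)
  have h2u := hunit 2 (by omega) (by omega)
  have h3 := hunit 3 (by omega) (by omega)
  have r1 := hres' 1 le_rfl (by omega)
  have r2 := hres' 2 (by omega) (by omega)
  simp only [one_smul] at h1 r1
  have hδ : v (D.xi (2 • P) - D.xi P) < 1 := by
    have e : D.xi (2 • P) - D.xi P = (D.xi (2 • P) - 1) - (D.xi P - 1) := by ring
    rw [e]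
    exact lt_of_le_of_lt (Valuation.map_sub _ _ _) (max_lt r2 r1)
  have key := H5.seq_s1 D hpp hp5 hP0 hpP 2 le_rfl (by omega)
  have hk := congrArg v key
  simp only [map_mul, map_pow] at hk
  have e21 : (2 - 1 : ℕ) • P = P := by simp
  have e3 : (2 + 1 : ℕ) • P = 3 • P := rfl
  rw [e21, e3, h3, h1, one_mul, one_mul] at hk
  have hR : v (D.xi (2 • P) * D.xi P - D.al) = 1 := by
    have hprod : v (D.xi (2 • P) * D.xi P) = 1 := by rw [map_mul, h2u, h1, one_mul]
    rw [Valuation.map_sub_eq_of_lt_left _ (by rw [hprod]; exact hal1), hprod]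
  rw [hR, one_pow] at hk
  have : v (D.xi (2 • P) - D.xi P) ^ 2 < 1 := pow_lt_one₀ zero_le hδ (by norm_num)
  rw [hk] at this
  exact lt_irrefl _ this

end Fermat.Agent.H9
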