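/-
T-Ell, piece L2r (helper9): the Frey curve has no rational point of order `p`, in the form
`Fermat.Agent.TEll.L2r P` (no nonzero `p`-torsion point of `E(ℚ̄)` is fixed by all of `G_ℚ`).

Proof: a Galois-fixed point descends to `E(ℚ)`; apply the abstract core `h9_l2rat_core` to the
`XData` of `E/ℚ` (marked point `x₀ = 0`) and the `2`-adic valuation of `ℚ`.
-/
import Fermat.Agent.TEll.L2Rat
import Fermat.Agent.TEll.Defs
import Fermat.Agent.S05.XGalois
import Fermat.Agent.S05.FreyArith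

set_option autoImplicit false

namespace Fermat.Agent.H9

open WeierstrassCurve WeierstrassCurve.Affine WeierstrassCurve.Affine.Point
open Fermat.Agent.TEll Fermat.Agent.H29 Fermat.Agent.H4Frey
open WithZero

/-! ### The `2`-adic valuation of `ℚ` -/

/-- `v 2 = exp (-1)` for the `2`-adic valuation. -/
theorem h9_v2_two : Rat.padicValuation 2 (2 : ℚ) = exp (-1 : ℤ) := by
  have := Rat.padicValuation_self 2
  simpa using this

theorem h9_v2_two_lt_one : Rat.padicValuation 2 (2 : ℚ) < 1 := by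
  rw [h9_v2_two, ← exp_zero, exp_lt_exp]
  norm_num

/-- The value of a nonzero rational is a power of `v 2`. -/
theorem h9_v2_eq_zpow (q : ℚ) (hq : q ≠ 0) :
    ∃ c : ℤ, Rat.padicValuation 2 q = Rat.padicValuation 2 (2 : ℚ) ^ c := by
  refine ⟨padicValRat 2 q, ?_⟩
  rw [h9_v2_two]
  simp [Rat.padicValuation, hq, ← exp_zsmul]

theorem h9_v2_intCast_eq_one {n : ℤ} (hn : ¬ (2 : ℤ) ∣ n) : Rat.padicValuation 2 (n : ℚ) = 1 := by
  rw [Rat.padicValuation_cast]
  exact Int.padicValuation_eq_one_iff.mpr (by exact_mod_cast hn)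

theorem h9_v2_intCast_lt_one {n : ℤ} (hn : (2 : ℤ) ∣ n) : Rat.padicValuation 2 (n : ℚ) < 1 := by
  rw [Rat.padicValuation_cast]
  exact Int.padicValuation_lt_one_iff.mpr (by exact_mod_cast hn)

/-- Residue field `𝔽₂`: a `2`-adic unit of `ℚ` is `≡ 1`. -/
theorem h9_v2_sub_one_lt (q : ℚ) (hq : Rat.padicValuation 2 q = 1) :
    Rat.padicValuation 2 (q - 1) < 1 := by
  have hden : ¬ (2 : ℕ) ∣ q.den := Rat.padicValuation_le_one_iff.mp hq.le
  have hden' : ¬ (2 : ℤ) ∣ (q.den : ℤ) := by exact_mod_cast hden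
  have hvden : Rat.padicValuation 2 ((q.den : ℤ) : ℚ) = 1 := h9_v2_intCast_eq_one hden'
  have hnum : ¬ (2 : ℤ) ∣ q.num := by
    intro h
    have h1 := h9_v2_intCast_lt_one h
    have e : q = (q.num : ℚ) / ((q.den : ℤ) : ℚ) := by
      simpa using (Rat.num_div_den q).symm
    rw [e, map_div₀, hvden, div_one] at hq
    rw [hq] at h1
    exact lt_irrefl _ h1
  have e : q - 1 = (((q.num - q.den : ℤ)) : ℚ) / ((q.den : ℤ) : ℚ) := by
    have hd : ((q.den : ℤ) : ℚ) ≠ 0 := by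
      simp
    field_simp
    push_cast
    have h2 : q * (q.den : ℚ) = q.num := Rat.mul_den_eq_num q
    linear_combination h2
  rw [e, map_div₀, hvden, div_one]
  apply h9_v2_intCast_lt_one
  omega

/-! ### Descent of Galois-fixed points -/

/-- An element of `Qb` fixed by the whole Galois group is rational. -/
theorem h9_rat_of_fixed (x : Qb) (h : ∀ σ : GQ, σ x = x) : ∃ q : ℚ, algebraMap ℚ Qb q = x := by
  have hG : IsGalois ℚ Qb := by
    have h : (DivisionRing.toRatAlgebra : Algebra ℚ (AlgebraicClosure ℚ)) =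
        AlgebraicClosure.instAlgebra ℚ := Subsingleton.elim _ _
    rw [h]
    infer_instance
  have := (InfiniteGalois.mem_range_algebraMap_iff_fixed (k := ℚ) (K := Qb) x).mpr h
  exact this

/-- Descent: a Galois-fixed point of `E(Qb)` comes from `E(ℚ)`. -/
theorem h9_descent (W : WeierstrassCurve ℚ) (x : (W⁄Qb).Point) (h : ∀ σ : GQ, σ • x = x) :
    ∃ x₀ : (W⁄ℚ).Point, Point.baseChange ℚ Qb x₀ = x := by
  rcases x with _ | ⟨X, Y, hXY⟩
  · exact ⟨0, rfl⟩
  · have hX : ∀ σ : GQ, σ X = X := by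
      intro σ
      have := h σ
      rw [Fermat.Agent.H29.h29_smul_some] at this
      exact (Affine.Point.some.inj this).1
    have hY : ∀ σ : GQ, σ Y = Y := by
      intro σ
      have := h σ
      rw [Fermat.Agent.H29.h29_smul_some] at this
      exact (Affine.Point.some.inj this).2
    obtain ⟨X₀, rfl⟩ := h9_rat_of_fixed X hX
    obtain ⟨Y₀, rfl⟩ := h9_rat_of_fixed Y hY
    have hns : (W⁄ℚ).Nonsingular X₀ Y₀ :=
      (Affine.baseChange_nonsingular (W := W.toAffine) (f := Algebra.ofId ℚ Qb)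
        (Algebra.ofId ℚ Qb).injective X₀ Y₀).mp hXY
    exact ⟨Affine.Point.some X₀ Y₀ hns, rfl⟩

/-! ### Arithmetic of the Frey package at `2` -/

theorem h9_frey_b_even (P : FreyPackage) : (2 : ℤ) ∣ P.b :=
  (ZMod.intCast_zmod_eq_zero_iff_dvd P.b 2).1 P.hb2

theorem h9_frey_a_odd (P : FreyPackage) : ¬ (2 : ℤ) ∣ P.a := by
  intro h
  have h4 := P.ha4
  obtain ⟨k, hk⟩ := h
  rw [hk] at h4
  push_cast at h4
  revert h4
  generalize (k : ZMod 4) = t
  revert t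
  decide

/-- `b = 2 ^ e * b'` with `e ≥ 1` and `b'` odd. -/
theorem h9_frey_b_decomp (P : FreyPackage) :
    ∃ (e : ℕ) (b' : ℤ), 1 ≤ e ∧ ¬ (2 : ℤ) ∣ b' ∧ P.b = 2 ^ e * b' := by
  have hfin : FiniteMultiplicity (2 : ℤ) P.b :=
    Int.finiteMultiplicity_iff.mpr ⟨by decide, P.hb0⟩
  obtain ⟨c, hc, hnd⟩ := hfin.exists_eq_pow_mul_and_not_dvd
  refine ⟨multiplicity (2 : ℤ) P.b, c, ?_, hnd, hc⟩
  by_contra hlt
  have h0 : multiplicity (2 : ℤ) P.b = 0 := by omega
  rw [h0, pow_zero, one_mul] at hc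
  exact hnd (hc ▸ h9_frey_b_even P)

/-! ### The final statement -/

/-- **Piece L2r**: the Frey curve has no nonzero Galois-fixed `p`-torsion point. -/
theorem h9_L2r (P : FreyPackage) : Fermat.Agent.TEll.L2r P := by
  intro x hx
  by_contra hx0
  have hfix : ∀ σ : GQ, σ • x.1 = x.1 := fun σ => congrArg Subtype.val (hx σ)
  obtain ⟨x₀, hx₀⟩ := h9_descent P.freyCurve x.1 hfix
  have hx₀ne : x₀ ≠ 0 := by
    rintro rfl
    apply hx0
    apply Subtype.ext
    rw [← hx₀]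
    rfl
  have hpx1 : P.p • x.1 = 0 := by
    have := x.2
    rw [Submodule.mem_torsionBy_iff] at this
    rw [← natCast_zsmul]
    exact this
  have hpx : P.p • x₀ = 0 := by
    apply Point.map_injective (W' := P.freyCurve.toAffine) (Algebra.ofId ℚ Qb)
    rw [map_nsmul]
    change P.p • Point.baseChange ℚ Qb x₀ = _
    rw [hx₀, hpx1]
    rfl
  -- the XData over `ℚ`
  have h2 : (2 : ℚ) ≠ 0 := two_ne_zero
  have hb₂ := baseChange_b₂ P ℚ
  have hb₄ := baseChange_b₄ P ℚ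
  have hb₆ := baseChange_b₆ P ℚ
  have hroot : 4 * (0 : ℚ) ^ 3 + ((P.freyCurve)⁄ℚ).b₂ * (0 : ℚ) ^ 2 +
      2 * ((P.freyCurve)⁄ℚ).b₄ * (0 : ℚ) + ((P.freyCurve)⁄ℚ).b₆ = 0 := by
    rw [hb₆]; ring
  have hal : (((P.freyCurve)⁄ℚ).b₄ + (0 : ℚ) * ((P.freyCurve)⁄ℚ).b₂ +
      6 * (0 : ℚ) ^ 2) / 2 = -(AK P ℚ * BK P ℚ) / 16 := by
    rw [hb₄]; ring
  have hbe : ((P.freyCurve)⁄ℚ).b₂ + 12 * (0 : ℚ) = BK P ℚ - AK P ℚ := by
    rw [hb₂]; ring
  set v := Rat.padicValuation 2 with hv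
  have hA0 : AK P ℚ ≠ 0 := pow_ne_zero _ (by exact_mod_cast P.ha0)
  have hB0 : BK P ℚ ≠ 0 := pow_ne_zero _ (by exact_mod_cast P.hb0)
  have hva : v ((P.a : ℤ) : ℚ) = 1 := h9_v2_intCast_eq_one (h9_frey_a_odd P)
  have hvA : v (AK P ℚ) = 1 := by
    rw [AK, map_pow, hva, one_pow]
  obtain ⟨e, b', he1, hb'odd, hbdec⟩ := h9_frey_b_decomp P
  have hvb' : v ((b' : ℤ) : ℚ) = 1 := h9_v2_intCast_eq_one hb'odd
  have hvB : v (BK P ℚ) = v 2 ^ (e * P.p) := by
    rw [AK.eq_1] at hvA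
    rw [BK, hbdec]
    push_cast
    rw [map_pow, map_mul, map_pow, hvb', mul_one, ← pow_mul]
  have hp5 := P.hp5
  have hep : 5 ≤ e * P.p := by nlinarith
  have hv2pos : 0 < v (2 : ℚ) := by
    rw [Valuation.pos_iff]; exact h2
  have hv16 : v (16 : ℚ) = v 2 ^ 4 := by
    rw [← map_pow]; norm_num
  have hN : v (-(AK P ℚ * BK P ℚ) / 16) = v 2 ^ (e * P.p - 4) := by
    rw [map_div₀, Valuation.map_neg, map_mul, hvA, one_mul, hvB, hv16]
    have : e * P.p = (e * P.p - 4) + 4 := by omega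
    conv_lhs => rw [this, pow_add]
    rw [mul_div_assoc, div_self (pow_ne_zero _ hv2pos.ne'), mul_one]
  have hvbe : v (BK P ℚ - AK P ℚ) = 1 := by
    have e1 : BK P ℚ - AK P ℚ = ((P.b ^ P.p - P.a ^ P.p : ℤ) : ℚ) := by
      rw [AK, BK]; push_cast; rfl
    rw [e1]
    apply h9_v2_intCast_eq_one
    intro hdvd
    have hb : (2 : ℤ) ∣ P.b ^ P.p := dvd_pow (h9_frey_b_even P) P.hp0
    have ha : (2 : ℤ) ∣ P.a ^ P.p := by
      have := dvd_sub hb hdvd
      simpa using this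
    exact h9_frey_a_odd P (Int.prime_two.dvd_of_dvd_pow ha)
  have hpN : ¬ P.p ∣ e * P.p - 4 := by
    intro hdvd
    have h1 : P.p ∣ e * P.p := dvd_mul_left _ _
    have h4 : P.p ∣ 4 := by
      have := (Nat.dvd_sub h1 hdvd)
      have e4 : e * P.p - (e * P.p - 4) = 4 := by omega
      rwa [e4] at this
    have := Nat.le_of_dvd (by norm_num) h4
    omega
  let D := h29_xdata ((P.freyCurve)⁄ℚ) h2 0 hroot
  have hDal : D.al = -(AK P ℚ * BK P ℚ) / 16 := by
    change (((P.freyCurve)⁄ℚ).b₄ + (0 : ℚ) * ((P.freyCurve)⁄ℚ).b₂ + 6 * (0 : ℚ) ^ 2) / 2 = _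
    exact hal
  have hDbe : D.be = BK P ℚ - AK P ℚ := by
    change ((P.freyCurve)⁄ℚ).b₂ + 12 * (0 : ℚ) = _
    exact hbe
  have hal0 : D.al ≠ 0 := by
    rw [hDal]
    exact div_ne_zero (neg_ne_zero.mpr (mul_ne_zero hA0 hB0)) (by norm_num)
  refine h9_l2rat_core D v h9_v2_two_lt_one h2 hal0 (e * P.p - 4) (by rw [hDal]; exact hN)
    (by omega) (by rw [hDbe]; exact hvbe) P.pp P.hp5 hpN hx₀ne hpx ?_ ?_
  · intro k hk
    apply h9_v2_eq_zpow
    have hpk : P.p • (k • x₀) = 0 := by rw [smul_comm, hpx]; exact nsmul_zero k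
    have := H5.seq_ne_zero D P.pp P.hp5 hk hpk 1 le_rfl (by omega)
    simpa using this
  · intro k _ h1
    exact h9_v2_sub_one_lt _ h1

end Fermat.Agent.H9
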