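import Mathlib
import Fermat.Prelude.Def_FLTPrelim_Ramification

/-!
# T-Ell, piece LP3 (helper16): the algebraic core

Let `A` be a valuation subring of a field `L` of characteristic zero lying over the odd prime `p`,
and let `F ∈ ℤ[X]` have degree `≤ d` and `d`-th coefficient `p * (p - 2)`.  Then the roots of `F`
outside `A` cannot contain two disjoint nonempty finite sets whose products are rational.
No Newton polygons: only "the product of distinct roots divides the constant coefficient".
-/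

set_option autoImplicit false

namespace Fermat.Agent.H16LP

open Polynomial

/-- In a domain, the product of a finite set of roots of `G` divides the constant coefficient. -/
theorem h16lp_prod_dvd_coeff_zero {R : Type*} [CommRing R] [IsDomain R] (G : R[X])
    (S : Finset R) (hS : ∀ s ∈ S, G.IsRoot s) : (∏ s ∈ S, s) ∣ G.coeff 0 := by
  classical
  by_cases hG : G = 0
  · subst hG; simp
  have hle : S.val ≤ G.roots := by
    rw [Multiset.le_iff_subset S.nodup]
    intro s hs
    exact (mem_roots hG).2 (hS s hs)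
  have hdvd : (S.val.map fun a => X - C a).prod ∣ G :=
    (Multiset.prod_X_sub_C_dvd_iff_le_roots hG S.val).2 hle
  obtain ⟨Q, hQ⟩ := hdvd
  have h0 : G.coeff 0 = (∏ s ∈ S, (-s)) * Q.coeff 0 := by
    rw [coeff_zero_eq_eval_zero, hQ, eval_mul, ← coeff_zero_eq_eval_zero Q]
    congr 1
    rw [eval_multiset_prod, Multiset.map_map, Finset.prod]
    congr 1
    refine Multiset.map_congr rfl fun s _ => ?_
    simp
  rw [h0, Finset.prod_neg]
  exact Dvd.dvd.mul_right (Dvd.intro_left _ rfl) _

section Val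

variable {L : Type*} [Field L] (A : ValuationSubring L)

/-- integers lie in every valuation subring -/
theorem h16lp_int_mem (n : ℤ) : (n : L) ∈ A := by
  have : (n : L) = ((n : A) : L) := by push_cast; rfl
  rw [this]; exact (n : A).2

theorem h16lp_val_int_le (n : ℤ) : A.valuation (n : L) ≤ 1 :=
  (A.valuation_le_one_iff _).2 (h16lp_int_mem A n)

variable {A}

/-- an integer prime to `p` is a unit at every valuation subring over `p` -/
theorem h16lp_val_int_eq_one {p : ℕ} (hA : A.LiesOverPrime p) {n : ℤ}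
    (hn : IsCoprime n (p : ℤ)) : A.valuation (n : L) = 1 := by
  obtain ⟨u, v, huv⟩ := hn
  have hp : A.valuation (p : L) < 1 := (ValuationSubring.mem_nonunits_iff A).1 hA
  refine le_antisymm (h16lp_val_int_le A n) ?_
  by_contra hlt
  rw [not_le] at hlt
  have h1 : A.valuation ((u : L) * n + (v : L) * p) < 1 := by
    refine lt_of_le_of_lt (A.valuation.map_add _ _) (max_lt ?_ ?_)
    · rw [map_mul]
      calc A.valuation (u : L) * A.valuation (n : L) ≤ 1 * A.valuation (n : L) :=
            mul_le_mul_left (h16lp_val_int_le A u) _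
        _ < 1 := by rw [one_mul]; exact hlt
    · rw [map_mul]
      calc A.valuation (v : L) * A.valuation (p : L) ≤ 1 * A.valuation (p : L) :=
            mul_le_mul_left (h16lp_val_int_le A v) _
        _ < 1 := by rw [one_mul]; exact hp
  have h2 : (u : L) * n + (v : L) * p = 1 := by
    have := congrArg (fun z : ℤ => (z : L)) huv
    simpa using this
  rw [h2, map_one] at h1
  exact lt_irrefl _ h1

/-- a rational number which is a nonunit at `A` (over `p`) is divisible by `p` in `A` -/
theorem h16lp_rat_div_p [CharZero L] {p : ℕ} (hp : p.Prime) (hA : A.LiesOverPrime p) (z : ℚ)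
    (hz : A.valuation (z : L) < 1) : A.valuation ((z : L) / (p : L)) ≤ 1 := by
  have hpv : A.valuation (p : L) < 1 := (ValuationSubring.mem_nonunits_iff A).1 hA
  have hpL : (p : L) ≠ 0 := by exact_mod_cast hp.ne_zero
  have hnL : ((z.den : ℤ) : L) ≠ 0 := by exact_mod_cast z.den_ne_zero
  have hzL : (z : L) * ((z.den : ℤ) : L) = ((z.num : ℤ) : L) := by
    have h : ((z * (z.den : ℚ) : ℚ) : L) = ((z.num : ℚ) : L) := by rw [Rat.mul_den_eq_num]
    push_cast at h
    exact_mod_cast h
  have hpZ : Prime (p : ℤ) := Nat.prime_iff_prime_int.1 hp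
  by_cases hpn : (p : ℤ) ∣ (z.den : ℤ)
  · -- impossible
    exfalso
    have hpm : ¬ (p : ℤ) ∣ z.num := by
      intro hpm
      have h1 : (p : ℤ) ∣ Int.gcd z.num z.den := Int.dvd_coe_gcd hpm hpn
      have h2 : Int.gcd z.num z.den = 1 := by
        have := z.reduced
        simpa [Nat.Coprime, Int.gcd] using this
      rw [h2] at h1
      exact hpZ.not_dvd_one (by simpa using h1)
    have hm1 : A.valuation ((z.num : ℤ) : L) = 1 :=
      h16lp_val_int_eq_one hA ((hpZ.coprime_iff_not_dvd.2 hpm).symm)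
    obtain ⟨n', hn'⟩ := hpn
    have hn1 : A.valuation ((z.den : ℤ) : L) < 1 := by
      rw [hn']; push_cast; rw [map_mul]
      calc A.valuation (p : L) * A.valuation (n' : L) ≤ A.valuation (p : L) * 1 :=
            mul_le_mul_right (h16lp_val_int_le A n') _
        _ < 1 := by rw [mul_one]; exact hpv
    have : A.valuation ((z.num : ℤ) : L) < 1 := by
      rw [← hzL, map_mul]
      calc A.valuation (z : L) * A.valuation ((z.den : ℤ) : L)
          ≤ A.valuation (z : L) * 1 := mul_le_mul_right hn1.le _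
        _ < 1 := by rw [mul_one]; exact hz
    rw [hm1] at this
    exact lt_irrefl _ this
  · have hn1 : A.valuation ((z.den : ℤ) : L) = 1 :=
      h16lp_val_int_eq_one hA ((hpZ.coprime_iff_not_dvd.2 hpn).symm)
    have hm : A.valuation ((z.num : ℤ) : L) < 1 := by
      rw [← hzL, map_mul, hn1, mul_one]; exact hz
    have hpm : (p : ℤ) ∣ z.num := by
      by_contra hpm
      have := h16lp_val_int_eq_one hA ((hpZ.coprime_iff_not_dvd.2 hpm).symm)
      rw [this] at hm
      exact lt_irrefl _ hm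
    obtain ⟨m', hm'⟩ := hpm
    have hz' : (z : L) / (p : L) = (m' : L) / ((z.den : ℤ) : L) := by
      rw [div_eq_div_iff hpL hnL, hzL, hm']
      push_cast; ring
    rw [hz', map_div₀, hn1, div_one]
    exact h16lp_val_int_le A m'

/-- `p - 2` is prime to the odd prime `p` -/
theorem h16lp_coprime_sub_two {p : ℕ} (hp : p.Prime) (hp2 : p ≠ 2) :
    IsCoprime ((p : ℤ) - 2) (p : ℤ) := by
  have hpZ : Prime (p : ℤ) := Nat.prime_iff_prime_int.1 hp
  refine (hpZ.coprime_iff_not_dvd.2 ?_).symm
  intro h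
  have h2 : (p : ℤ) ∣ 2 := by
    have := Dvd.dvd.sub (dvd_refl (p : ℤ)) h
    simpa using this
  have h3 : p ∣ 2 := by exact_mod_cast h2
  exact hp2 ((Nat.prime_dvd_prime_iff_eq hp Nat.prime_two).1 h3)

/-- **LP3, algebraic core.** -/
theorem h16lp_core [CharZero L] [DecidableEq L] {p : ℕ} (hp : p.Prime) (hp2 : p ≠ 2) (hA : A.LiesOverPrime p)
    (F : ℤ[X]) (d : ℕ) (hd : F.natDegree ≤ d) (hlc : F.coeff d = (p : ℤ) * ((p : ℤ) - 2))
    (T₀ T₁ : Finset L) (hdisj : Disjoint T₀ T₁) (hne₀ : T₀.Nonempty) (hne₁ : T₁.Nonempty)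
    (hroot : ∀ r ∈ T₀ ∪ T₁, eval₂ (Int.castRingHom L) r F = 0)
    (hout : ∀ r ∈ T₀ ∪ T₁, r ∉ A)
    (hrat₀ : ∏ r ∈ T₀, r ∈ (algebraMap ℚ L).range)
    (hrat₁ : ∏ r ∈ T₁, r ∈ (algebraMap ℚ L).range) : False := by
  classical
  have hpv : A.valuation (p : L) < 1 := (ValuationSubring.mem_nonunits_iff A).1 hA
  have hpL : (p : L) ≠ 0 := by exact_mod_cast hp.ne_zero
  set T : Finset L := T₀ ∪ T₁ with hT
  have hr0 : ∀ r ∈ T, r ≠ 0 := fun r hr h0 => hout r hr (h0 ▸ A.zero_mem)
  have hrinv : ∀ r ∈ T, r⁻¹ ∈ A := fun r hr => (A.mem_or_inv_mem r).resolve_left (hout r hr)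
  -- the reversed polynomial over `A`
  set G : A[X] := (reflect d F).map (Int.castRingHom A) with hG
  set S : Finset A := (T.image (fun r => r⁻¹)).subtype (fun x => x ∈ A) with hS
  have hSroot : ∀ s ∈ S, G.IsRoot s := by
    intro s hs
    rw [hS, Finset.mem_subtype, Finset.mem_image] at hs
    obtain ⟨r, hr, hrs⟩ := hs
    have hr' := hr0 r hr
    rw [IsRoot.def]
    apply Subtype.ext
    have h1 : ((eval s G : A) : L) = eval₂ (Int.castRingHom L) (s : L) (reflect d F) := by
      rw [hG, eval_map]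
      have : (Int.castRingHom L) = (A.subtype : A →+* L).comp (Int.castRingHom A) :=
        RingHom.ext fun n => by simp
      rw [this]
      exact hom_eval₂ (reflect d F) (Int.castRingHom A) (A.subtype : A →+* L) s
    rw [h1, ← hrs]
    let _ : Invertible r := invertibleOfNonzero hr'
    have h2 := eval₂_reflect_mul_pow (Int.castRingHom L) r d F hd
    rw [hroot r hr, invOf_eq_inv] at h2
    have h3 := mul_eq_zero.1 h2
    rcases h3 with h3 | h3
    · simpa using h3
    · exact absurd h3 (pow_ne_zero d hr')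
  obtain ⟨a, ha⟩ := h16lp_prod_dvd_coeff_zero G S hSroot
  -- translate to `L`
  have hG0 : ((G.coeff 0 : A) : L) = (p : L) * ((p : L) - 2) := by
    rw [hG, coeff_map, coeff_reflect, revAt_zero]
    have : F.coeff d = (p : ℤ) * ((p : ℤ) - 2) := hlc
    rw [this]
    have h2 : (((Int.castRingHom A) ((p : ℤ) * ((p : ℤ) - 2)) : A) : L)
        = (A.subtype : A →+* L) ((Int.castRingHom A) ((p : ℤ) * ((p : ℤ) - 2))) := rfl
    rw [h2, ← RingHom.comp_apply, eq_intCast]
    push_cast
    ring
  have hprodS : (∏ s ∈ S, (s : L)) = ∏ r ∈ T, r⁻¹ := by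
    rw [hS]
    rw [Finset.prod_subtype_of_mem (f := fun x : L => x)]
    · rw [Finset.prod_image]
      intro x _ y _ hxy
      exact inv_injective hxy
    · intro x hx
      rw [Finset.mem_image] at hx
      obtain ⟨r, hr, rfl⟩ := hx
      exact hrinv r hr
  have hval_inv : ∀ r ∈ T, A.valuation r⁻¹ < 1 := by
    intro r hr
    have h1 : ¬ A.valuation r ≤ 1 := fun h => hout r hr ((A.valuation_le_one_iff r).1 h)
    rw [not_le] at h1
    rw [map_inv₀]
    exact inv_lt_one_of_one_lt₀ h1
  -- the two rational products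
  have key : ∀ T' : Finset L, T' ⊆ T → T'.Nonempty → (∏ r ∈ T', r ∈ (algebraMap ℚ L).range) →
      A.valuation ((∏ r ∈ T', r⁻¹) / (p : L)) ≤ 1 := by
    intro T' hsub hne hrat
    obtain ⟨z, hz⟩ := hrat
    have hz' : ((z⁻¹ : ℚ) : L) = ∏ r ∈ T', r⁻¹ := by
      rw [Finset.prod_inv_distrib, ← hz]
      simp
    rw [← hz']
    apply h16lp_rat_div_p hp hA
    rw [hz', map_prod]
    obtain ⟨r₀, hr₀⟩ := hne
    rw [← Finset.mul_prod_erase T' _ hr₀]
    calc A.valuation r₀⁻¹ * ∏ x ∈ T'.erase r₀, A.valuation x⁻¹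
        ≤ A.valuation r₀⁻¹ * 1 := by
          refine mul_le_mul_right ?_ _
          exact Finset.prod_le_one' fun x hx =>
            (hval_inv x (hsub (Finset.mem_of_mem_erase hx))).le
      _ < 1 := by rw [mul_one]; exact hval_inv r₀ (hsub hr₀)
  have k0 := key T₀ Finset.subset_union_left hne₀ hrat₀
  have k1 := key T₁ Finset.subset_union_right hne₁ hrat₁
  have hmain : (p : L) * ((p : L) - 2) = (∏ r ∈ T₀, r⁻¹) * (∏ r ∈ T₁, r⁻¹) * (a : L) := by
    rw [← hG0, ha]
    push_cast
    rw [hprodS, hT, Finset.prod_union hdisj]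
  have hfin : ((p : L) - 2) = (p : L) * (((∏ r ∈ T₀, r⁻¹) / (p : L)) *
      ((∏ r ∈ T₁, r⁻¹) / (p : L)) * (a : L)) := by
    have : (p : L) * ((p : L) - 2) = (p : L) * ((p : L) * (((∏ r ∈ T₀, r⁻¹) / (p : L)) *
      ((∏ r ∈ T₁, r⁻¹) / (p : L)) * (a : L))) := by
      rw [hmain]; field_simp
    exact mul_left_cancel₀ hpL this
  have hv : A.valuation ((p : L) - 2) < 1 := by
    rw [hfin, map_mul, map_mul, map_mul]
    have ha1 : A.valuation (a : L) ≤ 1 := (A.valuation_le_one_iff _).2 a.2
    calc A.valuation (p : L) * (A.valuation ((∏ r ∈ T₀, r⁻¹) / (p : L)) *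
          A.valuation ((∏ r ∈ T₁, r⁻¹) / (p : L)) * A.valuation (a : L))
        ≤ A.valuation (p : L) * 1 := by
          refine mul_le_mul_right ?_ _
          exact mul_le_one' (mul_le_one' k0 k1) ha1
      _ < 1 := by rw [mul_one]; exact hpv
  have h1 := h16lp_val_int_eq_one hA (h16lp_coprime_sub_two hp hp2)
  have h2 : (((p : ℤ) - 2 : ℤ) : L) = (p : L) - 2 := by push_cast; ring
  rw [h2] at h1
  rw [h1] at hv
  exact lt_irrefl _ hv

end Val

end Fermat.Agent.H16LP
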