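import Mathlib
import Fermat.Prelude.Def_FLTPrelim_Ramification
import Fermat.Prelude.Def_FLTPrelim_GaloisRep
import Fermat.Agent.TEll.LP3Alg

/-!
# T-Ell, piece LP3 (helper16)

Let `W` be a Weierstrass curve over `ℚ`, `p` an odd prime, and suppose the `x`-coordinates of all
nonzero `p`-torsion points over `ℚ̄` are roots of an integer polynomial `F` of degree `≤ d` whose
`d`-th coefficient is `p (p - 2)` (the ladder polynomial `X·V_{p-1} - U_{p-1}`).
If `N` is a Galois-stable subgroup of `E[p]` with `N ≠ ⊥`, `N ≠ ⊤`, and `A` is a valuation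
subring of `ℚ̄` over `p`, then some nonzero `p`-torsion point has `x ∈ A`, i.e. `E[p]` is not
contained in the kernel of reduction at `A`.
-/

set_option autoImplicit false

namespace Fermat.Agent.H16LP

open Polynomial WeierstrassCurve WeierstrassCurve.Affine WeierstrassCurve.Affine.Point

local notation "Qbar" => AlgebraicClosure ℚ

variable (W : Affine ℚ) (p : ℕ)

/-- the `x`-coordinates of the nonzero points of `E[p]` satisfying a predicate -/
noncomputable def h16lp_xset (F : ℤ[X])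
    (Q : Submodule.torsionBy ℤ (W⁄Qbar).Point p → Prop) : Finset Qbar :=
  letI := Classical.decPred fun r : Qbar =>
    ∃ P : Submodule.torsionBy ℤ (W⁄Qbar).Point p, Q P ∧
      ∃ y h, (P : (W⁄Qbar).Point) = Point.some r y h
  (F.map (Int.castRingHom Qbar)).roots.toFinset.filter fun r =>
    ∃ P : Submodule.torsionBy ℤ (W⁄Qbar).Point p, Q P ∧
      ∃ y h, (P : (W⁄Qbar).Point) = Point.some r y h

variable {W p}

theorem h16lp_mem_xset {F : ℤ[X]} (hF0 : F ≠ 0)
    (hF : ∀ (x y : Qbar) (h : (W⁄Qbar).Nonsingular x y),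
      Point.some x y h ∈ Submodule.torsionBy ℤ (W⁄Qbar).Point p →
        eval₂ (Int.castRingHom Qbar) x F = 0)
    (Q : Submodule.torsionBy ℤ (W⁄Qbar).Point p → Prop) (r : Qbar) :
    r ∈ h16lp_xset W p F Q ↔ ∃ P : Submodule.torsionBy ℤ (W⁄Qbar).Point p, Q P ∧
      ∃ y h, (P : (W⁄Qbar).Point) = Point.some r y h := by
  classical
  unfold h16lp_xset
  rw [Finset.mem_filter]
  refine ⟨fun h => h.2, fun h => ⟨?_, h⟩⟩
  obtain ⟨P, _, y, hns, hP⟩ := h
  rw [Multiset.mem_toFinset, mem_roots', IsRoot.def, eval_map]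
  refine ⟨?_, hF r y hns (hP ▸ P.2)⟩
  exact (Polynomial.map_ne_zero_iff (RingHom.injective_int _)).2 hF0

/-- Galois-stability of the `x`-sets, hence rationality of their products. -/
theorem h16lp_prod_rat {F : ℤ[X]} (hF0 : F ≠ 0)
    (hF : ∀ (x y : Qbar) (h : (W⁄Qbar).Nonsingular x y),
      Point.some x y h ∈ Submodule.torsionBy ℤ (W⁄Qbar).Point p →
        eval₂ (Int.castRingHom Qbar) x F = 0)
    (Q : Submodule.torsionBy ℤ (W⁄Qbar).Point p → Prop)
    (hQ : ∀ (σ : Qbar ≃ₐ[ℚ] Qbar) P, Q P → Q (σ • P)) :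
    ∏ r ∈ h16lp_xset W p F Q, r ∈ (algebraMap ℚ Qbar).range := by
  classical
  rw [RingHom.mem_range]
  have : IsGalois ℚ Qbar := by
    have h : (DivisionRing.toRatAlgebra : Algebra ℚ (AlgebraicClosure ℚ)) =
        AlgebraicClosure.instAlgebra ℚ := Subsingleton.elim _ _
    rw [h]
    infer_instance
  refine Set.mem_range.1 ((InfiniteGalois.mem_range_algebraMap_iff_fixed
    (k := ℚ) (K := Qbar) _).2 ?_)
  intro σ
  rw [map_prod]
  have himg : (h16lp_xset W p F Q).image σ = h16lp_xset W p F Q := by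
    apply Finset.eq_of_subset_of_card_le
    · intro r hr
      rw [Finset.mem_image] at hr
      obtain ⟨r', hr', rfl⟩ := hr
      rw [h16lp_mem_xset hF0 hF] at hr' ⊢
      obtain ⟨P, hP, y, hns, hPeq⟩ := hr'
      refine ⟨σ • P, hQ σ P hP, σ y, ?_, ?_⟩
      · have := (W.baseChange_nonsingular (f := σ.toAlgHom) σ.injective r' y).mpr hns
        exact this
      · change σ • (P : (W⁄Qbar).Point) = _
        rw [hPeq, algEquiv_smul_def]
        rfl
    · rw [Finset.card_image_of_injective _ σ.injective]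
  conv_rhs => rw [← himg]
  rw [Finset.prod_image]
  intro x _ y _ hxy
  exact σ.injective hxy

/-- **LP3** (modulo the ladder polynomial `F`). -/
theorem h16lp_exists_integral_x (hp : p.Prime) (hp2 : p ≠ 2)
    (F : ℤ[X]) (d : ℕ) (hd : F.natDegree ≤ d) (hlc : F.coeff d = (p : ℤ) * ((p : ℤ) - 2))
    (hF : ∀ (x y : Qbar) (h : (W⁄Qbar).Nonsingular x y),
      Point.some x y h ∈ Submodule.torsionBy ℤ (W⁄Qbar).Point p →
        eval₂ (Int.castRingHom Qbar) x F = 0)
    (A : ValuationSubring Qbar) (hA : A.LiesOverPrime p)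
    (N : Submodule (ZMod p) (Submodule.torsionBy ℤ (W⁄Qbar).Point p))
    (hN : IsGaloisStable ℚ N) (hbot : N ≠ ⊥) (htop : N ≠ ⊤) :
    ∃ (x y : Qbar) (h : (W⁄Qbar).Nonsingular x y),
      Point.some x y h ∈ Submodule.torsionBy ℤ (W⁄Qbar).Point p ∧ x ∈ A := by
  classical
  by_contra hcon
  push Not at hcon
  have hF0 : F ≠ 0 := by
    intro h0
    rw [h0] at hlc
    simp only [coeff_zero] at hlc
    have hpZ : (p : ℤ) ≠ 0 := by exact_mod_cast hp.ne_zero
    have h2 : (p : ℤ) - 2 ≠ 0 := by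
      intro h
      have : (p : ℤ) = 2 := by linarith
      exact hp2 (by exact_mod_cast this)
    exact (mul_ne_zero hpZ h2) hlc.symm
  set T₀ := h16lp_xset W p F (fun P => P ∈ N ∧ P ≠ 0) with hT₀
  set T₁ := h16lp_xset W p F (fun P => P ∉ N) with hT₁
  -- every nonzero point of `E[p]` is affine
  have haff : ∀ P : Submodule.torsionBy ℤ (W⁄Qbar).Point p, P ≠ 0 →
      ∃ x y h, (P : (W⁄Qbar).Point) = Point.some x y h := by
    rintro ⟨P, hP⟩ hne
    cases P with
    | zero => exact absurd (Subtype.ext rfl) hne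
    | some x y h => exact ⟨x, y, h, rfl⟩
  have hne₀ : T₀.Nonempty := by
    obtain ⟨P, hPN, hP0⟩ := (Submodule.ne_bot_iff N).1 hbot
    obtain ⟨x, y, h, hxy⟩ := haff P hP0
    exact ⟨x, (h16lp_mem_xset hF0 hF _ x).2 ⟨P, ⟨hPN, hP0⟩, y, h, hxy⟩⟩
  have hne₁ : T₁.Nonempty := by
    have : ∃ P, P ∉ N := by
      by_contra hall
      push Not at hall
      exact htop (eq_top_iff.2 fun P _ => hall P)
    obtain ⟨P, hPN⟩ := this
    have hP0 : P ≠ 0 := fun h => hPN (h ▸ N.zero_mem)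
    obtain ⟨x, y, h, hxy⟩ := haff P hP0
    exact ⟨x, (h16lp_mem_xset hF0 hF _ x).2 ⟨P, hPN, y, h, hxy⟩⟩
  have hdisj : Disjoint T₀ T₁ := by
    rw [Finset.disjoint_left]
    intro r hr0 hr1
    rw [hT₀, h16lp_mem_xset hF0 hF] at hr0
    rw [hT₁, h16lp_mem_xset hF0 hF] at hr1
    obtain ⟨P, ⟨hPN, _⟩, y, h, hP⟩ := hr0
    obtain ⟨P', hP'N, y', h', hP'⟩ := hr1
    rcases Y_eq_of_X_eq h'.1 h.1 rfl with hy | hy
    · apply hP'N
      have : P' = P := by
        apply Subtype.ext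
        rw [hP, hP']
        subst hy
        rfl
      rw [this]; exact hPN
    · apply hP'N
      have : P' = -P := by
        apply Subtype.ext
        rw [Submodule.coe_neg, hP, hP', neg_some]
        subst hy
        rfl
      rw [this]; exact N.neg_mem hPN
  have hroot : ∀ r ∈ T₀ ∪ T₁, eval₂ (Int.castRingHom Qbar) r F = 0 := by
    intro r hr
    rw [Finset.mem_union, hT₀, hT₁, h16lp_mem_xset hF0 hF, h16lp_mem_xset hF0 hF] at hr
    rcases hr with ⟨P, _, y, h, hP⟩ | ⟨P, _, y, h, hP⟩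
    · exact hF r y h (hP ▸ P.2)
    · exact hF r y h (hP ▸ P.2)
  have hout : ∀ r ∈ T₀ ∪ T₁, r ∉ A := by
    intro r hr
    rw [Finset.mem_union, hT₀, hT₁, h16lp_mem_xset hF0 hF, h16lp_mem_xset hF0 hF] at hr
    rcases hr with ⟨P, _, y, h, hP⟩ | ⟨P, _, y, h, hP⟩
    · exact hcon r y h (hP ▸ P.2)
    · exact hcon r y h (hP ▸ P.2)
  have hrat₀ : ∏ r ∈ T₀, r ∈ (algebraMap ℚ Qbar).range := by
    apply h16lp_prod_rat hF0 hF
    rintro σ P ⟨hPN, hP0⟩
    refine ⟨hN σ P hPN, fun h => hP0 ?_⟩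
    have := congrArg (fun Q => σ⁻¹ • Q) h
    simpa using this
  have hrat₁ : ∏ r ∈ T₁, r ∈ (algebraMap ℚ Qbar).range := by
    apply h16lp_prod_rat hF0 hF
    intro σ P hPN hσ
    apply hPN
    have := hN σ⁻¹ _ hσ
    simpa using this
  exact h16lp_core hp hp2 hA F d hd hlc T₀ T₁ hdisj hne₀ hne₁ hroot hout hrat₀ hrat₁

end Fermat.Agent.H16LP
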