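/-
T-Ell piece LP (helper25): the "kernel of reduction" `E1 ∪ {0} = {P | P = 0 ∨ 1 < v (ξ P)}` is a
subgroup, for abstract x-coordinate data `H5.XData` and a valuation with `v 2 = 1`,
`v al ≤ 1`, `v be ≤ 1`.  No hypothesis on the residue characteristic besides `v 2 = 1`.
-/
import Fermat.Agent.S05.Glue
import Fermat.Agent.S05.Steps

set_option autoImplicit false

namespace Fermat.Agent.H25L

variable {K : Type*} [Field K] {Γ₀ : Type*} [LinearOrderedCommGroupWithZero Γ₀]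

/-- Two-root lemma: if `v (r₁ r₂) d² = M² m²` and `v (r₁ + r₂) d² ≤ M² m` with `0 < d ≤ M`,
`1 < m`, then `1 < v r₁`. -/
theorem h25l_root_gt_one (v : Valuation K Γ₀) {r₁ r₂ : K} {d M m : Γ₀}
    (hd0 : 0 < d) (hdM : d ≤ M) (hm : 1 < m)
    (hprod : v (r₁ * r₂) * d ^ 2 = M ^ 2 * m ^ 2)
    (hsum : v (r₁ + r₂) * d ^ 2 ≤ M ^ 2 * m) : 1 < v r₁ := by
  by_contra h
  rw [not_lt] at h
  have hM0 : 0 < M := lt_of_lt_of_le hd0 hdM
  have hM2 : 0 < M ^ 2 := pow_pos hM0 2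
  have hm0 : 0 < m := lt_trans one_pos hm
  have hd2 : d ^ 2 ≤ M ^ 2 := pow_le_pow_left₀ zero_le hdM 2
  have hd2pos : 0 < d ^ 2 := pow_pos hd0 2
  have hmm : m < m ^ 2 := by
    calc m = m * 1 := (mul_one m).symm
      _ < m * m := mul_lt_mul_of_pos_left hm hm0
      _ = m ^ 2 := (sq m).symm
  have hlt : M ^ 2 * m < M ^ 2 * m ^ 2 := mul_lt_mul_of_pos_left hmm hM2
  -- Step 1
  have h2 : 1 < v r₂ := by
    by_contra h'
    rw [not_lt] at h'
    have h3 : v (r₁ * r₂) ≤ 1 := H5.v_mul_le_one v h h'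
    have h4 : v (r₁ * r₂) * d ^ 2 ≤ M ^ 2 := by
      calc v (r₁ * r₂) * d ^ 2 ≤ 1 * d ^ 2 := by gcongr
        _ = d ^ 2 := one_mul _
        _ ≤ M ^ 2 := hd2
    rw [hprod] at h4
    have h5 : M ^ 2 * 1 < M ^ 2 * m ^ 2 :=
      mul_lt_mul_of_pos_left (lt_trans hm hmm) hM2
    rw [mul_one] at h5
    exact absurd h4 (not_le.mpr h5)
  -- Step 2
  have h3 : v (r₁ + r₂) = v r₂ :=
    Valuation.map_add_eq_of_lt_right v (lt_of_le_of_lt h h2)
  -- Step 3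
  have h4 : v (r₁ * r₂) ≤ v r₂ := by
    rw [map_mul]
    calc v r₁ * v r₂ ≤ 1 * v r₂ := by gcongr
      _ = v r₂ := one_mul _
  have h5 : M ^ 2 * m ^ 2 ≤ M ^ 2 * m := by
    calc M ^ 2 * m ^ 2 = v (r₁ * r₂) * d ^ 2 := hprod.symm
      _ ≤ v r₂ * d ^ 2 := by gcongr
      _ = v (r₁ + r₂) * d ^ 2 := by rw [h3]
      _ ≤ M ^ 2 * m := hsum
  exact absurd h5 (not_le.mpr hlt)

variable {G : Type*} [AddCommGroup G] (D : H5.XData K G)

/-- ordered version of `h25l_ker_add_sub` (`v (ξ Q) ≤ v (ξ P)`). -/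
theorem h25l_ker_add_sub_aux (v : Valuation K Γ₀) (h2 : v (2 : K) ≤ 1)
    (hal : v D.al ≤ 1) (hbe : v D.be ≤ 1) {P Q : G} (hP0 : P ≠ 0) (hQ0 : Q ≠ 0)
    (hQ : 1 < v (D.xi Q)) (hle : v (D.xi Q) ≤ v (D.xi P)) (hne : D.xi P ≠ D.xi Q) :
    1 < v (D.xi (P + Q)) ∧ 1 < v (D.xi (P - Q)) := by
  have hP : 1 < v (D.xi P) := lt_of_lt_of_le hQ hle
  have hS := D.sum_formula P Q hP0 hQ0 hne
  have hPr := D.prod_formula P Q hP0 hQ0 hne
  have hδ0 : D.xi P - D.xi Q ≠ 0 := sub_ne_zero.mpr hne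
  have hd0 : 0 < v (D.xi P - D.xi Q) := by rw [Valuation.pos_iff]; exact hδ0
  have hdM : v (D.xi P - D.xi Q) ≤ v (D.xi P) := (v.map_sub _ _).trans (max_le le_rfl hle)
  have ha0 : 0 < v (D.xi P) := lt_trans one_pos hP
  have hb0 : 0 < v (D.xi Q) := lt_trans one_pos hQ
  -- the product
  have hprod : v (D.xi (P + Q) * D.xi (P - Q)) * v (D.xi P - D.xi Q) ^ 2 =
      v (D.xi P) ^ 2 * v (D.xi Q) ^ 2 := by
    rw [← map_pow, ← map_mul, hPr, map_pow]
    have h1 : v D.al < v (D.xi P * D.xi Q) := by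
      rw [map_mul]
      calc v D.al ≤ 1 := hal
        _ < v (D.xi P) := hP
        _ = v (D.xi P) * 1 := (mul_one _).symm
        _ < v (D.xi P) * v (D.xi Q) := mul_lt_mul_of_pos_left hQ ha0
    rw [Valuation.map_sub_eq_of_lt_left v h1, map_mul, mul_pow]
  -- the sum
  have hsum : v (D.xi (P + Q) + D.xi (P - Q)) * v (D.xi P - D.xi Q) ^ 2 ≤
      v (D.xi P) ^ 2 * v (D.xi Q) := by
    rw [← map_pow, ← map_mul, hS]
    have hs1 : v (D.xi P + D.xi Q) ≤ v (D.xi P) := (v.map_add _ _).trans (max_le le_rfl hle)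
    have hs2 : v (2 * (D.xi P + D.xi Q) + D.be) ≤ v (D.xi P) := by
      refine (v.map_add _ _).trans (max_le ?_ (hbe.trans hP.le))
      rw [map_mul]
      calc v 2 * v (D.xi P + D.xi Q) ≤ 1 * v (D.xi P) := by gcongr
        _ = v (D.xi P) := one_mul _
    have hab : 1 ≤ v (D.xi P) * v (D.xi Q) := by
      calc (1 : Γ₀) = 1 * 1 := (one_mul 1).symm
        _ ≤ v (D.xi P) * v (D.xi Q) := mul_le_mul' hP.le hQ.le
    refine (v.map_add _ _).trans (max_le ?_ ?_)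
    · rw [map_mul, map_mul]
      calc v (D.xi P) * v (D.xi Q) * v (2 * (D.xi P + D.xi Q) + D.be)
          ≤ v (D.xi P) * v (D.xi Q) * v (D.xi P) := by gcongr
        _ = v (D.xi P) ^ 2 * v (D.xi Q) := by rw [sq]; ac_rfl
    · rw [map_mul, map_mul]
      calc v 2 * v D.al * v (D.xi P + D.xi Q) ≤ 1 * 1 * v (D.xi P) := by gcongr
        _ = 1 * v (D.xi P) := by rw [one_mul]
        _ ≤ v (D.xi P) * v (D.xi Q) * v (D.xi P) := by gcongr
        _ = v (D.xi P) ^ 2 * v (D.xi Q) := by rw [sq]; ac_rfl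
  refine ⟨h25l_root_gt_one v hd0 hdM hQ hprod hsum, ?_⟩
  rw [mul_comm (D.xi (P + Q))] at hprod
  rw [add_comm (D.xi (P + Q))] at hsum
  exact h25l_root_gt_one v hd0 hdM hQ hprod hsum

/-- If `P, Q ∈ E1` have different `ξ` then `P ± Q ∈ E1`. -/
theorem h25l_ker_add_sub (v : Valuation K Γ₀) (h2 : v (2 : K) ≤ 1)
    (hal : v D.al ≤ 1) (hbe : v D.be ≤ 1) {P Q : G} (hP0 : P ≠ 0) (hQ0 : Q ≠ 0)
    (hP : 1 < v (D.xi P)) (hQ : 1 < v (D.xi Q)) (hne : D.xi P ≠ D.xi Q) :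
    1 < v (D.xi (P + Q)) ∧ 1 < v (D.xi (P - Q)) := by
  rcases le_total (v (D.xi Q)) (v (D.xi P)) with hle | hle
  · exact h25l_ker_add_sub_aux D v h2 hal hbe hP0 hQ0 hQ hle hne
  · have := h25l_ker_add_sub_aux D v h2 hal hbe hQ0 hP0 hP hle (Ne.symm hne)
    refine ⟨by rw [add_comm]; exact this.1, ?_⟩
    have e : P - Q = -(Q - P) := (neg_sub Q P).symm
    rw [e, D.xi_neg]
    exact this.2

/-- Doubling on `E1`: `v (ξ (2P)) = v (ξ P)`. -/
theorem h25l_ker_dbl (v : Valuation K Γ₀) (h2 : v (2 : K) = 1)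
    (hal : v D.al ≤ 1) (hbe : v D.be ≤ 1) {P : G} (hP0 : P ≠ 0) (hPP : P + P ≠ 0)
    (hP : 1 < v (D.xi P)) : v (D.xi (P + P)) = v (D.xi P) := by
  have hdbl := D.dbl_formula P hP0 hPP
  rw [D.om_sq P hP0] at hdbl
  have ha0 : 0 < v (D.xi P) := lt_trans one_pos hP
  have h4 : v (4 : K) = 1 := by
    have e : (4 : K) = 2 * 2 := by norm_num
    rw [e, map_mul, h2, one_mul]
  have haa : v (D.xi P) < v (D.xi P) ^ 2 := by
    calc v (D.xi P) = v (D.xi P) * 1 := (mul_one _).symm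
      _ < v (D.xi P) * v (D.xi P) := mul_lt_mul_of_pos_left hP ha0
      _ = v (D.xi P) ^ 2 := (sq _).symm
  have h1 : v (4 * D.xi P ^ 2) = v (D.xi P) ^ 2 := by rw [map_mul, h4, one_mul, map_pow]
  have h2' : v (D.be * D.xi P) < v (D.xi P) ^ 2 := by
    rw [map_mul]
    calc v D.be * v (D.xi P) ≤ 1 * v (D.xi P) := by gcongr
      _ = v (D.xi P) := one_mul _
      _ < v (D.xi P) ^ 2 := haa
  have h3 : v (4 * D.al) < v (D.xi P) ^ 2 := by
    rw [map_mul, h4, one_mul]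
    exact lt_of_le_of_lt hal (lt_trans hP haa)
  have hfac : v (4 * D.xi P ^ 2 + D.be * D.xi P + 4 * D.al) = v (D.xi P) ^ 2 := by
    have h5 : v (4 * D.xi P ^ 2 + D.be * D.xi P) = v (D.xi P) ^ 2 := by
      rw [Valuation.map_add_eq_of_lt_left v (by rw [h1]; exact h2'), h1]
    rw [Valuation.map_add_eq_of_lt_left v (by rw [h5]; exact h3), h5]
  have hnum : v (D.xi P ^ 2 - D.al) = v (D.xi P) ^ 2 := by
    have : v D.al < v (D.xi P ^ 2) := by
      rw [map_pow]; exact lt_of_le_of_lt hal (lt_trans hP haa)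
    rw [Valuation.map_sub_eq_of_lt_left v this, map_pow]
  have hv := congrArg v hdbl
  rw [map_mul, map_mul, hfac, map_pow, hnum] at hv
  have e1 : v (D.xi (P + P)) * (v (D.xi P) * v (D.xi P) ^ 2) =
      v (D.xi P) * (v (D.xi P) * v (D.xi P) ^ 2) := by
    rw [hv, sq, sq]; ac_rfl
  exact mul_right_cancel₀ (mul_pos ha0 (pow_pos ha0 2)).ne' e1

/-- **The kernel of reduction** `{P | P = 0 ∨ 1 < v (ξ P)}` as an additive subgroup. -/
def h25l_ker (v : Valuation K Γ₀) (h2 : v (2 : K) = 1)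
    (hal : v D.al ≤ 1) (hbe : v D.be ≤ 1) : AddSubgroup G where
  carrier := {P | P = 0 ∨ 1 < v (D.xi P)}
  zero_mem' := Or.inl rfl
  neg_mem' := by
    rintro P (h | h)
    · exact Or.inl (by rw [h, neg_zero])
    · exact Or.inr (by rw [D.xi_neg]; exact h)
  add_mem' := by
    rintro P Q (hP | hP) (hQ | hQ)
    · exact Or.inl (by rw [hP, hQ, add_zero])
    · rw [hP, zero_add]; exact Or.inr hQ
    · rw [hQ, add_zero]; exact Or.inr hP
    · by_cases hP0 : P = 0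
      · rw [hP0, zero_add]; exact Or.inr hQ
      by_cases hQ0 : Q = 0
      · rw [hQ0, add_zero]; exact Or.inr hP
      by_cases hne : D.xi P = D.xi Q
      · rcases D.eq_or_eq_neg hP0 hQ0 hne with h | h
        · subst h
          by_cases hPP : P + P = 0
          · exact Or.inl hPP
          · exact Or.inr (by rw [h25l_ker_dbl D v h2 hal hbe hP0 hPP hP]; exact hP)
        · exact Or.inl (by rw [h, neg_add_cancel])
      · exact Or.inr (h25l_ker_add_sub D v h2.le hal hbe hP0 hQ0 hP hQ hne).1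

theorem h25l_mem_ker_iff (v : Valuation K Γ₀) (h2 : v (2 : K) = 1)
    (hal : v D.al ≤ 1) (hbe : v D.be ≤ 1) {P : G} :
    P ∈ h25l_ker D v h2 hal hbe ↔ P = 0 ∨ 1 < v (D.xi P) := Iff.rfl

end Fermat.Agent.H25L
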