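/-
T-Ell piece LP (helper25): abstract statement "inertia at `p` moves `p`-torsion points only
inside the kernel of reduction": for inertia-like `σ` and `p • P = 0`,
`σ P - P = 0 ∨ 1 < v (ξ (σ P - P))`.  Same hypotheses as `H5.torsion_fixed` (S05) except that
nothing is assumed about `v p`, plus the sign formula (`LPSign.lean`).
-/
import Fermat.Agent.TEll.LPKer
import Fermat.Agent.S05.Final

set_option autoImplicit false

namespace Fermat.Agent.H25L

variable {K : Type*} [Field K] {Γ₀ : Type*} [LinearOrderedCommGroupWithZero Γ₀]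

/-- The final valuation step. -/
theorem h25l_final_step (v : Valuation K Γ₀) (h2 : v (2 : K) = 1) {β ξP ξQ X ωP ωQ : K}
    (hβ : v β ≤ 1) (hξP : v ξP ≤ 1) (hξQ : v ξQ ≤ 1)
    (hform : (4 * X + β + 4 * ξQ + 4 * ξP) * (ξQ - ξP) ^ 2 = (ωQ + ωP) ^ 2)
    (hδ : v (ξQ - ξP) < v ωP) (hω : v (ωQ + ωP) = v ωP) : 1 < v X := by
  by_contra h
  rw [not_lt] at h
  have h4 : v (4 : K) = 1 := by
    have e : (4 : K) = 2 * 2 := by norm_num
    rw [e, map_mul, h2, one_mul]
  have h1 : v (4 * X + β + 4 * ξQ + 4 * ξP) ≤ 1 := by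
    refine v.map_add_le (v.map_add_le (v.map_add_le ?_ hβ) ?_) ?_
    · rw [map_mul, h4, one_mul]; exact h
    · rw [map_mul, h4, one_mul]; exact hξQ
    · rw [map_mul, h4, one_mul]; exact hξP
  have h3 := congrArg v hform
  rw [map_mul, map_pow, map_pow, hω] at h3
  have h5 : v (4 * X + β + 4 * ξQ + 4 * ξP) * v (ξQ - ξP) ^ 2 ≤ v (ξQ - ξP) ^ 2 := by
    calc v (4 * X + β + 4 * ξQ + 4 * ξP) * v (ξQ - ξP) ^ 2 ≤ 1 * v (ξQ - ξP) ^ 2 := by gcongr
      _ = _ := one_mul _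
  have h6 : v (ξQ - ξP) ^ 2 < v ωP ^ 2 := pow_lt_pow_left₀ hδ zero_le (by norm_num)
  rw [h3] at h5
  exact absurd h5 (not_le.mpr h6)

/-- `v (ω + σ ω) = v ω` if `v (ω - σ ω) < v ω` and `v 2 = 1`. -/
theorem h25l_v_add_sigma (v : Valuation K Γ₀) (h2 : v (2 : K) = 1) {ω ω' : K}
    (h : v (ω - ω') < v ω) : v (ω' + ω) = v ω := by
  have e : ω' + ω = 2 * ω - (ω - ω') := by ring
  have h1 : v (2 * ω) = v ω := by rw [map_mul, h2, one_mul]
  rw [e, Valuation.map_sub_eq_of_lt_left v (by rw [h1]; exact h), h1]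

variable {G : Type*} [AddCommGroup G] (D : H5.XData K G)

/-- level lemma (S05 (III)) with both conclusions. -/
theorem h25l_xi_level (v : Valuation K Γ₀) (h2 : v (2 : K) = 1) (hal0 : D.al ≠ 0)
    (hdisc : v (D.be ^ 2 - 64 * D.al) = 1)
    {p : ℕ} (hpp : p.Prime) (hp5 : 5 ≤ p)
    (π : K) (hπ : v D.al = v π ^ p)
    {Q : G} (hQ0 : Q ≠ 0) (hpQ : p • Q = 0) (hαlt : v D.al < 1) (hξ : v (D.xi Q) < 1) :
    v D.al < v (D.xi Q) ∧ ∃ m : ℕ, v (D.xi Q) = v π ^ m := by
  have hodd : Odd p := hpp.odd_of_ne_two (by omega)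
  have hb : v D.be = 1 := H5.v_be_eq_one v hαlt hdisc
  obtain ⟨h1, j, -, hj⟩ := Fermat.Agent.H9.h9_level_core v p hp5 hodd h2 D.al D.be hal0 hαlt hb
    π hπ (fun k => D.xi (k • Q))
    (H5.seq_ne_zero D hpp hp5 hQ0 hpQ)
    (H5.seq_symm D hpp hp5 hQ0 hpQ)
    (fun k h1 h2 => by simpa using H5.seq_ne D hpp hp5 hQ0 hpQ k h1 h2)
    (by simpa using H5.seq_dbl D hpp hp5 hQ0 hpQ)
    (fun k h1 h2 => by simpa using H5.seq_s1 D hpp hp5 hQ0 hpQ k h1 h2)
    (fun k h1 h2 => by simpa using H5.seq_s2 D hpp hp5 hQ0 hpQ k h1 h2)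
    (by simpa using hξ)
  exact ⟨by simpa using h1, 2 * j, by simpa using hj⟩

/-- **Abstract LP (b).** -/
theorem h25l_inertia_ker
    (hsub : ∀ P Q, P ≠ 0 → Q ≠ 0 → D.xi P ≠ D.xi Q →
      (4 * D.xi (P - Q) + D.be + 4 * D.xi P + 4 * D.xi Q) * (D.xi P - D.xi Q) ^ 2 =
        (D.om P + D.om Q) ^ 2)
    (v : Valuation K Γ₀) (h2 : v (2 : K) = 1)
    (hal : v D.al ≤ 1) (hal0 : D.al ≠ 0) (hbe : v D.be ≤ 1)
    (hdisc : v (D.be ^ 2 - 64 * D.al) = 1)
    {p : ℕ} (hpp : p.Prime) (hp5 : 5 ≤ p)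
    (π : K) (hπ : v D.al = v π ^ p)
    (σK : K →+* K) (σG : G →+ G)
    (hσxi : ∀ P, P ≠ 0 → D.xi (σG P) = σK (D.xi P))
    (hσom : ∀ P, P ≠ 0 → D.om (σG P) = σK (D.om P))
    (hσ0 : ∀ P, σG P = 0 → P = 0)
    (hσv : ∀ x, v (σK x) = v x)
    (hσm : ∀ x, v x ≤ 1 → v (σK x - x) < 1)
    (hσπ : σK π = π)
    {P : G} (hpP : p • P = 0) : σG P - P = 0 ∨ 1 < v (D.xi (σG P - P)) := by
  by_cases hP0 : P = 0
  · left; rw [hP0, map_zero, sub_zero]
  have hQ0 : σG P ≠ 0 := fun h => hP0 (hσ0 P h)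
  have hξQ : D.xi (σG P) = σK (D.xi P) := hσxi P hP0
  have hωQ : D.om (σG P) = σK (D.om P) := hσom P hP0
  have h4 : v (4 : K) ≤ 1 := H5.v_ofNat_le_one v 4
  by_cases hker : 1 < v (D.xi P)
  · -- `P ∈ E1`
    have hPk : P ∈ h25l_ker D v h2 hal hbe := Or.inr hker
    have hQk : σG P ∈ h25l_ker D v h2 hal hbe := Or.inr (by rw [hξQ, hσv]; exact hker)
    exact (h25l_ker D v h2 hal hbe).sub_mem hQk hPk
  rw [not_lt] at hker
  have hξQle : v (D.xi (σG P)) ≤ 1 := by rw [hξQ, hσv]; exact hker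
  have hω2 := D.om_sq P hP0
  have h2P : P + P ≠ 0 := H5.eq_zero_of_add_self_eq_zero hpp hP0 hpP hp5
  have hω0 : D.om P ≠ 0 := fun h0 => h2P (D.add_self_eq_zero_of_om_eq_zero hP0 h0)
  have hωpos : 0 < v (D.om P) := by rw [Valuation.pos_iff]; exact hω0
  have hξ0 : D.xi P ≠ 0 := fun h0 => h2P (D.add_self_eq_zero_of_xi_eq_zero hP0 h0)
  have hξpos : 0 < v (D.xi P) := by rw [Valuation.pos_iff]; exact hξ0
  have hfacle : v (4 * D.xi P ^ 2 + D.be * D.xi P + 4 * D.al) ≤ 1 := by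
    refine v.map_add_le (v.map_add_le ?_ ?_) ?_
    · exact H5.v_mul_le_one v h4 (by rw [map_pow]; exact pow_le_one₀ zero_le hker)
    · exact H5.v_mul_le_one v hbe hker
    · exact H5.v_mul_le_one v h4 hal
  have hωle : v (D.om P) ≤ 1 := by
    have : v (D.om P) ^ 2 ≤ 1 ^ 2 := by
      rw [← map_pow, hω2, one_pow]
      exact H5.v_mul_le_one v hker hfacle
    exact H5.le_of_sq_le_sq this
  -- the key claim
  have hkey : v (D.xi P - σK (D.xi P)) < v (D.om P) ∧ v (D.om P - σK (D.om P)) < v (D.om P) := by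
    rcases hωle.lt_or_eq with hωlt | hωeq
    swap
    · -- `ω` is a unit
      rw [hωeq]
      refine ⟨?_, ?_⟩
      · rw [v.map_sub_swap]; exact hσm _ hker
      · rw [v.map_sub_swap]; exact hσm _ hωle
    -- `v ω < 1`
    have hω2lt : v (D.om P) ^ 2 < 1 := by
      calc v (D.om P) ^ 2 = v (D.om P) * v (D.om P) := sq _
        _ ≤ v (D.om P) * 1 := by gcongr
        _ = v (D.om P) := mul_one _
        _ < 1 := hωlt
    have hψ : v (D.xi P) * v (4 * D.xi P ^ 2 + D.be * D.xi P + 4 * D.al) = v (D.om P) ^ 2 := by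
      rw [← map_mul, ← hω2, map_pow]
    have hnumle : v (D.xi P ^ 2 - D.al) ≤ 1 :=
      (v.map_sub _ _).trans (max_le (by rw [map_pow]; exact pow_le_one₀ zero_le hker) hal)
    rcases hnumle.lt_or_eq with he1 | he1
    swap
    · -- `2P ∈ E1`, so `P ∈ E1`: contradiction
      exfalso
      have hdbl := D.dbl_formula P hP0 h2P
      have hv := congrArg v hdbl
      rw [map_mul, map_pow, map_pow, he1, one_pow] at hv
      have h2Pk : P + P ∈ h25l_ker D v h2 hal hbe := by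
        right
        by_contra hcon
        rw [not_lt] at hcon
        have : v (D.xi (P + P)) * v (D.om P) ^ 2 < 1 := by
          calc v (D.xi (P + P)) * v (D.om P) ^ 2 ≤ 1 * v (D.om P) ^ 2 := by gcongr
            _ = v (D.om P) ^ 2 := one_mul _
            _ < 1 := hω2lt
        rw [hv] at this
        exact lt_irrefl _ this
      have hodd : Odd p := hpp.odd_of_ne_two (by omega)
      obtain ⟨k, hk⟩ := hodd
      have hPk : P ∈ h25l_ker D v h2 hal hbe := by
        have h3 : (k + 1) • (P + P) = P := by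
          rw [← two_nsmul, ← mul_nsmul]
          have e : 2 * (k + 1) = p + 1 := by omega
          rw [e, add_nsmul, hpP, zero_add, one_nsmul]
        rw [← h3]
        exact (h25l_ker D v h2 hal hbe).nsmul_mem h2Pk _
      rcases hPk with h | h
      · exact hP0 h
      · exact absurd hker (not_le.mpr h)
    rcases hker.lt_or_eq with hξlt | hξeq
    swap
    · -- `ξ` unit, `ω`, `ξ² - α` non-units: discriminant is a non-unit
      exfalso
      rw [hξeq, one_mul] at hψ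
      have hfac : v (4 * D.xi P ^ 2 + D.be * D.xi P + 4 * D.al) < 1 := by rw [hψ]; exact hω2lt
      have h3 : v (D.xi P * (8 * D.xi P + D.be)) < 1 := by
        have e : D.xi P * (8 * D.xi P + D.be) =
            (4 * D.xi P ^ 2 + D.be * D.xi P + 4 * D.al) + 4 * (D.xi P ^ 2 - D.al) := by ring
        rw [e]
        exact v.map_add_lt hfac (H5.v_mul_lt_one_right v h4 he1)
      rw [map_mul, hξeq, one_mul] at h3
      have := H5.disc_lt_one v hbe hker h3 he1
      rw [hdisc] at this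
      exact lt_irrefl _ this
    -- `v ξ < 1`: the node
    have hαlt : v D.al < 1 := by
      have e : D.al = D.xi P ^ 2 - (D.xi P ^ 2 - D.al) := by ring
      rw [e]
      refine v.map_sub_lt ?_ he1
      rw [map_pow]
      exact lt_of_le_of_lt (pow_le_of_le_one zero_le hker (by norm_num)) hξlt
    obtain ⟨hαξ, m, hm⟩ := h25l_xi_level D v h2 hal0 hdisc hpp hp5 π hπ hP0 hpP hαlt hξlt
    have hπ0 : π ≠ 0 := by
      intro h0
      rw [h0, map_zero, zero_pow (by omega), Valuation.zero_iff] at hπ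
      exact hal0 hπ
    have hβ1 : v D.be = 1 := H5.v_be_eq_one v hαlt hdisc
    have hsq : v (4 * D.xi P ^ 2) < v (D.xi P) := by
      rw [map_mul, map_pow]
      calc v 4 * v (D.xi P) ^ 2 ≤ 1 * v (D.xi P) ^ 2 := by gcongr
        _ = v (D.xi P) ^ 2 := one_mul _
        _ < v (D.xi P) := H5.sq_lt_self hξpos.ne' hξlt
    have hβξ : v (D.be * D.xi P) = v (D.xi P) := by rw [map_mul, hβ1, one_mul]
    have h4α : v (4 * D.al) < v (D.xi P) := by
      rw [map_mul]
      calc v 4 * v D.al ≤ 1 * v D.al := by gcongr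
        _ = v D.al := one_mul _
        _ < v (D.xi P) := hαξ
    have hfac : v (4 * D.xi P ^ 2 + D.be * D.xi P + 4 * D.al) = v (D.xi P) := by
      rw [Valuation.map_add_eq_of_lt_left v, Valuation.map_add_eq_of_lt_right v, hβξ]
      · rw [hβξ]; exact hsq
      · rw [Valuation.map_add_eq_of_lt_right v (by rw [hβξ]; exact hsq), hβξ]; exact h4α
    rw [hfac, ← sq] at hψ
    have hωξ : v (D.om P) = v (D.xi P) :=
      le_antisymm (H5.le_of_sq_le_sq hψ.symm.le) (H5.le_of_sq_le_sq hψ.le)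
    have hc0 : π ^ m ≠ 0 := pow_ne_zero _ hπ0
    have hσc : σK (π ^ m) = π ^ m := by rw [map_pow, hσπ]
    have hvc : v (D.xi P) = v (π ^ m) := by rw [hm, map_pow]
    refine ⟨?_, ?_⟩
    · rw [hωξ]
      exact H5.v_sub_sigma_lt v σK hσm hc0 hσc hvc
    · exact H5.v_sub_sigma_lt v σK hσm hc0 hσc (hωξ.trans hvc)
  obtain ⟨hk1, hk2⟩ := hkey
  have hωsum : v (σK (D.om P) + D.om P) = v (D.om P) := h25l_v_add_sigma v h2 hk2
  by_cases hne : D.xi (σG P) = D.xi P
  · rcases D.eq_or_eq_neg hQ0 hP0 hne with h | h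
    · left; rw [h, sub_self]
    · exfalso
      have : σK (D.om P) = -D.om P := by rw [← hωQ, h, D.om_neg]
      rw [this, neg_add_cancel, map_zero] at hωsum
      exact hωpos.ne' hωsum.symm
  · right
    have hform := hsub (σG P) P hQ0 hP0 hne
    rw [hξQ, hωQ] at hform
    have hδ : v (σK (D.xi P) - D.xi P) < v (D.om P) := by rw [v.map_sub_swap]; exact hk1
    have hξQle' : v (σK (D.xi P)) ≤ 1 := by rw [hσv]; exact hker
    exact h25l_final_step v h2 hbe hker hξQle' hform hδ hωsum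

end Fermat.Agent.H25L
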