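/-
T-Ell piece LP (helper25): the "sign formula" on the curve side.
For `P, Q ≠ 0` with `x(P) ≠ x(Q)`:
`(4 ξ(P - Q) + b' + 4 ξ(P) + 4 ξ(Q)) (ξ(P) - ξ(Q))² = (ω(P) + ω(Q))²`,
`(4 ξ(P + Q) + b' + 4 ξ(P) + 4 ξ(Q)) (ξ(P) - ξ(Q))² = (ω(P) - ω(Q))²`,
where `ξ = x - x₀`, `ω = 2y + a₁x + a₃`, `b' = b₂ + 12 x₀` (notation of `S05/XInst.lean`).
-/
import Fermat.Agent.S05.XInst

set_option autoImplicit false

namespace Fermat.Agent.H25L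

open WeierstrassCurve Fermat.Agent.H29

variable {F : Type*} [Field F] [DecidableEq F] (W : WeierstrassCurve.Affine F)

/-- formula level: `x(P₁ + P₂)` in terms of `ω₁ - ω₂`. -/
theorem h25l_addX_formula {x₁ x₂ y₁ y₂ : F} (hx : x₁ ≠ x₂) :
    (4 * W.addX x₁ x₂ (W.slope x₁ x₂ y₁ y₂) + W.b₂ + 4 * x₁ + 4 * x₂) * (x₁ - x₂) ^ 2 =
      ((2 * y₁ + W.a₁ * x₁ + W.a₃) - (2 * y₂ + W.a₁ * x₂ + W.a₃)) ^ 2 := by
  have hd : x₁ - x₂ ≠ 0 := sub_ne_zero.mpr hx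
  rw [Affine.slope_of_X_ne hx]
  simp only [Affine.addX, b₂]
  field_simp
  ring

/-- formula level: `x(P₁ - P₂)` in terms of `ω₁ + ω₂`. -/
theorem h25l_subX_formula {x₁ x₂ y₁ y₂ : F} (hx : x₁ ≠ x₂) :
    (4 * W.addX x₁ x₂ (W.slope x₁ x₂ y₁ (W.negY x₂ y₂)) + W.b₂ + 4 * x₁ + 4 * x₂) *
        (x₁ - x₂) ^ 2 =
      ((2 * y₁ + W.a₁ * x₁ + W.a₃) + (2 * y₂ + W.a₁ * x₂ + W.a₃)) ^ 2 := by
  have hd : x₁ - x₂ ≠ 0 := sub_ne_zero.mpr hx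
  rw [Affine.slope_of_X_ne hx]
  simp only [Affine.addX, Affine.negY, b₂]
  field_simp
  ring

/-- **Sign formula, `P - Q`.** -/
theorem h25l_sub_formula (x₀ : F) (P Q : W.Point) (hP : P ≠ 0) (hQ : Q ≠ 0)
    (hne : h29_xi W x₀ P ≠ h29_xi W x₀ Q) :
    (4 * h29_xi W x₀ (P - Q) + (W.b₂ + 12 * x₀) + 4 * h29_xi W x₀ P + 4 * h29_xi W x₀ Q) *
        (h29_xi W x₀ P - h29_xi W x₀ Q) ^ 2 =
      (h29_om W P + h29_om W Q) ^ 2 := by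
  obtain ⟨x₁, y₁, h₁, rfl⟩ := h29_exists_some W hP
  obtain ⟨x₂, y₂, h₂, rfl⟩ := h29_exists_some W hQ
  simp only [h29_xi_some] at hne ⊢
  have hx : x₁ ≠ x₂ := fun h => hne (by rw [h])
  have hsub : Affine.Point.some x₁ y₁ h₁ - Affine.Point.some x₂ y₂ h₂ =
      Affine.Point.some x₁ y₁ h₁ + Affine.Point.some x₂ (W.negY x₂ y₂)
        ((Affine.nonsingular_neg ..).mpr h₂) := by
    rw [sub_eq_add_neg, Affine.Point.neg_some]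
  rw [hsub, Affine.Point.add_of_X_ne hx]
  simp only [h29_xi_some, h29_om_some]
  linear_combination h25l_subX_formula W (y₁ := y₁) (y₂ := y₂) hx

/-- **Sign formula, `P + Q`.** -/
theorem h25l_add_formula (x₀ : F) (P Q : W.Point) (hP : P ≠ 0) (hQ : Q ≠ 0)
    (hne : h29_xi W x₀ P ≠ h29_xi W x₀ Q) :
    (4 * h29_xi W x₀ (P + Q) + (W.b₂ + 12 * x₀) + 4 * h29_xi W x₀ P + 4 * h29_xi W x₀ Q) *
        (h29_xi W x₀ P - h29_xi W x₀ Q) ^ 2 =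
      (h29_om W P - h29_om W Q) ^ 2 := by
  obtain ⟨x₁, y₁, h₁, rfl⟩ := h29_exists_some W hP
  obtain ⟨x₂, y₂, h₂, rfl⟩ := h29_exists_some W hQ
  simp only [h29_xi_some] at hne ⊢
  have hx : x₁ ≠ x₂ := fun h => hne (by rw [h])
  rw [Affine.Point.add_of_X_ne hx]
  simp only [h29_xi_some, h29_om_some]
  linear_combination h25l_addX_formula W (y₁ := y₁) (y₂ := y₂) hx

end Fermat.Agent.H25L
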