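/-
T-Ell piece LP (helper25): Frey wiring at `p`.  For a valuation subring `A` of `ℚ̄` over `p = P.p`:
* `h25l_V1 P A hA` : the kernel of reduction `{x ∈ E[p] | x = 0 ∨ 1 < v (x-coordinate)}` as a
  `ZMod p`-subspace of `E[p]`;
* `h25l_frey_inertia` : for `σ` in the inertia group of `A` and `x ∈ E[p]`: `σ • x - x ∈ V1`.
-/
import Fermat.Agent.TEll.LPInertia
import Fermat.Agent.TEll.LPSign
import Fermat.Agent.S05.Assembly
import Fermat.Agent.TEll.Defs

set_option autoImplicit false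

namespace Fermat.Agent.H25L

open WeierstrassCurve WeierstrassCurve.Affine WeierstrassCurve.Affine.Point
open Fermat.Agent.H29 Fermat.Agent.H4Frey Fermat.Agent.H9 Fermat.Agent.H6 Fermat.Agent.TEll

local notation "Qbar" => AlgebraicClosure ℚ

variable (P : FreyPackage)

theorem h25l_p_ne_two : P.p ≠ 2 := by have := P.hp5; omega

theorem h25l_val_two {A : ValuationSubring Qbar} (hA : A.LiesOverPrime P.p) :
    A.valuation (2 : Qbar) = 1 :=
  h6_val_two P.pp (h25l_p_ne_two P) hA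

theorem h25l_val_sixteen {A : ValuationSubring Qbar} (hA : A.LiesOverPrime P.p) :
    A.valuation (16 : Qbar) = 1 :=
  h6_val_sixteen P.pp (h25l_p_ne_two P) hA

theorem h25l_val_four {A : ValuationSubring Qbar} (hA : A.LiesOverPrime P.p) :
    A.valuation (4 : Qbar) = 1 := by
  have h4 : (4 : Qbar) = 2 ^ 2 := by norm_num
  rw [h4, map_pow, h25l_val_two P hA, one_pow]

theorem h25l_vA (A : ValuationSubring Qbar) : A.valuation (AK P Qbar) ≤ 1 := by
  rw [AK, map_pow]; exact pow_le_one₀ zero_le (h6_val_intCast_le_one _)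

theorem h25l_vB (A : ValuationSubring Qbar) : A.valuation (BK P Qbar) ≤ 1 := by
  rw [BK, map_pow]; exact pow_le_one₀ zero_le (h6_val_intCast_le_one _)

theorem h25l_vC (A : ValuationSubring Qbar) : A.valuation (CK P Qbar) ≤ 1 := by
  rw [CK, map_pow]; exact pow_le_one₀ zero_le (h6_val_intCast_le_one _)

/-- `x₀ = 0` is a root of the 2-division polynomial of the Frey curve. -/
theorem h25l_hx0 : 4 * (0 : Qbar) ^ 3 + ((P.freyCurve)⁄Qbar).b₂ * (0 : Qbar) ^ 2 +
    2 * ((P.freyCurve)⁄Qbar).b₄ * (0 : Qbar) + ((P.freyCurve)⁄Qbar).b₆ = 0 := by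
  rw [baseChange_b₆ P Qbar]; ring

/-- The x-coordinate data of the Frey curve with shift `x₀ = 0`. -/
noncomputable def h25l_D0 : H5.XData Qbar ((P.freyCurve)⁄Qbar).Point :=
  h29_xdata ((P.freyCurve)⁄Qbar) two_ne_zero 0 (h25l_hx0 P)

theorem h25l_D0_xi : (h25l_D0 P).xi = h29_xi ((P.freyCurve)⁄Qbar) 0 := rfl

theorem h25l_D0_al : (h25l_D0 P).al = -(AK P Qbar * BK P Qbar) / 16 := by
  change (((P.freyCurve)⁄Qbar).b₄ + (0 : Qbar) * ((P.freyCurve)⁄Qbar).b₂ +
        6 * (0 : Qbar) ^ 2) / 2 = _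
  rw [baseChange_b₄ P Qbar]; ring

theorem h25l_D0_be : (h25l_D0 P).be = BK P Qbar - AK P Qbar := by
  change ((P.freyCurve)⁄Qbar).b₂ + 12 * (0 : Qbar) = _
  rw [baseChange_b₂ P Qbar]; ring

theorem h25l_D0_al_le {A : ValuationSubring Qbar} (hA : A.LiesOverPrime P.p) :
    A.valuation (h25l_D0 P).al ≤ 1 := by
  rw [h25l_D0_al, map_div₀, h25l_val_sixteen P hA, div_one, Valuation.map_neg, map_mul]
  exact mul_le_one₀ (h25l_vA P A) zero_le (h25l_vB P A)

theorem h25l_D0_be_le (A : ValuationSubring Qbar) :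
    A.valuation (h25l_D0 P).be ≤ 1 := by
  rw [h25l_D0_be]
  exact (A.valuation.map_sub _ _).trans (max_le (h25l_vB P A) (h25l_vA P A))

/-- The kernel of reduction at `A` inside the group of all points. -/
noncomputable def h25l_E1 (A : ValuationSubring Qbar) (hA : A.LiesOverPrime P.p) :
    AddSubgroup ((P.freyCurve)⁄Qbar).Point :=
  h25l_ker (h25l_D0 P) A.valuation (h25l_val_two P hA) (h25l_D0_al_le P hA) (h25l_D0_be_le P A)

theorem h25l_mem_E1_iff (A : ValuationSubring Qbar) (hA : A.LiesOverPrime P.p)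
    (x : ((P.freyCurve)⁄Qbar).Point) :
    x ∈ h25l_E1 P A hA ↔ x = 0 ∨ 1 < A.valuation (h29_xi ((P.freyCurve)⁄Qbar) 0 x) := Iff.rfl

/-- The kernel of reduction at `A` inside the `p`-torsion, as a `ZMod p`-subspace. -/
noncomputable def h25l_V1 (A : ValuationSubring Qbar) (hA : A.LiesOverPrime P.p) : Sub P :=
  AddSubgroup.toZModSubmodule P.p
    ((h25l_E1 P A hA).comap
      (Submodule.torsionBy ℤ ((P.freyCurve)⁄Qbar).Point P.p).subtype.toAddMonoidHom)

theorem h25l_mem_V1_iff (A : ValuationSubring Qbar) (hA : A.LiesOverPrime P.p) (x : Tors P) :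
    x ∈ h25l_V1 P A hA ↔
      (x : ((P.freyCurve)⁄Qbar).Point) = 0 ∨
        1 < A.valuation (h29_xi ((P.freyCurve)⁄Qbar) 0 (x : ((P.freyCurve)⁄Qbar).Point)) :=
  Iff.rfl

/-- changing the shift by an integral `x₀` does not change the kernel of reduction -/
theorem h25l_xi_shift (A : ValuationSubring Qbar) {x₀ : Qbar} (hx₀ : A.valuation x₀ ≤ 1)
    (R : ((P.freyCurve)⁄Qbar).Point)
    (h : 1 < A.valuation (h29_xi ((P.freyCurve)⁄Qbar) x₀ R)) :
    1 < A.valuation (h29_xi ((P.freyCurve)⁄Qbar) 0 R) := by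
  rcases R with _ | ⟨x, y, hxy⟩
  · exfalso
    change 1 < A.valuation (0 : Qbar) at h
    rw [_root_.map_zero] at h
    exact absurd h (not_lt.mpr zero_le_one)
  · simp only [h29_xi_some, sub_zero] at h ⊢
    have e : x = (x - x₀) + x₀ := by ring
    rw [e, Valuation.map_add_eq_of_lt_left _ (lt_of_le_of_lt hx₀ h)]
    exact h

/-- **LP (b) for the Frey curve, on points.** -/
theorem h25l_frey_point (A : ValuationSubring Qbar) (hA : A.LiesOverPrime P.p)
    (σ : Qbar ≃ₐ[ℚ] Qbar) (hσ : σ ∈ A.inertiaSubgroupIn ℚ)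
    (x : ((P.freyCurve)⁄Qbar).Point) (hx : P.p • x = 0) :
    σ • x - x ∈ h25l_E1 P A hA := by
  have h2 : (2 : Qbar) ≠ 0 := two_ne_zero
  have hq := P.pp
  have hv2 : A.valuation (2 : Qbar) = 1 := h25l_val_two P hA
  have hv4 : A.valuation (4 : Qbar) = 1 := h25l_val_four P hA
  have hv16 : A.valuation (16 : Qbar) = 1 := h25l_val_sixteen P hA
  have hσv : ∀ y : Qbar, A.valuation ((σ : Qbar →+* Qbar) y) = A.valuation y := fun y =>
    h9_inertia_valuation_apply A hσ ((AlgebraicClosure.isAlgebraic ℚ).isAlgebraic y)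
  have hσm : ∀ y : Qbar, A.valuation y ≤ 1 → A.valuation ((σ : Qbar →+* Qbar) y - y) < 1 := by
    intro y hy
    have hyA : y ∈ A := (ValuationSubring.valuation_le_one_iff A y).mp hy
    have := h9_inertia_apply_sub_mem_nonunits A hσ hyA
    exact (ValuationSubring.mem_nonunits_iff A).mp this
  have hσ0 : ∀ Q : ((P.freyCurve)⁄Qbar).Point, h6_sigmaG P σ Q = 0 → Q = 0 := fun Q hQ =>
    (h29_smul_eq_zero_iff σ Q).mp hQ
  have hb₂ := baseChange_b₂ P Qbar
  have hb₄ := baseChange_b₄ P Qbar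
  have hb₆ := baseChange_b₆ P Qbar
  have hABC := AK_add_BK P Qbar
  have hvA : A.valuation (AK P Qbar) = A.valuation ((P.a : ℤ) : Qbar) ^ P.p := by
    rw [AK, map_pow]
  have hvB : A.valuation (BK P Qbar) = A.valuation ((P.b : ℤ) : Qbar) ^ P.p := by
    rw [BK, map_pow]
  have hvC : A.valuation (CK P Qbar) = A.valuation ((P.c : ℤ) : Qbar) ^ P.p := by
    rw [CK, map_pow]
  have hA0 : AK P Qbar ≠ 0 := pow_ne_zero _ (by exact_mod_cast P.ha0)
  have hB0 : BK P Qbar ≠ 0 := pow_ne_zero _ (by exact_mod_cast P.hb0)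
  have hC0 : CK P Qbar ≠ 0 := pow_ne_zero _ (by exact_mod_cast P.hc0)
  have hvA1 := h25l_vA P A
  have hvB1 := h25l_vB P A
  have hvC1 := h25l_vC P A
  rw [h25l_mem_E1_iff]
  by_cases hc : (P.p : ℤ) ∣ P.c
  · -- `p ∣ c`: shift by `x₀ = A / 4`
    have hb : ¬ (P.p : ℤ) ∣ P.b := not_dvd_b_of_dvd_c P hq hc
    have hvb : A.valuation ((P.b : ℤ) : Qbar) = 1 := valuation_intCast_eq_one hq hA hb
    have hx₀ : 4 * (AK P Qbar / 4) ^ 3 + ((P.freyCurve)⁄Qbar).b₂ * (AK P Qbar / 4) ^ 2 +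
        2 * ((P.freyCurve)⁄Qbar).b₄ * (AK P Qbar / 4) + ((P.freyCurve)⁄Qbar).b₆ = 0 := by
      rw [hb₂, hb₄, hb₆]; ring
    have hal : (((P.freyCurve)⁄Qbar).b₄ + (AK P Qbar / 4) * ((P.freyCurve)⁄Qbar).b₂ +
        6 * (AK P Qbar / 4) ^ 2) / 2 = AK P Qbar * CK P Qbar / 16 := by
      rw [hb₂, hb₄, ← hABC]; ring
    have hbe : ((P.freyCurve)⁄Qbar).b₂ + 12 * (AK P Qbar / 4) = BK P Qbar + 2 * AK P Qbar := by
      rw [hb₂]; ring
    have hσx₀ : σ (AK P Qbar / 4) = AK P Qbar / 4 := by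
      rw [AK, map_div₀, map_pow, map_intCast, map_ofNat]
    have hvx₀ : A.valuation (AK P Qbar / 4) ≤ 1 := by
      rw [map_div₀, hv4, div_one]; exact hvA1
    have key := h25l_inertia_ker (h29_xdata ((P.freyCurve)⁄Qbar) h2 (AK P Qbar / 4) hx₀)
      (fun R S hR hS hne => h25l_sub_formula ((P.freyCurve)⁄Qbar) (AK P Qbar / 4) R S hR hS hne)
      A.valuation hv2 ?_ ?_ ?_ ?_
      P.pp P.hp5 (((P.a * P.c : ℤ)) : Qbar) ?_ (σ : Qbar →+* Qbar) (h6_sigmaG P σ)
      ?_ ?_ hσ0 hσv hσm ?_ hx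
    · rcases key with h | h
      · exact Or.inl h
      · exact Or.inr (h25l_xi_shift P A hvx₀ _ h)
    · rw [h29_xdata_al, hal, map_div₀, hv16, div_one, map_mul]
      exact mul_le_one₀ hvA1 zero_le hvC1
    · rw [h29_xdata_al, hal]
      exact div_ne_zero (mul_ne_zero hA0 hC0) (by norm_num)
    · rw [h29_xdata_be, hbe]
      refine (A.valuation.map_add _ _).trans (max_le hvB1 ?_)
      rw [map_mul, hv2, one_mul]; exact hvA1
    · rw [h29_xdata_be, h29_xdata_al, hal, hbe]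
      have : (BK P Qbar + 2 * AK P Qbar) ^ 2 - 64 * (AK P Qbar * CK P Qbar / 16) =
          BK P Qbar ^ 2 := by rw [← hABC]; ring
      rw [this, map_pow, hvB, hvb, one_pow, one_pow]
    · rw [h29_xdata_al, hal, map_div₀, hv16, div_one, map_mul, hvA, hvC, ← mul_pow, ← map_mul]
      push_cast; rfl
    · intro Q _
      exact h29_xi_smul σ (AK P Qbar / 4) hσx₀ Q
    · intro Q _
      exact h29_om_smul σ Q
    · simp
  · -- `p ∤ c`: shift by `x₀ = 0`
    have hvc : A.valuation ((P.c : ℤ) : Qbar) = 1 := valuation_intCast_eq_one hq hA hc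
    have hx₀ := h25l_hx0 P
    have hal : (((P.freyCurve)⁄Qbar).b₄ + (0 : Qbar) * ((P.freyCurve)⁄Qbar).b₂ +
        6 * (0 : Qbar) ^ 2) / 2 = -(AK P Qbar * BK P Qbar) / 16 := by
      rw [hb₄]; ring
    have hbe : ((P.freyCurve)⁄Qbar).b₂ + 12 * (0 : Qbar) = BK P Qbar - AK P Qbar := by
      rw [hb₂]; ring
    have hσx₀ : σ (0 : Qbar) = 0 := _root_.map_zero σ
    refine h25l_inertia_ker (h29_xdata ((P.freyCurve)⁄Qbar) h2 0 hx₀)
      (fun R S hR hS hne => h25l_sub_formula ((P.freyCurve)⁄Qbar) 0 R S hR hS hne)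
      A.valuation hv2 ?_ ?_ ?_ ?_
      P.pp P.hp5 (((P.a * P.b : ℤ)) : Qbar) ?_ (σ : Qbar →+* Qbar) (h6_sigmaG P σ)
      ?_ ?_ hσ0 hσv hσm ?_ hx
    · rw [h29_xdata_al, hal, map_div₀, hv16, div_one, Valuation.map_neg, map_mul]
      exact mul_le_one₀ hvA1 zero_le hvB1
    · rw [h29_xdata_al, hal]
      exact div_ne_zero (neg_ne_zero.mpr (mul_ne_zero hA0 hB0)) (by norm_num)
    · rw [h29_xdata_be, hbe]
      exact (A.valuation.map_sub _ _).trans (max_le hvB1 hvA1)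
    · rw [h29_xdata_be, h29_xdata_al, hal, hbe]
      have : (BK P Qbar - AK P Qbar) ^ 2 - 64 * (-(AK P Qbar * BK P Qbar) / 16) =
          CK P Qbar ^ 2 := by rw [← hABC]; ring
      rw [this, map_pow, hvC, hvc, one_pow, one_pow]
    · rw [h29_xdata_al, hal, map_div₀, hv16, div_one, Valuation.map_neg, map_mul, hvA, hvB,
        ← mul_pow, ← map_mul]
      push_cast; rfl
    · intro Q _
      exact h29_xi_smul σ 0 hσx₀ Q
    · intro Q _
      exact h29_om_smul σ Q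
    · simp

/-- **LP (b) for the Frey curve.** Inertia at `p` acts trivially on `V / V1`. -/
theorem h25l_frey_inertia (A : ValuationSubring Qbar) (hA : A.LiesOverPrime P.p)
    (σ : Qbar ≃ₐ[ℚ] Qbar) (hσ : σ ∈ A.inertiaSubgroupIn ℚ) (x : Tors P) :
    σ • x - x ∈ h25l_V1 P A hA := by
  have hx : P.p • x.1 = 0 := by
    have := x.2
    rw [Submodule.mem_torsionBy_iff] at this
    rw [← natCast_zsmul]
    exact this
  exact h25l_frey_point P A hA σ hσ x.1 hx

end Fermat.Agent.H25L
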