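/-
T-Ell piece LP (helper25): assembly.  `LP P` (of `TEll/Defs.lean`) from
* `Card P` (so that `dim E[p] ≤ 2`),
* LP3 (helper16, `TEll/LP3.lean`): `E[p]` is not contained in the kernel of reduction at `A`,
* LP (a), (b) (`LPKer`, `LPInertia`, `LPV1`): the kernel of reduction `V1` is a subspace and
  inertia at `A` acts trivially on `V / V1`.
-/
import Fermat.Agent.TEll.LPV1
import Fermat.Agent.TEll.LP3
import Fermat.Agent.TEll.Fin

set_option autoImplicit false

namespace Fermat.Agent.H25L

open WeierstrassCurve WeierstrassCurve.Affine WeierstrassCurve.Affine.Point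
open Fermat.Agent.H29 Fermat.Agent.TEll Polynomial

local notation "Qbar" => AlgebraicClosure ℚ

/-- `LP P` from `Card P` and the conclusion of LP3. -/
theorem h25l_LP_of_integral (P : FreyPackage) (hCard : Card P)
    (h3 : ∀ N : Sub P, IsGaloisStable ℚ N → N ≠ ⊥ → N ≠ ⊤ →
      ∀ A : ValuationSubring Qbar, A.LiesOverPrime P.p →
        ∃ (x y : Qbar) (h : ((P.freyCurve)⁄Qbar).Nonsingular x y),
          Point.some x y h ∈ Submodule.torsionBy ℤ ((P.freyCurve)⁄Qbar).Point P.p ∧ x ∈ A) :
    LP P := by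
  intro N hN hbot htop A hA
  have : Fact P.p.Prime := ⟨P.pp⟩
  obtain ⟨hfin, hdim⟩ := h26_finrank_le_two P hCard
  have : Module.Finite (ZMod P.p) (Tors P) := hfin
  by_cases hcap : N ⊓ h25l_V1 P A hA = ⊥
  · left
    intro σ hσ x hx
    have h1 : σ • x - x ∈ N := N.sub_mem (hN σ x hx) hx
    have h2 : σ • x - x ∈ h25l_V1 P A hA := h25l_frey_inertia P A hA σ hσ x
    have h4 : σ • x - x ∈ N ⊓ h25l_V1 P A hA := ⟨h1, h2⟩
    rw [hcap, Submodule.mem_bot] at h4
    exact sub_eq_zero.mp h4
  · right
    have hN1 : Module.finrank (ZMod P.p) N < Module.finrank (ZMod P.p) (Tors P) :=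
      Submodule.finrank_lt htop
    have hN2 : 0 < Module.finrank (ZMod P.p) N := by
      rw [Module.finrank_pos_iff]
      exact (Submodule.nontrivial_iff_ne_bot).mpr hbot
    have hNrk : Module.finrank (ZMod P.p) N = 1 := by omega
    -- `N ≤ V1`
    have hcap2 : 0 < Module.finrank (ZMod P.p) ↥(N ⊓ h25l_V1 P A hA) := by
      rw [Module.finrank_pos_iff]
      exact (Submodule.nontrivial_iff_ne_bot).mpr hcap
    have hcapN : N ⊓ h25l_V1 P A hA = N :=
      Submodule.eq_of_le_of_finrank_le inf_le_left (by omega)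
    have hle : N ≤ h25l_V1 P A hA := by
      rw [← hcapN]; exact inf_le_right
    -- `V1 ≠ ⊤`
    have hV1top : h25l_V1 P A hA ≠ ⊤ := by
      intro htop'
      obtain ⟨x, y, h, hmem, hxA⟩ := h3 N hN hbot htop A hA
      have hin : (⟨Point.some x y h, hmem⟩ : Tors P) ∈ h25l_V1 P A hA := by
        rw [htop']; exact Submodule.mem_top
      rw [h25l_mem_V1_iff] at hin
      rcases hin with h0 | h1
      · exact absurd h0 (by intro h'; cases h')
      · simp only [h29_xi_some, sub_zero] at h1
        have : A.valuation x ≤ 1 := (ValuationSubring.valuation_le_one_iff A x).mpr hxA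
        exact absurd h1 (not_lt.mpr this)
    have hV1 : Module.finrank (ZMod P.p) ↥(h25l_V1 P A hA) <
        Module.finrank (ZMod P.p) (Tors P) := Submodule.finrank_lt hV1top
    have heq : N = h25l_V1 P A hA := Submodule.eq_of_le_of_finrank_le hle (by omega)
    intro σ hσ x
    rw [heq]
    exact h25l_frey_inertia P A hA σ hσ x

/-- **Piece LP**, modulo `Card P` and the ladder polynomial `F` of LP3 (an integer polynomial of
degree `≤ d` with `d`-th coefficient `p (p - 2)` vanishing at the `x`-coordinates of all nonzero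
`p`-torsion points). -/
theorem h25l_LP (P : FreyPackage) (hCard : Card P)
    (F : ℤ[X]) (d : ℕ) (hd : F.natDegree ≤ d)
    (hlc : F.coeff d = (P.p : ℤ) * ((P.p : ℤ) - 2))
    (hF : ∀ (x y : Qbar) (h : ((P.freyCurve)⁄Qbar).Nonsingular x y),
      Point.some x y h ∈ Submodule.torsionBy ℤ ((P.freyCurve)⁄Qbar).Point P.p →
        eval₂ (Int.castRingHom Qbar) x F = 0) :
    LP P :=
  h25l_LP_of_integral P hCard fun N hN hbot htop A hA =>
    Fermat.Agent.H16LP.h16lp_exists_integral_x P.pp (h25l_p_ne_two P) F d hd hlc hF A hA N hN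
      hbot htop

end Fermat.Agent.H25L
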