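import Mathlib
import Fermat.Prelude.Def_FLTPrelim_FreyPackage
import Fermat.Prelude.Def_FLTPrelim_GaloisRep
import Fermat.Prelude.Def_FLTPrelim_Ramification
import Fermat.Agent.S05.FreyArith
import Fermat.Agent.TEll.LadderPts
import Fermat.Agent.TEll.LadderDeg
import Fermat.Agent.TEll.LP3

/-!
# T-Ell, piece LP3 for the Frey curve (helper16)

* `h16lp_relPoly W n = X · V_n - U_n` (ladder polynomials of helper3): a point `Q` with
  `n • Q = -Q` has `x(Q)` a root; degree `≤ n²`, coefficient `n² - 1` in degree `n²`.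
* `h16lp_freyInt_map`: the Frey curve is the base change of the integral Frey curve.
* `h16lp_frey`: **LP3** for the Frey curve: if `E[p]` contains a Galois-stable proper nonzero
  subspace, then at every place `A` over `p` some nonzero `p`-torsion point has `x ∈ A`
  (`E[p]` is not contained in the kernel of reduction).
-/

set_option autoImplicit false

namespace Fermat.Agent.H16LP

open Polynomial WeierstrassCurve WeierstrassCurve.Affine WeierstrassCurve.Affine.Point
open Fermat.Agent.H3Lad Fermat.Agent.H21Lad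

section rel

variable {R : Type*} [CommRing R]

/-- the relation polynomial `X · V_n - U_n` -/
noncomputable def h16lp_relPoly (W : WeierstrassCurve R) (n : ℕ) : R[X] :=
  X * h3lad_V W n - h3lad_U W n

theorem h16lp_relPoly_top (W : WeierstrassCurve R) {n : ℕ} (hn : 1 ≤ n) :
    (h16lp_relPoly W n).natDegree ≤ n ^ 2 ∧
      (h16lp_relPoly W n).coeff (n ^ 2) = (n : R) ^ 2 - 1 := by
  have hU := h21_U_top W n
  have hV := h21_V_top W n
  have h1 : 1 ≤ n ^ 2 := Nat.one_le_pow _ _ hn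
  have hXV : Top (X * h3lad_V W n) (n ^ 2) ((n : R) ^ 2) :=
    (top_X.mul hV).cast (by omega) (by ring)
  exact hXV.sub hU

theorem h16lp_relPoly_map {S : Type*} [CommRing S] (W : WeierstrassCurve R) (f : R →+* S)
    (n : ℕ) : (h16lp_relPoly W n).map f = h16lp_relPoly (W.map f) n := by
  simp only [h16lp_relPoly, Polynomial.map_sub, Polynomial.map_mul, Polynomial.map_X,
    h3lad_U_map, h3lad_V_map]

end rel

section pts

variable {K : Type*} [Field K] [DecidableEq K] (E : WeierstrassCurve.Affine K)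

/-- if `n • Q = -Q` for an affine point `Q`, then `x(Q)` is a root of `X · V_n - U_n` -/
theorem h16lp_relPoly_eval (h2 : (2 : K) ≠ 0) (hΔ : E.Δ ≠ 0) {x y : K}
    (h : E.Nonsingular x y) (n : ℕ)
    (hn : n • Point.some x y h = -Point.some x y h) :
    (h16lp_relPoly E n).eval x = 0 := by
  rw [neg_some] at hn
  have := h3lad_nsmul_some E h2 hΔ h n hn
  rw [h16lp_relPoly, eval_sub, eval_mul, eval_X, this.2, sub_self]

end pts

section frey

variable (P : FreyPackage)

theorem h16lp_four_dvd : (4 : ℤ) ∣ P.b ^ P.p - 1 - P.a ^ P.p := by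
  apply (ZMod.intCast_zmod_eq_zero_iff_dvd (P.b ^ P.p - 1 - P.a ^ P.p) 4).1
  have hb : ((P.b : ZMod 4)) ^ P.p = 0 := by
    have h2 : (2 : ℤ) ∣ P.b := (ZMod.intCast_zmod_eq_zero_iff_dvd P.b 2).1 P.hb2
    obtain ⟨k, hk⟩ := h2
    have h4 : (4 : ℤ) ∣ P.b ^ P.p := by
      have : P.p = 2 + (P.p - 2) := by have := P.hp5; omega
      rw [this, pow_add, hk]
      exact Dvd.dvd.mul_right ⟨k ^ 2, by ring⟩ _
    have := (ZMod.intCast_zmod_eq_zero_iff_dvd (P.b ^ P.p) 4).2 h4
    simpa using this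
  have ha : ((P.a : ZMod 4)) ^ P.p = 3 := by
    rw [P.ha4]
    obtain ⟨k, hk⟩ := P.hp_odd
    rw [hk, pow_succ, pow_mul]
    have : (3 : ZMod 4) ^ 2 = 1 := by decide
    rw [this, one_pow, one_mul]
  push_cast
  rw [hb, ha]
  decide

theorem h16lp_sixteen_dvd : (16 : ℤ) ∣ -(P.a ^ P.p) * (P.b ^ P.p) := by
  have h2 : (2 : ℤ) ∣ P.b := (ZMod.intCast_zmod_eq_zero_iff_dvd P.b 2).1 P.hb2
  obtain ⟨k, hk⟩ := h2
  have : P.p = 4 + (P.p - 4) := by have := P.hp5; omega
  rw [this, pow_add, pow_add, hk]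
  exact ⟨-(P.a ^ 4 * P.a ^ (P.p - 4)) * (k ^ 4 * (2 * k) ^ (P.p - 4)), by ring⟩

/-- the Frey curve over `ℚ` is the base change of the integral Frey curve -/
theorem h16lp_freyInt_map : P.freyCurveInt.map (Int.castRingHom ℚ) = P.freyCurve := by
  ext
  · simp [FreyPackage.freyCurveInt, FreyPackage.freyCurve]
  · simp only [FreyPackage.freyCurveInt, FreyPackage.freyCurve, WeierstrassCurve.map_a₂,
      eq_intCast]
    rw [Int.cast_div (h16lp_four_dvd P) (by norm_num)]
    push_cast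
    rfl
  · simp [FreyPackage.freyCurveInt, FreyPackage.freyCurve]
  · simp only [FreyPackage.freyCurveInt, FreyPackage.freyCurve, WeierstrassCurve.map_a₄,
      eq_intCast]
    rw [Int.cast_div (h16lp_sixteen_dvd P) (by norm_num)]
    push_cast
    rfl
  · simp [FreyPackage.freyCurveInt, FreyPackage.freyCurve]

local notation "Qbar" => AlgebraicClosure ℚ

/-- the integer relation polynomial of the Frey curve -/
noncomputable def h16lp_freyPoly : ℤ[X] := h16lp_relPoly P.freyCurveInt (P.p - 1)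

theorem h16lp_freyPoly_top :
    (h16lp_freyPoly P).natDegree ≤ (P.p - 1) ^ 2 ∧
      (h16lp_freyPoly P).coeff ((P.p - 1) ^ 2) = (P.p : ℤ) * ((P.p : ℤ) - 2) := by
  have hp := P.hp5
  have h := h16lp_relPoly_top P.freyCurveInt (n := P.p - 1) (by omega)
  refine ⟨h.1, ?_⟩
  rw [h16lp_freyPoly, h.2]
  have : ((P.p - 1 : ℕ) : ℤ) = (P.p : ℤ) - 1 := by
    rw [Nat.cast_sub (by omega)]; simp
  rw [this]; ring

theorem h16lp_freyPoly_root (x y : Qbar) (h : (P.freyCurve⁄Qbar).Nonsingular x y)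
    (hP : Point.some x y h ∈ Submodule.torsionBy ℤ (P.freyCurve⁄Qbar).Point P.p) :
    eval₂ (Int.castRingHom Qbar) x (h16lp_freyPoly P) = 0 := by
  have hp := P.hp5
  have h2 : (2 : Qbar) ≠ 0 := two_ne_zero
  have hΔ : (P.freyCurve⁄Qbar).Δ ≠ 0 := by
    change (P.freyCurve.map (algebraMap ℚ Qbar)).Δ ≠ 0
    rw [WeierstrassCurve.map_Δ]
    exact (map_ne_zero_iff _ (algebraMap ℚ Qbar).injective).2
      (Fermat.Agent.H4Frey.freyCurve_Δ_ne_zero P)
  have hmap : P.freyCurveInt.map (Int.castRingHom Qbar) = (P.freyCurve⁄Qbar) := by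
    change _ = P.freyCurve.map (algebraMap ℚ Qbar)
    rw [← h16lp_freyInt_map, WeierstrassCurve.map_map]
    congr 1
  rw [← eval_map, h16lp_freyPoly, h16lp_relPoly_map, hmap]
  apply h16lp_relPoly_eval _ h2 hΔ h
  rw [Submodule.mem_torsionBy_iff] at hP
  have h1 : ((P.p - 1 : ℕ) : ℤ) = (P.p : ℤ) - 1 := by
    rw [Nat.cast_sub (by omega)]; simp
  rw [← natCast_zsmul, h1, sub_smul, hP, one_smul, zero_sub]

/-- **LP3 for the Frey curve.** If `E[p]` has a Galois-stable subspace `N ≠ ⊥, ⊤`, then for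
every valuation subring `A` of `ℚ̄` over `p` there is a nonzero `p`-torsion point with
`x`-coordinate in `A`. -/
theorem h16lp_frey (A : ValuationSubring Qbar) (hA : A.LiesOverPrime P.p)
    (N : Submodule (ZMod P.p) (Submodule.torsionBy ℤ (P.freyCurve⁄Qbar).Point P.p))
    (hN : IsGaloisStable ℚ N) (hbot : N ≠ ⊥) (htop : N ≠ ⊤) :
    ∃ (x y : Qbar) (h : (P.freyCurve⁄Qbar).Nonsingular x y),
      Point.some x y h ∈ Submodule.torsionBy ℤ (P.freyCurve⁄Qbar).Point P.p ∧ x ∈ A := by
  have hp := P.hp5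
  exact h16lp_exists_integral_x (W := P.freyCurve) P.pp (by omega) (h16lp_freyPoly P)
    ((P.p - 1) ^ 2) (h16lp_freyPoly_top P).1 (h16lp_freyPoly_top P).2
    (h16lp_freyPoly_root P) A hA N hN hbot htop

end frey

end Fermat.Agent.H16LP
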