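/-
T-Ell piece LP (helper25): **`LP P` holds for every Frey package** (no hypotheses left).
Inputs: `h21_Card` (helper21, `DPCard.lean`), `h16lp_frey` (helper16, `LP3Frey.lean`),
`h25l_LP_of_integral` (`LP.lean`).
-/
import Fermat.Agent.TEll.LP
import Fermat.Agent.TEll.LP3Frey
import Fermat.Agent.TEll.DPCard

set_option autoImplicit false

namespace Fermat.Agent.H25L

open Fermat.Agent.TEll

/-- **Piece LP of T-Ell.** For a Galois-stable line `N` in `E[p]` and a place `A` over `p`, the
inertia group of `A` acts trivially on `N` or on `E[p] / N`. -/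
theorem h25l_LP_frey (P : FreyPackage) : LP P :=
  h25l_LP_of_integral P (Fermat.Agent.H21DP.h21_Card P) fun N hN hbot htop A hA =>
    Fermat.Agent.H16LP.h16lp_frey P A hA N hN hbot htop

end Fermat.Agent.H25L
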