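/-
T-Ell piece LP, Frey wiring at `p` (helper4), in the style of helper6's `S05/Assembly.lean`.

From the abstract statement `H4LPInertiaKer` (= helper25's `H25LInertiaKer`: an inertia-like
automorphism moves a point of order `p` only inside the kernel of reduction, for `XData` with the
sign formula, with NO hypothesis on `v(p)`), deduce for the Frey curve and every valuation
subring `A` of `ℚ̄` over `p`:

  `σ ∈ I_A`, `p • x = 0`  ⟹  `σ • x - x = 0  ∨  1 < v_A (x-coordinate of (σ • x - x))`.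
-/
import Fermat.Agent.S05.Assembly
import Fermat.Agent.TEll.LPSign

set_option autoImplicit false

namespace Fermat.Agent.H4LP

open WeierstrassCurve WeierstrassCurve.Affine WeierstrassCurve.Affine.Point
open Fermat.Agent.H29 Fermat.Agent.H4Frey Fermat.Agent.H9 Fermat.Agent.H6

local notation "Qbar" => AlgebraicClosure ℚ

/-- The abstract statement (to be proved for all `G` by helper25, `TEll/LPInertia.lean`):
for `XData` with the sign formula and an inertia-like automorphism `σ`, a point `P` of order `p`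
satisfies `σ P - P ∈ E₁ ∪ {0}`.  No hypothesis on `v(p)`. -/
def H4LPInertiaKer (G : Type) [AddCommGroup G] : Prop :=
  ∀ (D : H5.XData Qbar G)
    (_hsub : ∀ P Q, P ≠ 0 → Q ≠ 0 → D.xi P ≠ D.xi Q →
      (4 * D.xi (P - Q) + D.be + 4 * D.xi P + 4 * D.xi Q) * (D.xi P - D.xi Q) ^ 2 =
        (D.om P + D.om Q) ^ 2)
    (A : ValuationSubring Qbar)
    (_h2 : A.valuation (2 : Qbar) = 1)
    (_hal : A.valuation D.al ≤ 1) (_hal0 : D.al ≠ 0) (_hbe : A.valuation D.be ≤ 1)
    (_hdisc : A.valuation (D.be ^ 2 - 64 * D.al) = 1)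
    {p : ℕ} (_hpp : p.Prime) (_hp5 : 5 ≤ p)
    (π : Qbar) (_hπ : A.valuation D.al = A.valuation π ^ p)
    (σK : Qbar →+* Qbar) (σG : G →+ G)
    (_hσxi : ∀ P, P ≠ 0 → D.xi (σG P) = σK (D.xi P))
    (_hσom : ∀ P, P ≠ 0 → D.om (σG P) = σK (D.om P))
    (_hσ0 : ∀ P, σG P = 0 → P = 0)
    (_hσv : ∀ x, A.valuation (σK x) = A.valuation x)
    (_hσm : ∀ x, A.valuation x ≤ 1 → A.valuation (σK x - x) < 1)
    (_hσπ : σK π = π)
    {P : G} (_hpP : p • P = 0),
    σG P - P = 0 ∨ 1 < A.valuation (D.xi (σG P - P))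

/-- Changing the shift `x₀` (integral) does not change "the `x`-coordinate is not integral". -/
theorem h4lp_xi_shift {F : Type*} [Field F] (W : WeierstrassCurve.Affine F)
    (A : ValuationSubring F) (x₀ : F) (hx₀ : A.valuation x₀ ≤ 1) (R : W.Point)
    (h : 1 < A.valuation (h29_xi W x₀ R)) : 1 < A.valuation (h29_xi W 0 R) := by
  rcases R with _ | ⟨x, y, hxy⟩
  · exact h
  · change 1 < A.valuation (x - x₀) at h
    change 1 < A.valuation (x - 0)
    rw [sub_zero]
    have e : x = (x - x₀) + x₀ := by ring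
    have hlt : A.valuation x₀ < A.valuation (x - x₀) := lt_of_le_of_lt hx₀ h
    rw [e, Valuation.map_add_eq_of_lt_left A.valuation hlt]
    exact h

variable (P : FreyPackage)

/-- **LP, Frey wiring.** Inertia at a place over `p` moves `p`-torsion points of the Frey curve
only inside the kernel of reduction. -/
theorem h4lp_frey_inertia (htf : H4LPInertiaKer ((P.freyCurve)⁄Qbar).Point)
    (A : ValuationSubring Qbar) (hA : A.LiesOverPrime P.p)
    (σ : Qbar ≃ₐ[ℚ] Qbar) (hσ : σ ∈ A.inertiaSubgroupIn ℚ)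
    (x : ((P.freyCurve)⁄Qbar).Point) (hx : P.p • x = 0) :
    σ • x - x = 0 ∨ 1 < A.valuation (h29_xi ((P.freyCurve)⁄Qbar) 0 (σ • x - x)) := by
  have hq : P.p.Prime := P.pp
  have hq2 : P.p ≠ 2 := by have := P.hp5; omega
  have h2 : (2 : Qbar) ≠ 0 := two_ne_zero
  have hv2 : A.valuation (2 : Qbar) = 1 := h6_val_two hq hq2 hA
  have hv16 : A.valuation (16 : Qbar) = 1 := h6_val_sixteen hq hq2 hA
  have hv4 : A.valuation (4 : Qbar) = 1 := by
    have h4 : (4 : Qbar) = 2 ^ 2 := by norm_num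
    rw [h4, map_pow, hv2, one_pow]
  have hσv : ∀ y : Qbar, A.valuation ((σ : Qbar →+* Qbar) y) = A.valuation y := fun y =>
    h9_inertia_valuation_apply A hσ ((AlgebraicClosure.isAlgebraic ℚ).isAlgebraic y)
  have hσm : ∀ y : Qbar, A.valuation y ≤ 1 → A.valuation ((σ : Qbar →+* Qbar) y - y) < 1 := by
    intro y hy
    have hyA : y ∈ A := (ValuationSubring.valuation_le_one_iff A y).mp hy
    have := h9_inertia_apply_sub_mem_nonunits A hσ hyA
    exact (ValuationSubring.mem_nonunits_iff A).mp this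
  have hσ0 : ∀ Q : ((P.freyCurve)⁄Qbar).Point, h6_sigmaG P σ Q = 0 → Q = 0 := fun Q hQ =>
    (h29_smul_eq_zero_iff σ Q).mp hQ
  have hb₂ := baseChange_b₂ P Qbar
  have hb₄ := baseChange_b₄ P Qbar
  have hb₆ := baseChange_b₆ P Qbar
  have hABC := AK_add_BK P Qbar
  have hvA : A.valuation (AK P Qbar) = A.valuation ((P.a : ℤ) : Qbar) ^ P.p := by
    rw [AK, map_pow]
  have hvB : A.valuation (BK P Qbar) = A.valuation ((P.b : ℤ) : Qbar) ^ P.p := by
    rw [BK, map_pow]
  have hvC : A.valuation (CK P Qbar) = A.valuation ((P.c : ℤ) : Qbar) ^ P.p := by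
    rw [CK, map_pow]
  have hA0 : AK P Qbar ≠ 0 := pow_ne_zero _ (by exact_mod_cast P.ha0)
  have hB0 : BK P Qbar ≠ 0 := pow_ne_zero _ (by exact_mod_cast P.hb0)
  have hC0 : CK P Qbar ≠ 0 := pow_ne_zero _ (by exact_mod_cast P.hc0)
  have hvA1 : A.valuation (AK P Qbar) ≤ 1 := by
    rw [hvA]; exact pow_le_one₀ zero_le (h6_val_intCast_le_one _)
  have hvB1 : A.valuation (BK P Qbar) ≤ 1 := by
    rw [hvB]; exact pow_le_one₀ zero_le (h6_val_intCast_le_one _)
  have hvC1 : A.valuation (CK P Qbar) ≤ 1 := by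
    rw [hvC]; exact pow_le_one₀ zero_le (h6_val_intCast_le_one _)
  by_cases hc : (P.p : ℤ) ∣ P.c
  · -- `p ∣ c`: shift by `x₀ = A / 4`
    have hb : ¬ (P.p : ℤ) ∣ P.b := not_dvd_b_of_dvd_c P hq hc
    have hvb : A.valuation ((P.b : ℤ) : Qbar) = 1 := valuation_intCast_eq_one hq hA hb
    have hx₀ : 4 * (AK P Qbar / 4) ^ 3 + ((P.freyCurve)⁄Qbar).b₂ * (AK P Qbar / 4) ^ 2 +
        2 * ((P.freyCurve)⁄Qbar).b₄ * (AK P Qbar / 4) + ((P.freyCurve)⁄Qbar).b₆ = 0 := by
      rw [hb₂, hb₄, hb₆]; ring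
    have hal : (((P.freyCurve)⁄Qbar).b₄ + (AK P Qbar / 4) * ((P.freyCurve)⁄Qbar).b₂ +
        6 * (AK P Qbar / 4) ^ 2) / 2 = AK P Qbar * CK P Qbar / 16 := by
      rw [hb₂, hb₄, ← hABC]; ring
    have hbe : ((P.freyCurve)⁄Qbar).b₂ + 12 * (AK P Qbar / 4) = BK P Qbar + 2 * AK P Qbar := by
      rw [hb₂]; ring
    have hσx₀ : σ (AK P Qbar / 4) = AK P Qbar / 4 := by
      rw [AK, map_div₀, map_pow, map_intCast, map_ofNat]
    have hvx₀ : A.valuation (AK P Qbar / 4) ≤ 1 := by
      rw [map_div₀, hv4, div_one]; exact hvA1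
    have key := htf (h29_xdata ((P.freyCurve)⁄Qbar) h2 (AK P Qbar / 4) hx₀)
      (fun R Q hR hQ hne => by
        simpa using Fermat.Agent.H25L.h25l_sub_formula ((P.freyCurve)⁄Qbar) (AK P Qbar / 4)
          R Q hR hQ (by simpa using hne))
      A hv2
      (by
        rw [h29_xdata_al, hal, map_div₀, hv16, div_one, map_mul]
        exact mul_le_one₀ hvA1 zero_le hvC1)
      (by
        rw [h29_xdata_al, hal]
        exact div_ne_zero (mul_ne_zero hA0 hC0) (by norm_num))
      (by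
        rw [h29_xdata_be, hbe]
        refine (A.valuation.map_add _ _).trans (max_le hvB1 ?_)
        rw [map_mul, hv2, one_mul]; exact hvA1)
      (by
        rw [h29_xdata_be, h29_xdata_al, hal, hbe]
        have : (BK P Qbar + 2 * AK P Qbar) ^ 2 - 64 * (AK P Qbar * CK P Qbar / 16) =
            BK P Qbar ^ 2 := by rw [← hABC]; ring
        rw [this, map_pow, hvB, hvb, one_pow, one_pow])
      P.pp P.hp5 (((P.a * P.c : ℤ)) : Qbar)
      (by
        rw [h29_xdata_al, hal, map_div₀, hv16, div_one, map_mul, hvA, hvC, ← mul_pow, ← map_mul]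
        push_cast; rfl)
      (σ : Qbar →+* Qbar) (h6_sigmaG P σ)
      (fun Q _ => h29_xi_smul σ (AK P Qbar / 4) hσx₀ Q)
      (fun Q _ => h29_om_smul σ Q)
      hσ0 hσv hσm (by simp) hx
    rcases key with h | h
    · exact Or.inl h
    · refine Or.inr ?_
      rw [h29_xdata_xi] at h
      exact h4lp_xi_shift _ A (AK P Qbar / 4) hvx₀ _ h
  · -- `p ∤ c`: shift by `x₀ = 0`
    have hvc : A.valuation ((P.c : ℤ) : Qbar) = 1 := valuation_intCast_eq_one hq hA hc
    have hx₀ : 4 * (0 : Qbar) ^ 3 + ((P.freyCurve)⁄Qbar).b₂ * (0 : Qbar) ^ 2 +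
        2 * ((P.freyCurve)⁄Qbar).b₄ * (0 : Qbar) + ((P.freyCurve)⁄Qbar).b₆ = 0 := by
      rw [hb₆]; ring
    have hal : (((P.freyCurve)⁄Qbar).b₄ + (0 : Qbar) * ((P.freyCurve)⁄Qbar).b₂ +
        6 * (0 : Qbar) ^ 2) / 2 = -(AK P Qbar * BK P Qbar) / 16 := by
      rw [hb₄]; ring
    have hbe : ((P.freyCurve)⁄Qbar).b₂ + 12 * (0 : Qbar) = BK P Qbar - AK P Qbar := by
      rw [hb₂]; ring
    have hσx₀ : σ (0 : Qbar) = 0 := map_zero σ
    have key := htf (h29_xdata ((P.freyCurve)⁄Qbar) h2 0 hx₀)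
      (fun R Q hR hQ hne => by
        simpa using Fermat.Agent.H25L.h25l_sub_formula ((P.freyCurve)⁄Qbar) 0
          R Q hR hQ (by simpa using hne))
      A hv2
      (by
        rw [h29_xdata_al, hal, map_div₀, hv16, div_one, Valuation.map_neg, map_mul]
        exact mul_le_one₀ hvA1 zero_le hvB1)
      (by
        rw [h29_xdata_al, hal]
        exact div_ne_zero (neg_ne_zero.mpr (mul_ne_zero hA0 hB0)) (by norm_num))
      (by
        rw [h29_xdata_be, hbe]
        exact (A.valuation.map_sub _ _).trans (max_le hvB1 hvA1))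
      (by
        rw [h29_xdata_be, h29_xdata_al, hal, hbe]
        have : (BK P Qbar - AK P Qbar) ^ 2 - 64 * (-(AK P Qbar * BK P Qbar) / 16) =
            CK P Qbar ^ 2 := by rw [← hABC]; ring
        rw [this, map_pow, hvC, hvc, one_pow, one_pow])
      P.pp P.hp5 (((P.a * P.b : ℤ)) : Qbar)
      (by
        rw [h29_xdata_al, hal, map_div₀, hv16, div_one, Valuation.map_neg, map_mul, hvA, hvB,
          ← mul_pow, ← map_mul]
        push_cast; rfl)
      (σ : Qbar →+* Qbar) (h6_sigmaG P σ)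
      (fun Q _ => h29_xi_smul σ 0 hσx₀ Q)
      (fun Q _ => h29_om_smul σ Q)
      hσ0 hσv hσm (by simp) hx
    rcases key with h | h
    · exact Or.inl h
    · refine Or.inr ?_
      rw [h29_xdata_xi] at h
      exact h

end Fermat.Agent.H4LP
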